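import Fermat.Agent.X0Genus.DefsAn

open UpperHalfPlane ModularForm EisensteinSeries Function CongruenceSubgroup FA_IS
open scoped Manifold MatrixGroups Real

set_option linter.unusedSectionVars false
set_option linter.unusedVariables false

namespace FA24

/-! ### AN4 : `Laurent.lean` -/

variable {N : ℕ} [NeZero N] {f g : ℍ → ℂ}

local notation "Δ" => ModularForm.discriminant
local notation "oPS" => HahnSeries.ofPowerSeries ℤ ℂ

lemma nice_disc_one : Nice 1 Δ :=
  Nice.of_modularForm CuspForm.discriminant one_pos one_mem_strictPeriods_SL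

lemma nice_disc (N : ℕ) : Nice (N : ℝ) Δ := by
  simpa using nice_disc_one.nat_mul N

lemma natCast_pos' (N : ℕ) [NeZero N] : (0 : ℝ) < N := by
  exact_mod_cast Nat.pos_of_ne_zero (NeZero.ne N)

lemma disc_ne_zero_fun : (Δ : ℍ → ℂ) ≠ 0 := fun h =>
  discriminant_ne_zero UpperHalfPlane.I (congrFun h _)

lemma qExpansion_disc_ne_zero (N : ℕ) [NeZero N] : qExpansion N Δ ≠ 0 := fun h =>
  disc_ne_zero_fun ((nice_disc N).eq_zero_of_qExpansion (natCast_pos' N) h)

lemma oPS_disc_ne_zero (N : ℕ) [NeZero N] : oPS (qExpansion N Δ) ≠ 0 := by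
  intro h
  apply qExpansion_disc_ne_zero N
  apply HahnSeries.ofPowerSeries_injective (Γ := ℤ)
  rw [h, map_zero]

lemma bdd_mono {m m' : ℕ} (h : IsBoundedAtImInfty (f * Δ ^ m)) (hm : m ≤ m') :
    IsBoundedAtImInfty (f * Δ ^ m') := by
  obtain ⟨k, rfl⟩ := Nat.exists_eq_add_of_le hm
  rw [pow_add, ← mul_assoc]
  exact h.mul ((nice_disc_one.pow k).bdd)

lemma MeroInf.nice_mul (hf : MeroInf N f) {m : ℕ} (hm : IsBoundedAtImInfty (f * Δ ^ m)) :
    Nice (N : ℝ) (f * Δ ^ m) :=
  ⟨fun w => by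
    have h1 := hf.per w
    have h2 := ((nice_disc N).pow m).per w
    simp only [comp_apply, Pi.mul_apply] at h1 h2 ⊢
    rw [h1, h2], hf.hol.mul ((nice_disc N).pow m).hol, hm⟩

lemma poleBound_spec (hf : ∃ m : ℕ, IsBoundedAtImInfty (f * Δ ^ m)) :
    IsBoundedAtImInfty (f * Δ ^ poleBound f) := by
  classical
  rw [poleBound, dif_pos hf]
  exact Nat.find_spec hf

lemma poleBound_le {m : ℕ} (hm : IsBoundedAtImInfty (f * Δ ^ m)) : poleBound f ≤ m := by
  classical
  rw [poleBound, dif_pos ⟨m, hm⟩]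
  exact Nat.find_min' _ hm

theorem MeroInf.of_nice (hf : Nice (N : ℝ) f) : MeroInf N f :=
  ⟨hf.per, hf.hol, ⟨0, by simpa using hf.bdd⟩⟩

theorem MeroInf.add (hf : MeroInf N f) (hg : MeroInf N g) : MeroInf N (f + g) := by
  obtain ⟨m, hm⟩ := hf.pole
  obtain ⟨m', hm'⟩ := hg.pole
  refine ⟨fun w => ?_, hf.hol.add hg.hol, ⟨max m m', ?_⟩⟩
  · have h1 := hf.per w
    have h2 := hg.per w
    simp only [comp_apply, Pi.add_apply] at h1 h2 ⊢
    rw [h1, h2]
  · rw [add_mul]
    exact (bdd_mono hm (le_max_left _ _)).add (bdd_mono hm' (le_max_right _ _))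

theorem MeroInf.mul (hf : MeroInf N f) (hg : MeroInf N g) : MeroInf N (f * g) := by
  obtain ⟨m, hm⟩ := hf.pole
  obtain ⟨m', hm'⟩ := hg.pole
  refine ⟨fun w => ?_, hf.hol.mul hg.hol, ⟨m + m', ?_⟩⟩
  · have h1 := hf.per w
    have h2 := hg.per w
    simp only [comp_apply, Pi.mul_apply] at h1 h2 ⊢
    rw [h1, h2]
  · have : f * g * Δ ^ (m + m') = (f * Δ ^ m) * (g * Δ ^ m') := by
      rw [pow_add]; ring
    rw [this]
    exact hm.mul hm'

theorem MeroInf.const (N : ℕ) (c : ℂ) : MeroInf N (fun _ => c) :=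
  ⟨fun w => rfl, mdifferentiable_const, ⟨0, by
    rw [pow_zero, mul_one]
    exact Filter.const_boundedAtFilter _ c⟩⟩

theorem MeroInf.neg (hf : MeroInf N f) : MeroInf N (-f) := by
  have := (MeroInf.const N (-1)).mul hf
  convert this using 1
  ext τ
  simp

/-- characterisation of `lau` -/
theorem lau_mul_disc_pow (hf : MeroInf N f) (m : ℕ)
    (hm : IsBoundedAtImInfty (f * ModularForm.discriminant ^ m)) :
    lau N f * (HahnSeries.ofPowerSeries ℤ ℂ (qExpansion N ModularForm.discriminant)) ^ m =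
      HahnSeries.ofPowerSeries ℤ ℂ (qExpansion N (f * ModularForm.discriminant ^ m)) := by
  have hN := natCast_pos' N
  obtain ⟨k, hk⟩ := Nat.exists_eq_add_of_le (poleBound_le hm)
  have h0 := poleBound_spec hf.pole
  have e : f * Δ ^ m = (f * Δ ^ poleBound f) * Δ ^ k := by
    rw [hk, pow_add, mul_assoc]
  rw [e, (hf.nice_mul h0).qExpansion_mul ((nice_disc N).pow k) hN,
    (nice_disc N).qExpansion_pow hN, map_mul, map_pow, lau, hk, pow_add, inv_pow]
  have := pow_ne_zero (poleBound f) (oPS_disc_ne_zero N)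
  field_simp

lemma lau_eq_of_mul (hf : MeroInf N f) (m : ℕ) (hm : IsBoundedAtImInfty (f * Δ ^ m))
    (L : LaurentSeries ℂ) (hL : L * (oPS (qExpansion N Δ)) ^ m = oPS (qExpansion N (f * Δ ^ m))) :
    lau N f = L := by
  have h := lau_mul_disc_pow hf m hm
  rw [← hL] at h
  exact mul_right_cancel₀ (pow_ne_zero m (oPS_disc_ne_zero N)) h

theorem lau_of_nice (hf : Nice (N : ℝ) f) :
    lau N f = HahnSeries.ofPowerSeries ℤ ℂ (qExpansion N f) := by
  apply lau_eq_of_mul (MeroInf.of_nice hf) 0 (by simpa using hf.bdd)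
  simp

theorem lau_add (hf : MeroInf N f) (hg : MeroInf N g) : lau N (f + g) = lau N f + lau N g := by
  have hN := natCast_pos' N
  obtain ⟨m, hm⟩ := hf.pole
  obtain ⟨m', hm'⟩ := hg.pole
  have h1 := bdd_mono hm (le_max_left m m')
  have h2 := bdd_mono hm' (le_max_right m m')
  have e : (f + g) * Δ ^ (max m m') = f * Δ ^ (max m m') + g * Δ ^ (max m m') := add_mul _ _ _
  apply lau_eq_of_mul (hf.add hg) (max m m') (by rw [e]; exact h1.add h2)
  rw [e, (hf.nice_mul h1).qExpansion_add (hg.nice_mul h2) hN, map_add, add_mul,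
    lau_mul_disc_pow hf _ h1, lau_mul_disc_pow hg _ h2]

theorem lau_mul (hf : MeroInf N f) (hg : MeroInf N g) : lau N (f * g) = lau N f * lau N g := by
  have hN := natCast_pos' N
  obtain ⟨m, hm⟩ := hf.pole
  obtain ⟨m', hm'⟩ := hg.pole
  have e : f * g * Δ ^ (m + m') = (f * Δ ^ m) * (g * Δ ^ m') := by
    rw [pow_add]; ring
  apply lau_eq_of_mul (hf.mul hg) (m + m') (by rw [e]; exact hm.mul hm')
  rw [e, (hf.nice_mul hm).qExpansion_mul (hg.nice_mul hm') hN, map_mul,
    ← lau_mul_disc_pow hf _ hm, ← lau_mul_disc_pow hg _ hm', pow_add]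
  ring

lemma nice_const (h : ℝ) (c : ℂ) : Nice h (fun _ => c) :=
  ⟨fun w => rfl, mdifferentiable_const, Filter.const_boundedAtFilter _ c⟩

theorem lau_const (N : ℕ) [NeZero N] (c : ℂ) : lau N (fun _ => c) = HahnSeries.C c := by
  rw [lau_of_nice (nice_const _ c)]
  have : (fun _ : ℍ => c) = c • (1 : ℍ → ℂ) := by
    ext τ; simp
  rw [this, Nice.one.qExpansion_smul (natCast_pos' N), qExpansion_one]
  rw [← HahnSeries.ofPowerSeries_C]
  congr 1
  ext n
  simp [PowerSeries.coeff_C, PowerSeries.coeff_one]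

theorem lau_eq_zero_iff (hf : MeroInf N f) : lau N f = 0 ↔ f = 0 := by
  have h0 := poleBound_spec hf.pole
  have h := lau_mul_disc_pow hf _ h0
  constructor
  · intro hz
    rw [hz, zero_mul] at h
    have h1 : qExpansion N (f * Δ ^ poleBound f) = 0 := by
      apply HahnSeries.ofPowerSeries_injective (Γ := ℤ)
      rw [← h, map_zero]
    have h2 := (hf.nice_mul h0).eq_zero_of_qExpansion (natCast_pos' N) h1
    ext τ
    have h3 := congrFun h2 τ
    simp only [Pi.mul_apply, Pi.pow_apply, Pi.zero_apply, mul_eq_zero] at h3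
    rcases h3 with h3 | h3
    · exact h3
    · exact absurd h3 (pow_ne_zero _ (discriminant_ne_zero τ))
  · rintro rfl
    have := lau_const N 0
    rw [map_zero] at this
    exact this

/-! ### change of period -/

lemma oPS_expand (M : ℕ) [NeZero M] (P : PowerSeries ℂ) :
    oPS (PowerSeries.expand M (NeZero.ne M) P) = ModularCurve.qExpand ℂ M (oPS P) := by
  have hM : 0 < M := Nat.pos_of_ne_zero (NeZero.ne M)
  ext k
  by_cases hk : (M : ℤ) ∣ k
  · obtain ⟨j, rfl⟩ := hk
    rw [ModularCurve.qExpand_coeff_mul]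
    rcases lt_or_ge j 0 with hj | hj
    · rw [ModularCurve.ofPowerSeries_coeff_of_neg _ hj, ModularCurve.ofPowerSeries_coeff_of_neg]
      have : (0 : ℤ) < M := by exact_mod_cast hM
      nlinarith
    · lift j to ℕ using hj
      rw [HahnSeries.ofPowerSeries_apply_coeff, ← Nat.cast_mul, HahnSeries.ofPowerSeries_apply_coeff,
        PowerSeries.coeff_expand_mul]
  · rw [ModularCurve.qExpand_coeff_of_not_dvd _ _ hk]
    rcases lt_or_ge k 0 with hj | hj
    · rw [ModularCurve.ofPowerSeries_coeff_of_neg _ hj]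
    · lift k to ℕ using hj
      rw [HahnSeries.ofPowerSeries_apply_coeff, PowerSeries.coeff_expand_of_not_dvd]
      intro h
      exact hk (by exact_mod_cast h)

lemma qExpansion_of_one (hf : Nice 1 f) :
    qExpansion N f = PowerSeries.expand N (NeZero.ne N) (qExpansion 1 f) := by
  have := hf.qExpansion_nat_mul one_pos (NeZero.ne N)
  simpa using this

theorem MeroInf.of_one (hf : MeroInf 1 f) : MeroInf N f :=
  ⟨by
    have := hf.per.nat_mul N
    simpa using this, hf.hol, hf.pole⟩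

theorem lau_of_one (hf : MeroInf 1 f) : lau N f = ModularCurve.qExpand ℂ N (lau 1 f) := by
  obtain ⟨m, hm⟩ := hf.pole
  apply lau_eq_of_mul hf.of_one m hm
  have h1 : Nice 1 (f * Δ ^ m) := by simpa using hf.nice_mul hm
  have h := lau_mul_disc_pow hf m hm
  have h' : lau 1 f * (oPS (qExpansion 1 Δ)) ^ m = oPS (qExpansion 1 (f * Δ ^ m)) := by
    have e : ((1 : ℕ) : ℝ) = 1 := Nat.cast_one
    rw [e] at h
    exact h
  rw [qExpansion_of_one h1, qExpansion_of_one nice_disc_one, oPS_expand, oPS_expand, ← h',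
    map_mul, map_pow]

/-! ### translation -/

/-- multiply the `n`-th coefficient by `ζ ^ n`. -/
noncomputable def twist (ζ : ℂ) (x : LaurentSeries ℂ) : LaurentSeries ℂ where
  coeff n := ζ ^ n * x.coeff n
  isPWO_support' := x.isPWO_support.mono (by
    intro n hn
    simp only [Function.mem_support, ne_eq, mul_eq_zero, not_or] at hn
    exact hn.2)

@[simp] lemma coeff_twist (ζ : ℂ) (x : LaurentSeries ℂ) (n : ℤ) :
    (twist ζ x).coeff n = ζ ^ n * x.coeff n := rfl

lemma twist_mul {ζ : ℂ} (hζ : ζ ≠ 0) (x y : LaurentSeries ℂ) :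
    twist ζ (x * y) = twist ζ x * twist ζ y := by
  ext n
  rw [coeff_twist, HahnSeries.coeff_mul, HahnSeries.coeff_mul, Finset.mul_sum]
  apply Finset.sum_congr
  · ext ij
    simp [zpow_ne_zero _ hζ]
  · intro ij hij
    have := (Finset.mem_antidiagonal.mp hij).2.2
    rw [coeff_twist, coeff_twist, ← this, zpow_add₀ hζ]
    ring

lemma twist_one (ζ : ℂ) : twist ζ 1 = 1 := by
  ext n
  rw [coeff_twist, HahnSeries.coeff_one]
  split_ifs with h
  · simp [h]
  · simp

lemma twist_pow {ζ : ℂ} (hζ : ζ ≠ 0) (x : LaurentSeries ℂ) (m : ℕ) :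
    twist ζ (x ^ m) = twist ζ x ^ m := by
  induction m with
  | zero => simp [twist_one]
  | succ m ih => rw [pow_succ, twist_mul hζ, ih, pow_succ]

lemma twist_oPS (ζ : ℂ) (P : PowerSeries ℂ) :
    twist ζ (oPS P) = oPS (PowerSeries.rescale ζ P) := by
  ext k
  rw [coeff_twist]
  rcases lt_or_ge k 0 with hj | hj
  · rw [ModularCurve.ofPowerSeries_coeff_of_neg _ hj, ModularCurve.ofPowerSeries_coeff_of_neg _ hj,
      mul_zero]
  · lift k to ℕ using hj
    rw [HahnSeries.ofPowerSeries_apply_coeff, HahnSeries.ofPowerSeries_apply_coeff,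
      PowerSeries.coeff_rescale, zpow_natCast]

/-- `τ ↦ f (τ + m)` -/
noncomputable def shiftFun (f : ℍ → ℂ) (m : ℤ) : ℍ → ℂ := fun τ => f ((m : ℝ) +ᵥ τ)

lemma shiftFun_comp_ofComplex (f : ℍ → ℂ) (m : ℤ) {w : ℂ} (hw : 0 < w.im) :
    (shiftFun f m ∘ ofComplex) w = (f ∘ ofComplex) (w + m) := by
  have hw' : 0 < (w + m).im := by simpa using hw
  simp only [comp_apply, shiftFun, ofComplex_apply_of_im_pos hw, ofComplex_apply_of_im_pos hw']
  congr 1
  apply UpperHalfPlane.ext
  simp [add_comm]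

lemma shiftFun_per {h : ℂ} (hh : h.im = 0) (hf : Function.Periodic (f ∘ ofComplex) h) (m : ℤ) :
    Function.Periodic (shiftFun f m ∘ ofComplex) h := by
  intro w
  by_cases hw : 0 < w.im
  · have hw' : 0 < (w + h).im := by simpa [hh] using hw
    rw [shiftFun_comp_ofComplex f m hw', shiftFun_comp_ofComplex f m hw]
    rw [add_right_comm]
    exact hf _
  · have hw1 : w.im ≤ 0 := not_lt.mp hw
    have hw' : (w + h).im ≤ 0 := by simpa [hh] using hw1
    simp only [comp_apply]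
    rw [ofComplex_apply_eq_of_im_nonpos hw' hw1]

lemma shiftFun_mdiff (hf : MDiff f) (m : ℤ) : MDiff (shiftFun f m) := by
  rw [UpperHalfPlane.mdifferentiable_iff]
  have h1 := UpperHalfPlane.mdifferentiable_iff.mp hf
  have h2 : DifferentiableOn ℂ (fun w : ℂ => w + m) {z | 0 < z.im} := by
    fun_prop
  have h3 : Set.MapsTo (fun w : ℂ => w + m) {z | 0 < z.im} {z | 0 < z.im} := by
    intro w hw
    simpa using hw
  refine (h1.comp h2 h3).congr ?_
  intro w hw
  exact shiftFun_comp_ofComplex f m hw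

lemma tendsto_shift (m : ℤ) :
    Filter.Tendsto (fun τ : ℍ => (m : ℝ) +ᵥ τ) atImInfty atImInfty := by
  rw [atImInfty, Filter.tendsto_comap_iff]
  have h : (im ∘ fun τ : ℍ => (m : ℝ) +ᵥ τ) = im := by
    funext τ
    simp
  rw [h]
  exact Filter.tendsto_comap

lemma shiftFun_bdd (hf : IsBoundedAtImInfty f) (m : ℤ) : IsBoundedAtImInfty (shiftFun f m) :=
  hf.comp_tendsto (tendsto_shift m)

lemma shiftFun_nice {h : ℝ} (hf : Nice h f) (m : ℤ) : Nice h (shiftFun f m) :=
  ⟨shiftFun_per (by simp) hf.per m, shiftFun_mdiff hf.hol m, shiftFun_bdd hf.bdd m⟩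

lemma shiftFun_disc (m : ℤ) : shiftFun Δ m = Δ := by
  ext τ
  have h := nice_disc_one.per.int_mul m (τ : ℂ)
  have h2 := shiftFun_comp_ofComplex Δ m τ.im_pos
  simp only [Complex.ofReal_one, mul_one] at h
  rw [h] at h2
  simpa using h2

lemma shiftFun_mul (f g : ℍ → ℂ) (m : ℤ) : shiftFun (f * g) m = shiftFun f m * shiftFun g m := rfl

lemma shiftFun_pow (f : ℍ → ℂ) (k : ℕ) (m : ℤ) : shiftFun (f ^ k) m = shiftFun f m ^ k := rfl

theorem MeroInf.shift (hf : MeroInf N f) (m : ℤ) :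
    MeroInf N (fun τ => f ((m : ℝ) +ᵥ τ)) := by
  obtain ⟨k, hk⟩ := hf.pole
  refine ⟨shiftFun_per (by simp) hf.per m, shiftFun_mdiff hf.hol m, ⟨k, ?_⟩⟩
  have := shiftFun_bdd hk m
  rwa [shiftFun_mul, shiftFun_pow, shiftFun_disc] at this

local notation "𝕢" => Periodic.qParam

lemma qExpansion_shiftFun (hf : Nice (N : ℝ) f) (m : ℤ) :
    qExpansion N (shiftFun f m) =
      PowerSeries.rescale (Complex.exp (2 * π * Complex.I * m / N)) (qExpansion N f) := by
  have hN := natCast_pos' N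
  have hNC : (N : ℂ) ≠ 0 := by exact_mod_cast NeZero.ne N
  ext n
  symm
  refine coeff_unique (c := fun n => PowerSeries.coeff n (PowerSeries.rescale
    (Complex.exp (2 * π * Complex.I * m / N)) (qExpansion N f))) hN
    ((shiftFun_nice hf m).analyticAt hN) ?_ n
  intro τ
  have h1 := hf.hasSum hN ((m : ℝ) +ᵥ τ)
  have e0 : shiftFun f m τ = f ((m : ℝ) +ᵥ τ) := rfl
  rw [e0]
  convert h1 using 1
  funext k
  rw [PowerSeries.coeff_rescale]
  have : 𝕢 (N : ℝ) (((m : ℝ) +ᵥ τ : ℍ) : ℂ) =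
      Complex.exp (2 * π * Complex.I * m / N) * 𝕢 (N : ℝ) τ := by
    rw [Periodic.qParam, Periodic.qParam, ← Complex.exp_add]
    congr 1
    simp only [coe_vadd, Complex.ofReal_intCast, Complex.ofReal_natCast]
    field_simp
  rw [this, mul_pow, smul_eq_mul, smul_eq_mul]
  ring

theorem coeff_lau_shift (hf : MeroInf N f) (m : ℤ) (n : ℤ) :
    (lau N (fun τ => f ((m : ℝ) +ᵥ τ))).coeff n =
      Complex.exp (2 * π * Complex.I * m * n / N) * (lau N f).coeff n := by
  have hNC : (N : ℂ) ≠ 0 := by exact_mod_cast NeZero.ne N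
  set ζ : ℂ := Complex.exp (2 * π * Complex.I * m / N) with hζ
  have hζ0 : ζ ≠ 0 := Complex.exp_ne_zero _
  obtain ⟨k, hk⟩ := hf.pole
  have hk' : IsBoundedAtImInfty (shiftFun f m * Δ ^ k) := by
    have := shiftFun_bdd hk m
    rwa [shiftFun_mul, shiftFun_pow, shiftFun_disc] at this
  have key : lau N (shiftFun f m) = twist ζ (lau N f) := by
    apply lau_eq_of_mul (f := shiftFun f m) (hf.shift m) k hk'
    have e1 : shiftFun f m * Δ ^ k = shiftFun (f * Δ ^ k) m := by
      rw [shiftFun_mul, shiftFun_pow, shiftFun_disc]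
    have e2 : oPS (qExpansion N Δ) = twist ζ (oPS (qExpansion N Δ)) := by
      rw [twist_oPS, ← qExpansion_shiftFun (nice_disc N), shiftFun_disc]
    rw [e1, qExpansion_shiftFun (hf.nice_mul hk), ← twist_oPS, ← lau_mul_disc_pow hf k hk,
      twist_mul hζ0, twist_pow hζ0, ← e2]
  have key' : lau N (fun τ => f ((m : ℝ) +ᵥ τ)) = twist ζ (lau N f) := key
  rw [key', coeff_twist, hζ, ← Complex.exp_int_mul]
  congr 2
  field_simp

/-! ### level -/

lemma compAff_mdiff (hf : MDiff f) {a d : ℕ} (ha : 0 < a) (hd : 0 < d) (b : ℤ) :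
    MDiff (compAff f a d b) := by
  rw [UpperHalfPlane.mdifferentiable_iff]
  have h1 := UpperHalfPlane.mdifferentiable_iff.mp hf
  have h2 : DifferentiableOn ℂ (fun w : ℂ => ((a : ℂ) * w + b) / d) {z | 0 < z.im} := by
    fun_prop
  have h3 : Set.MapsTo (fun w : ℂ => ((a : ℂ) * w + b) / d) {z | 0 < z.im} {z | 0 < z.im} := by
    intro w hw
    exact affPt_im_pos ha hd b ⟨w, hw⟩
  refine (h1.comp h2 h3).congr ?_
  intro w hw
  exact compAff_comp_ofComplex f a d b hw

lemma compAff_per_one (hf : Function.Periodic (f ∘ ofComplex) (1 : ℂ)) (d : ℕ) :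
    Function.Periodic (compAff f d 1 0 ∘ ofComplex) (1 : ℂ) := by
  intro w
  by_cases hw : 0 < w.im
  · have hw' : 0 < (w + 1).im := by simpa using hw
    rw [compAff_comp_ofComplex f d 1 0 hw', compAff_comp_ofComplex f d 1 0 hw]
    have e : ((d : ℂ) * (w + 1) + (0 : ℤ)) / (1 : ℕ) =
        ((d : ℂ) * w + (0 : ℤ)) / (1 : ℕ) + (d : ℂ) * 1 := by
      push_cast
      ring
    rw [e]
    exact (hf.nat_mul d) _
  · have hw1 : w.im ≤ 0 := not_lt.mp hw
    have hw' : (w + 1).im ≤ 0 := by simpa using hw1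
    simp only [comp_apply]
    rw [ofComplex_apply_eq_of_im_nonpos hw' hw1]

lemma compAff_nice_one (hf : Nice 1 f) (d : ℕ) [NeZero d] : Nice 1 (compAff f d 1 0) :=
  have hd : 0 < d := Nat.pos_of_ne_zero (NeZero.ne d)
  ⟨by simpa using compAff_per_one (by simpa using hf.per) d, compAff_mdiff hf.hol hd one_pos 0,
    hf.bdd.comp_tendsto (tendsto_affPt hd one_pos 0)⟩

lemma qExpansion_compAff_one (hf : Nice 1 f) (d : ℕ) [NeZero d] :
    qExpansion 1 (compAff f d 1 0) = PowerSeries.expand d (NeZero.ne d) (qExpansion 1 f) := by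
  have hd : 0 < d := Nat.pos_of_ne_zero (NeZero.ne d)
  have h1 := qExpansion_compAff hf hd one_pos (mul_one d) 0
  have h2 := qExpansion_of_one (N := d) (compAff_nice_one hf d)
  have hz : zetaAff 1 0 = 1 := by simp [zetaAff]
  rw [hz, PowerSeries.rescale_one, RingHom.id_apply] at h1
  ext n
  have h3 : PowerSeries.coeff (d * n) (qExpansion d (compAff f d 1 0)) =
      PowerSeries.coeff n (qExpansion 1 (compAff f d 1 0)) := by
    rw [h2, PowerSeries.coeff_expand_mul]
  rw [← h3, h1]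
  by_cases hn : d ∣ n
  · obtain ⟨k, rfl⟩ := hn
    rw [PowerSeries.coeff_expand_mul, show d * (d * k) = d ^ 2 * k by ring,
      PowerSeries.coeff_expand_mul]
  · rw [PowerSeries.coeff_expand_of_not_dvd _ _ _ hn, PowerSeries.coeff_expand_of_not_dvd]
    intro h
    apply hn
    rw [sq] at h
    exact Nat.dvd_of_mul_dvd_mul_left hd h

lemma qParam_affPt_one (d : ℕ) [NeZero d] (τ : ℍ) :
    𝕢 1 (affPt d 1 0 τ) = 𝕢 1 τ ^ d := by
  have hd : 0 < d := Nat.pos_of_ne_zero (NeZero.ne d)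
  rw [Periodic.qParam, Periodic.qParam, coe_affPt hd one_pos, ← Complex.exp_nat_mul]
  congr 1
  push_cast
  ring

lemma bdd_disc_ratio (d : ℕ) [NeZero d] : IsBoundedAtImInfty (Δ ^ d / compAff Δ d 1 0) := by
  have hd : 0 < d := Nat.pos_of_ne_zero (NeZero.ne d)
  have h1 := tendsto_atImInfty_tprod_one_sub_eta_q_pow
  have h2 := h1.comp (tendsto_affPt hd one_pos 0)
  have h3 := (h1.pow d).div h2 one_ne_zero
  have h4 : (Δ ^ d / compAff Δ d 1 0) = (fun x : ℍ ↦ ∏' (n : ℕ), (1 - eta_q n x) ^ 24) ^ d /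
      ((fun x : ℍ ↦ ∏' (n : ℕ), (1 - eta_q n x) ^ 24) ∘ affPt d 1 0) := by
    ext τ
    simp only [Pi.div_apply, Pi.pow_apply, compAff, comp_apply]
    rw [discriminant_eq_q_prod, discriminant_eq_q_prod, qParam_affPt_one, mul_pow]
    have hq : 𝕢 1 (τ : ℂ) ^ d ≠ 0 := pow_ne_zero _ (Complex.exp_ne_zero _)
    rw [mul_div_mul_left _ _ hq]
  rw [h4]
  exact h3.isBigO_one ℝ

lemma compAff_mul (f g : ℍ → ℂ) (a d : ℕ) (b : ℤ) :
    compAff (f * g) a d b = compAff f a d b * compAff g a d b := rfl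

lemma compAff_pow (f : ℍ → ℂ) (k : ℕ) (a d : ℕ) (b : ℤ) :
    compAff (f ^ k) a d b = compAff f a d b ^ k := rfl

theorem MeroInf.level (hf : MeroInf 1 f) (d : ℕ) [NeZero d] : MeroInf 1 (compAff f d 1 0) := by
  have hd : 0 < d := Nat.pos_of_ne_zero (NeZero.ne d)
  obtain ⟨m, hm⟩ := hf.pole
  refine ⟨by simpa using compAff_per_one (by simpa using hf.per) d,
    compAff_mdiff hf.hol hd one_pos 0, ⟨d * m, ?_⟩⟩
  have e : compAff f d 1 0 * Δ ^ (d * m) =
      compAff (f * Δ ^ m) d 1 0 * (Δ ^ d / compAff Δ d 1 0) ^ m := by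
    ext τ
    simp only [Pi.mul_apply, Pi.pow_apply, Pi.div_apply, compAff]
    have := discriminant_ne_zero (affPt d 1 0 τ)
    rw [div_pow, ← pow_mul, mul_assoc, mul_div_cancel₀ _ (pow_ne_zero m this)]
  rw [e]
  have hb : ∀ k : ℕ, IsBoundedAtImInfty ((Δ ^ d / compAff Δ d 1 0) ^ k) := by
    intro k
    induction k with
    | zero => rw [pow_zero]; exact Filter.const_boundedAtFilter atImInfty (1 : ℂ)
    | succ k ih => rw [pow_succ]; exact ih.mul (bdd_disc_ratio d)
  have hb' : IsBoundedAtImInfty (compAff (f * Δ ^ m) d 1 0) :=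
    hm.comp_tendsto (tendsto_affPt hd one_pos 0)
  exact hb'.mul (hb m)

lemma nice_one_cast (hf : Nice 1 f) : Nice ((1 : ℕ) : ℝ) f := by simpa using hf

theorem lau_level (hf : MeroInf 1 f) (d : ℕ) [NeZero d] :
    lau 1 (compAff f d 1 0) = ModularCurve.qExpand ℂ d (lau 1 f) := by
  obtain ⟨m, hm⟩ := hf.pole
  have e1 : ((1 : ℕ) : ℝ) = 1 := Nat.cast_one
  have h1 : Nice 1 (f * Δ ^ m) := by simpa using hf.nice_mul hm
  have h2 : Nice 1 (Δ ^ m) := nice_disc_one.pow m
  have h3 := lau_mul (hf.level d) (MeroInf.of_nice (nice_one_cast (compAff_nice_one h2 d)))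
  rw [← compAff_mul, lau_of_nice (nice_one_cast (compAff_nice_one h2 d)),
    lau_of_nice (nice_one_cast (compAff_nice_one h1 d)), e1, qExpansion_compAff_one h1,
    qExpansion_compAff_one h2, oPS_expand, oPS_expand] at h3
  have h4 := lau_mul_disc_pow hf m hm
  rw [e1] at h4
  rw [← h4, map_mul, nice_disc_one.qExpansion_pow one_pos, map_pow (oPS)] at h3
  have h5 : ModularCurve.qExpand ℂ d (oPS (qExpansion 1 Δ) ^ m) ≠ 0 := by
    intro h
    have h6 := ModularCurve.qExpand_injective d (h.trans (map_zero _).symm)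
    have h7 := oPS_disc_ne_zero 1
    rw [e1] at h7
    exact pow_ne_zero m h7 h6
  exact (mul_right_cancel₀ h5 h3).symm

end FA24
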