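import Fermat.Agent.X0Genus.DefsAlg
import Fermat.Agent.FF.Residue

/-!
# S24-ALG1: primes of a Dedekind model of `F` versus places of `F`

* general part: `O` a Dedekind domain, `K`-algebra, with fraction field `F`:
  `placeOfPrime : HeightOneSpectrum O → Place K F`, `placeOfPrime_ord`, `placeOfPrime_injective`,
  `exists_prime_of_place`.
* special part: `polyRing K y = K[y]`, `intRing K y` = integral closure of `K[y]` in `F`.
-/

set_option autoImplicit false

namespace FA24

open AlgebraicCurve IntermediateField Polynomial IsDedekindDomain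

section General

variable (K : Type*) {F : Type*} [Field K] [Field F] [Algebra K F]
variable {O : Type*} [CommRing O] [IsDedekindDomain O] [Algebra K O] [Algebra O F]
  [IsScalarTower K O F] [IsFractionRing O F]

/-- The order function of a prime of `O`. -/
noncomputable def primeOrd (𝔭 : HeightOneSpectrum O) (f : F) : ℤ :=
  -WithZero.log (𝔭.valuation F f)

omit [Algebra K F] in
theorem primeOrd_mul (𝔭 : HeightOneSpectrum O) {f g : F} (hf : f ≠ 0) (hg : g ≠ 0) :
    primeOrd 𝔭 (f * g) = primeOrd 𝔭 f + primeOrd 𝔭 g := by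
  unfold primeOrd
  rw [map_mul, WithZero.log_mul ((Valuation.ne_zero_iff _).2 hf) ((Valuation.ne_zero_iff _).2 hg)]
  ring

omit [Algebra K F] in
theorem primeOrd_nonneg_iff (𝔭 : HeightOneSpectrum O) {f : F} (hf : f ≠ 0) :
    0 ≤ primeOrd 𝔭 f ↔ 𝔭.valuation F f ≤ 1 := by
  unfold primeOrd
  rw [neg_nonneg, ← WithZero.log_one, WithZero.log_le_log ((Valuation.ne_zero_iff _).2 hf) one_ne_zero]

omit [Algebra K F] in
theorem primeOrd_pos_iff (𝔭 : HeightOneSpectrum O) {f : F} (hf : f ≠ 0) :
    0 < primeOrd 𝔭 f ↔ 𝔭.valuation F f < 1 := by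
  unfold primeOrd
  rw [neg_pos, ← WithZero.log_one, WithZero.log_lt_log ((Valuation.ne_zero_iff _).2 hf) one_ne_zero]

omit [Algebra K F] in
theorem primeOrd_algebraMap_pos_iff (𝔭 : HeightOneSpectrum O) {a : O} (ha : a ≠ 0) :
    0 < primeOrd 𝔭 (algebraMap O F a) ↔ a ∈ 𝔭.asIdeal := by
  have h0 : algebraMap O F a ≠ 0 := by
    simpa using ha
  rw [primeOrd_pos_iff 𝔭 h0, HeightOneSpectrum.valuation_lt_one_iff_mem]

theorem exists_place_of_prime (𝔭 : HeightOneSpectrum O) :
    ∃ v : Place K F, ∀ f : F, v.ord f = primeOrd 𝔭 f := by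
  obtain ⟨π, hπ⟩ := 𝔭.valuation_exists_uniformizer F
  have hπ0 : π ≠ 0 := by
    intro h0
    rw [h0, map_zero] at hπ
    exact WithZero.exp_ne_zero hπ.symm
  have hπ1 : primeOrd 𝔭 π = 1 := by
    unfold primeOrd
    rw [hπ, WithZero.log_exp]
    norm_num
  obtain ⟨v, c, hc, hv⟩ := FAFF.exists_place_of_ord (K := K) (primeOrd 𝔭 (F := F))
    (fun f g hf hg => primeOrd_mul 𝔭 hf hg)
    (by
      intro f g hf hg hfg
      have h1 := (𝔭.valuation F).map_add f g
      have hf' := (Valuation.ne_zero_iff (𝔭.valuation F)).2 hf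
      have hg' := (Valuation.ne_zero_iff (𝔭.valuation F)).2 hg
      have hfg' := (Valuation.ne_zero_iff (𝔭.valuation F)).2 hfg
      unfold primeOrd
      rcases le_max_iff.1 h1 with h | h
      · have := (WithZero.log_le_log hfg' hf').2 h
        exact (min_le_left _ _).trans (by omega)
      · have := (WithZero.log_le_log hfg' hg').2 h
        exact (min_le_right _ _).trans (by omega))
    (by
      intro a ha
      have hu : IsUnit (algebraMap K O a) := (IsUnit.mk0 a ha).map _
      have h1 : 𝔭.valuation F (algebraMap K F a) = 1 := by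
        rw [IsScalarTower.algebraMap_apply K O F, HeightOneSpectrum.valuation_eq_one_iff_notMem]
        intro hmem
        exact 𝔭.isPrime.ne_top (Ideal.eq_top_of_isUnit_mem _ hmem hu)
      unfold primeOrd
      rw [h1]
      simp)
    ⟨π, hπ0, by rw [hπ1]; norm_num⟩
  have hc1 : c = 1 := by
    have h1 := hv π hπ0
    rw [hπ1] at h1
    exact Int.eq_one_or_neg_one_of_mul_eq_one h1.symm |>.resolve_right (by omega)
  refine ⟨v, fun f => ?_⟩
  rcases eq_or_ne f 0 with rfl | hf
  · simp [primeOrd]
  · rw [hv f hf, hc1, one_mul]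

/-- The place of `F` attached to a prime of `O`. -/
noncomputable def placeOfPrime (𝔭 : HeightOneSpectrum O) : Place K F :=
  (exists_place_of_prime K 𝔭).choose

theorem placeOfPrime_ord (𝔭 : HeightOneSpectrum O) (f : F) :
    (placeOfPrime K 𝔭 : Place K F).ord f = primeOrd 𝔭 f :=
  (exists_place_of_prime K 𝔭).choose_spec f

theorem placeOfPrime_injective :
    Function.Injective (placeOfPrime K : HeightOneSpectrum O → Place K F) := by
  intro 𝔭 𝔮 h
  apply HeightOneSpectrum.ext
  ext a
  rcases eq_or_ne a 0 with rfl | ha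
  · simp
  rw [← primeOrd_algebraMap_pos_iff (F := F) 𝔭 ha, ← primeOrd_algebraMap_pos_iff (F := F) 𝔮 ha,
    ← placeOfPrime_ord K, ← placeOfPrime_ord K, h]

theorem algebraMap_mem_placeOfPrime (𝔭 : HeightOneSpectrum O) (a : O) :
    algebraMap O F a ∈ (placeOfPrime K 𝔭 : Place K F).toValuationSubring := by
  rcases eq_or_ne a 0 with rfl | ha
  · simp
  have h0 : algebraMap O F a ≠ 0 := by simpa using ha
  rw [FAFF.mem_iff_ord_nonneg _ h0, placeOfPrime_ord, primeOrd_nonneg_iff 𝔭 h0]
  exact 𝔭.valuation_le_one a

variable {K}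

theorem exists_prime_of_place (v : Place K F)
    (hv : ∀ a : O, algebraMap O F a ∈ v.toValuationSubring) :
    ∃ 𝔭 : HeightOneSpectrum O, placeOfPrime K 𝔭 = v := by
  let φ : O →+* v.toValuationSubring := (algebraMap O F).codRestrict v.toValuationSubring.toSubring hv
  have hφ : ∀ a, (φ a : F) = algebraMap O F a := fun _ => rfl
  let P : Ideal O := (IsLocalRing.maximalIdeal v.toValuationSubring).comap φ
  have hPprime : P.IsPrime := Ideal.comap_isPrime _ _
  have hmemP : ∀ a : O, a ∉ P → IsUnit (φ a) := by
    intro a ha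
    by_contra hu
    exact ha ((IsLocalRing.mem_maximalIdeal _).2 hu)
  have hPbot : P ≠ ⊥ := by
    intro hbot
    apply v.ne_top'
    rw [eq_top_iff]
    intro f _
    obtain ⟨a, s, hs0, rfl⟩ := IsFractionRing.div_surjective (A := O) f
    have hs : (s : O) ∉ P := by
      rw [hbot, Ideal.mem_bot]
      exact nonZeroDivisors.ne_zero hs0
    obtain ⟨u, hu⟩ := hmemP _ hs
    have h1 : algebraMap O F a / algebraMap O F s = (φ a * (u⁻¹ : (v.toValuationSubring)ˣ) : v.toValuationSubring) := by
      have h2 : ((u : v.toValuationSubring) : F) = algebraMap O F s := by rw [hu, hφ]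
      have h3 : ((u : v.toValuationSubring) : F) * (((u⁻¹ : (v.toValuationSubring)ˣ) : v.toValuationSubring) : F) = 1 := by
        have := congrArg (Subtype.val) (u.mul_inv)
        exact this
      have h4 : algebraMap O F s ≠ 0 := by
        rw [← h2]; intro h0; rw [h0, zero_mul] at h3; exact zero_ne_one h3
      rw [div_eq_iff h4]
      push_cast
      rw [hφ, ← h2]
      linear_combination (-(algebraMap O F a)) * h3
    rw [h1]
    exact Subtype.property _
  let 𝔭 : HeightOneSpectrum O := ⟨P, hPprime, hPbot⟩
  refine ⟨𝔭, FAFF.place_ext fun f hf h0 => ?_⟩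
  rw [placeOfPrime_ord, primeOrd_nonneg_iff 𝔭 hf] at h0
  obtain ⟨n, d, hnd⟩ := 𝔭.exists_primeCompl_mul_eq_of_integer f h0
  obtain ⟨u, hu⟩ := hmemP d.1 d.2
  rw [← FAFF.mem_iff_ord_nonneg v hf]
  have h2 : ((u : v.toValuationSubring) : F) = algebraMap O F d := by rw [hu, hφ]
  have h3 : ((u : v.toValuationSubring) : F) * (((u⁻¹ : (v.toValuationSubring)ˣ) : v.toValuationSubring) : F) = 1 := by
    have := congrArg (Subtype.val) (u.mul_inv)
    exact this
  have h1 : f = (φ n * (u⁻¹ : (v.toValuationSubring)ˣ) : v.toValuationSubring) := by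
    push_cast
    rw [hφ, ← hnd, ← h2]
    linear_combination (-f) * h3
  rw [h1]
  exact Subtype.property _

end General

section Special

open scoped IntermediateField.algebraAdjoinAdjoin

variable (K : Type*) {F : Type*} [Field K] [Field F] [Algebra K F] (y : F)

/-- `K[y]`. -/
abbrev polyRing : Subalgebra K F := Algebra.adjoin K {y}

/-- the integral closure of `K[y]` in `F`. -/
abbrev intRing : Subalgebra (polyRing K y) F := integralClosure (polyRing K y) F

/-- `y` as an element of `K[y]`. -/
def polyGen : polyRing K y := ⟨y, Algebra.self_mem_adjoin_singleton K y⟩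

variable {K y}

theorem polyRing_isPrincipalIdealRing (hy : Transcendental K y) :
    IsPrincipalIdealRing (polyRing K y) :=
  IsPrincipalIdealRing.of_surjective
    (Polynomial.algEquivOfTranscendental K y hy).toRingEquiv.toRingHom
    (Polynomial.algEquivOfTranscendental K y hy).surjective

theorem isSeparable_adjoin [CharZero K] [FiniteDimensional K⟮y⟯ F] :
    Algebra.IsSeparable K⟮y⟯ F := by
  have : CharZero K⟮y⟯ := charZero_of_injective_algebraMap (algebraMap K K⟮y⟯).injective
  infer_instance

theorem intRing_isDedekindDomain [CharZero K] [FiniteDimensional K⟮y⟯ F]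
    (hy : Transcendental K y) : IsDedekindDomain (intRing K y) := by
  have := polyRing_isPrincipalIdealRing hy
  have := isSeparable_adjoin (K := K) (y := y)
  exact integralClosure.isDedekindDomain (polyRing K y) K⟮y⟯ F

theorem intRing_isFractionRing [FiniteDimensional K⟮y⟯ F] : IsFractionRing (intRing K y) F :=
  integralClosure.isFractionRing_of_finite_extension K⟮y⟯ F

theorem intRing_finite [CharZero K] [FiniteDimensional K⟮y⟯ F]
    (hy : Transcendental K y) : Module.Finite (polyRing K y) (intRing K y) := by
  have := polyRing_isPrincipalIdealRing hy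
  have := isSeparable_adjoin (K := K) (y := y)
  exact IsIntegralClosure.finite (polyRing K y) K⟮y⟯ F (intRing K y)

theorem intRing_free [CharZero K] [FiniteDimensional K⟮y⟯ F]
    (hy : Transcendental K y) : Module.Free (polyRing K y) (intRing K y) := by
  have := polyRing_isPrincipalIdealRing hy
  have := isSeparable_adjoin (K := K) (y := y)
  exact IsIntegralClosure.module_free (polyRing K y) K⟮y⟯ F (intRing K y)

theorem finrank_intRing [FiniteDimensional K⟮y⟯ F] :
    Module.finrank (polyRing K y) (intRing K y) = Module.finrank K⟮y⟯ F := by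
  have := intRing_isFractionRing (K := K) (y := y)
  exact (IsFractionRing.finrank_eq (polyRing K y) K⟮y⟯ (intRing K y) F).symm


theorem polyGen_prime (hy : Transcendental K y) : Prime (polyGen K y) := by
  have h1 : Polynomial.algEquivOfTranscendental K y hy X = polyGen K y := by
    rw [Polynomial.algEquivOfTranscendental_apply, aeval_X]
    rfl
  rw [← h1, MulEquiv.prime_iff]
  exact Polynomial.prime_X

/-- `K[y] ⊆ O_v` if `y ∈ O_v`. -/
theorem polyRing_le_place (v : Place K F) (hv : y ∈ v.toValuationSubring) (a : polyRing K y) :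
    (a : F) ∈ v.toValuationSubring := by
  let S : Subalgebra K F :=
    { v.toValuationSubring.toSubring.toSubsemiring with algebraMap_mem' := v.algebraMap_mem' }
  have h : polyRing K y ≤ S := Algebra.adjoin_le (Set.singleton_subset_iff.2 hv)
  exact h a.2

/-- The integral closure of `K[y]` is contained in `O_v` if `y ∈ O_v`. -/
theorem intRing_le_place (v : Place K F) (hv : y ∈ v.toValuationSubring) (a : intRing K y) :
    algebraMap (intRing K y) F a ∈ v.toValuationSubring := by
  let φ : polyRing K y →+* v.toValuationSubring :=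
    (algebraMap (polyRing K y) F).codRestrict v.toValuationSubring.toSubring
      (polyRing_le_place v hv)
  let _a : Algebra (polyRing K y) v.toValuationSubring := φ.toAlgebra
  have _t : IsScalarTower (polyRing K y) v.toValuationSubring F :=
    IsScalarTower.of_algebraMap_eq fun _ => rfl
  have hz : IsIntegral (polyRing K y) (a : F) := a.2
  have hz' : IsIntegral v.toValuationSubring (a : F) := hz.tower_top
  obtain ⟨w, hw⟩ := IsIntegrallyClosed.isIntegral_iff.1 hz'
  show (a : F) ∈ _
  rw [← hw]
  exact w.2

/-- `y` as an element of the integral closure of `K[y]`. -/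
def intGen : intRing K y := algebraMap (polyRing K y) (intRing K y) (polyGen K y)

theorem coe_intGen : ((intGen : intRing K y) : F) = y := rfl

end Special

end FA24
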