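import Fermat.Agent.X0Genus.Dedekind

/-! # S24-ALG1 : places of a function field over an algebraically closed field of char. 0 -/

set_option autoImplicit false

open AlgebraicCurve IntermediateField Polynomial IsDedekindDomain
open scoped LaurentSeries
open scoped IntermediateField.algebraAdjoinAdjoin

namespace FA24

variable {K F : Type*} [Field K] [IsAlgClosed K] [CharZero K] [Field F] [Algebra K F]

section Fibre

variable {y : F} (hy : Transcendental K y) [FiniteDimensional K⟮y⟯ F]

omit [IsAlgClosed K] [CharZero K] [Algebra K F] in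
theorem primeOrd_eq_count {O : Type*} [CommRing O] [IsDedekindDomain O] [Algebra O F]
    [IsFractionRing O F] (𝔭 : HeightOneSpectrum O) {a : O} (ha : a ≠ 0) :
    primeOrd 𝔭 (algebraMap O F a) =
      (Multiset.count 𝔭.asIdeal (UniqueFactorizationMonoid.normalizedFactors (Ideal.span {a})) : ℤ) := by
  unfold primeOrd
  rw [HeightOneSpectrum.valuation_of_algebraMap, 𝔭.intValuation_if_neg ha, WithZero.log_exp, neg_neg,
    Ideal.count_associates_factors_eq (by simpa using ha) 𝔭.isPrime 𝔭.ne_bot]

include hy in
theorem finite_and_sum_zeros :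
    ∃ hfin : {v : Place K F | 0 < v.ord y}.Finite,
      ∑ v ∈ hfin.toFinset, v.ord y = (Module.finrank K⟮y⟯ F : ℤ) := by
  classical
  have := polyRing_isPrincipalIdealRing hy
  have := intRing_isDedekindDomain hy
  have := intRing_isFractionRing (K := K) (y := y)
  have := intRing_finite hy
  have := intRing_free hy
  have hy0 : y ≠ 0 := fun h0 => hy (h0 ▸ isAlgebraic_zero)
  have hgen0 : (intGen : intRing K y) ≠ 0 := by
    intro h0
    exact hy0 (congrArg Subtype.val h0)
  let p : Ideal (polyRing K y) := Ideal.span {polyGen K y}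
  have hp0 : p ≠ ⊥ := by
    simpa [p] using (polyGen_prime hy).ne_zero
  have hpp : p.IsPrime := (Ideal.span_singleton_prime (polyGen_prime hy).ne_zero).2 (polyGen_prime hy)
  have hpm : p.IsMaximal := hpp.isMaximal hp0
  have hmap : p.map (algebraMap (polyRing K y) (intRing K y)) = Ideal.span {intGen} := by
    simp only [p, Ideal.map_span, Set.image_singleton]
    rfl
  have hmap0 : p.map (algebraMap (polyRing K y) (intRing K y)) ≠ ⊥ := by
    rw [hmap]; simpa using hgen0
  let _ : Fintype (p.primesOver (intRing K y)) :=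
    (Algebra.QuasiFinite.finite_primesOver p).fintype
  have hne : ∀ q : p.primesOver (intRing K y), q.1 ≠ ⊥ := by
    intro q
    have := q.2.2
    exact ne_bot_of_le_ne_bot hmap0 (Ideal.map_le_of_le_comap (q.1.over_def p).le)
  let h1 : p.primesOver (intRing K y) → HeightOneSpectrum (intRing K y) := fun q =>
    ⟨q.1, q.2.1, hne q⟩
  let e : p.primesOver (intRing K y) → Place K F := fun q => placeOfPrime K (h1 q)
  have he_inj : Function.Injective e := by
    intro q q' h
    have := placeOfPrime_injective K h
    exact Subtype.ext (congrArg HeightOneSpectrum.asIdeal this)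
  have hgen_mem : ∀ q : p.primesOver (intRing K y), (intGen : intRing K y) ∈ q.1 := by
    intro q
    have := q.2.2
    have h2 : p.map (algebraMap (polyRing K y) (intRing K y)) ≤ q.1 :=
      Ideal.map_le_of_le_comap (q.1.over_def p).le
    rw [hmap] at h2
    exact h2 (Ideal.mem_span_singleton_self _)
  have he_ord : ∀ q, (e q).ord y = (q.1.ramificationIdx (polyRing K y) : ℤ) := by
    intro q
    have := q.2.2
    rw [Ideal.IsDedekindDomain.ramificationIdx_eq_normalizedFactors_count p q.1 hmap0, hmap]
    show (placeOfPrime K (h1 q)).ord y = _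
    rw [placeOfPrime_ord]
    exact primeOrd_eq_count (h1 q) hgen0
  have he_img : ∀ v : Place K F, 0 < v.ord y ↔ ∃ q, e q = v := by
    intro v
    constructor
    · intro hv
      have hmem : y ∈ v.toValuationSubring := (FAFF.mem_iff_ord_nonneg v hy0).2 hv.le
      obtain ⟨𝔭, h𝔭⟩ := exists_prime_of_place v (intRing_le_place v hmem)
      have hin : (intGen : intRing K y) ∈ 𝔭.asIdeal := by
        rw [← primeOrd_algebraMap_pos_iff (F := F) 𝔭 hgen0, ← placeOfPrime_ord K, h𝔭]
        exact hv
      have hle : p ≤ 𝔭.asIdeal.comap (algebraMap (polyRing K y) (intRing K y)) := by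
        rw [← Ideal.map_le_iff_le_comap, hmap, Ideal.span_singleton_le_iff_mem]
        exact hin
      have hover : 𝔭.asIdeal.LiesOver p := ⟨hpm.eq_of_le (Ideal.comap_ne_top _ 𝔭.isPrime.ne_top) hle⟩
      exact ⟨⟨𝔭.asIdeal, 𝔭.isPrime, hover⟩, h𝔭⟩
    · rintro ⟨q, rfl⟩
      show 0 < (placeOfPrime K (h1 q)).ord y
      rw [placeOfPrime_ord]
      exact (primeOrd_algebraMap_pos_iff (F := F) (h1 q) hgen0).2 (hgen_mem q)
  have he_inertia : ∀ q : p.primesOver (intRing K y), q.1.inertiaDeg (polyRing K y) = 1 := by
    intro q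
    have := q.2.2
    have hqm : q.1.IsMaximal := q.2.1.isMaximal (hne q)
    rw [Ideal.inertiaDeg_eq_of_isMaximal p q.1]
    let _ := Ideal.Quotient.field p
    rw [finrank_eq_one_iff_of_nonzero' (1 : intRing K y ⧸ q.1) one_ne_zero]
    intro w
    obtain ⟨f, rfl⟩ := Ideal.Quotient.mk_surjective w
    have hfmem : (f : F) ∈ (e q).toValuationSubring := algebraMap_mem_placeOfPrime K (h1 q) f
    obtain ⟨c, hc⟩ := FAFF.exists_const_sub y (e q) hfmem
    refine ⟨Ideal.Quotient.mk p (algebraMap K (polyRing K y) c), ?_⟩
    have h2 : (Ideal.Quotient.mk p (algebraMap K (polyRing K y) c)) • (1 : intRing K y ⧸ q.1)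
        = Ideal.Quotient.mk q.1 (algebraMap K (intRing K y) c) := by
      rw [Algebra.smul_def, mul_one]
      rfl
    rw [h2, eq_comm, Ideal.Quotient.eq]
    by_cases h0 : f - algebraMap K (intRing K y) c = 0
    · rw [h0]; exact q.1.zero_mem
    have h3 : algebraMap (intRing K y) F (f - algebraMap K (intRing K y) c)
        = (f : F) - algebraMap K F c := rfl
    rcases hc with hc | hc
    · exact absurd (Subtype.ext (by rw [← sub_eq_zero] at hc; exact hc)) h0
    · show _ ∈ (h1 q).asIdeal
      rw [← primeOrd_algebraMap_pos_iff (F := F) (h1 q) h0, ← placeOfPrime_ord K, h3]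
      exact hc
  have hset : {v : Place K F | 0 < v.ord y} = Set.range e := by
    ext v
    exact he_img v
  have hfin : {v : Place K F | 0 < v.ord y}.Finite := by
    rw [hset]; exact Set.finite_range e
  refine ⟨hfin, ?_⟩
  have hfs : hfin.toFinset = Finset.univ.image e := by
    ext v
    simp [he_img v]
  rw [hfs, Finset.sum_image (fun a _ b _ h => he_inj h), ← finrank_intRing,
    ← Ideal.sum_ramification_inertia_eq_finrank p (intRing K y)]
  push_cast
  refine Finset.sum_congr rfl fun q _ => ?_
  rw [he_ord q, he_inertia q]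
  simp

end Fibre

/-- ALG1a -/
theorem finiteDimensional_of_transcendental (h : IsFF K F) (y : F) (hy : Transcendental K y) :
    FiniteDimensional K⟮y⟯ F := by
  obtain ⟨x, -, hx⟩ := h
  exact FAFF.finiteDimensional_adjoin_of_transcendental x y hy

/-- ALG1b -/
theorem place_deg_eq_one (h : IsFF K F) (v : Place K F) : v.deg = 1 := by
  obtain ⟨x, hx, hfin⟩ := h
  exact FAFF.deg_eq_one x hx v

/-- ALG1b' : the residue field is `K`. -/
theorem exists_ord_sub_pos (h : IsFF K F) (v : Place K F) (y : F) (hy : 0 ≤ v.ord y) :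
    ∃ a : K, y = algebraMap K F a ∨ 0 < v.ord (y - algebraMap K F a) := by
  obtain ⟨x, hx, hfin⟩ := h
  rcases eq_or_ne y 0 with rfl | hy0
  · exact ⟨0, Or.inl (by simp)⟩
  · exact FAFF.exists_const_sub x v ((FAFF.mem_iff_ord_nonneg v hy0).2 hy)

/-- ALG1c : zeros of a nonconstant function, counted with multiplicity. -/
theorem finite_zeros (h : IsFF K F) (y : F) (hy : Transcendental K y) :
    {v : Place K F | 0 < v.ord y}.Finite := by
  have := finiteDimensional_of_transcendental h y hy
  exact (finite_and_sum_zeros hy).choose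

theorem sum_zeros (h : IsFF K F) (y : F) (hy : Transcendental K y) :
    ∑ v ∈ (finite_zeros h y hy).toFinset, v.ord y = (Module.finrank K⟮y⟯ F : ℤ) := by
  have := finiteDimensional_of_transcendental h y hy
  exact (finite_and_sum_zeros hy).choose_spec

omit [IsAlgClosed K] [CharZero K] in
theorem adjoin_inv_eq (y : F) : K⟮y⁻¹⟯ = K⟮y⟯ := by
  apply le_antisymm
  · rw [adjoin_simple_le_iff]
    exact inv_mem (mem_adjoin_simple_self K y)
  · rw [adjoin_simple_le_iff]
    have := inv_mem (mem_adjoin_simple_self K y⁻¹)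
    rwa [inv_inv] at this

omit [IsAlgClosed K] [CharZero K] in
theorem transcendental_inv {y : F} (hy : Transcendental K y) : Transcendental K y⁻¹ := by
  intro h
  apply hy
  have := h.inv
  rwa [inv_inv] at this

/-- poles of a nonconstant function, counted with multiplicity. -/
theorem finite_poles (h : IsFF K F) (y : F) (hy : Transcendental K y) :
    {v : Place K F | v.ord y < 0}.Finite := by
  have h1 := finite_zeros h y⁻¹ (transcendental_inv hy)
  simpa [Place.ord_inv] using h1

theorem sum_poles (h : IsFF K F) (y : F) (hy : Transcendental K y) :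
    ∑ v ∈ (finite_poles h y hy).toFinset, v.ord y = -(Module.finrank K⟮y⟯ F : ℤ) := by
  have h1 := sum_zeros h y⁻¹ (transcendental_inv hy)
  rw [adjoin_inv_eq] at h1
  rw [← h1, ← Finset.sum_neg_distrib]
  refine Finset.sum_congr ?_ fun v _ => ?_
  · ext v
    simp [Place.ord_inv]
  · rw [Place.ord_inv, neg_neg]

/-- The degree of a divisor when all places have degree one. -/
theorem degree_eq_sum (h : IsFF K F) (D : Divisor K F) : Divisor.degree D = ∑ v ∈ D.support, D v := by
  have h1 : Divisor.degree D = D.sum fun v n => n * (v.deg : ℤ) := by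
    simp [Divisor.degree, Finsupp.liftAddHom_apply]
  rw [h1, Finsupp.sum]
  refine Finset.sum_congr rfl fun v _ => ?_
  rw [place_deg_eq_one h v]
  simp

theorem degree_eq_sum_of_subset (h : IsFF K F) (D : Divisor K F) (s : Finset (Place K F))
    (hs : D.support ⊆ s) : Divisor.degree D = ∑ v ∈ s, D v := by
  rw [degree_eq_sum h]
  exact Finset.sum_subset hs fun v _ hv => by simpa using hv

/-- ALG1d -/
theorem hasPrincipalDivisors (h : IsFF K F) : HasPrincipalDivisors K F := by
  classical
  refine ⟨fun f hf => ?_⟩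
  by_cases hfK : f ∈ Set.range (algebraMap K F)
  · obtain ⟨c, rfl⟩ := hfK
    exact ⟨0, fun v => by simp [FAFF.ord_algebraMap], by simp⟩
  have hft : Transcendental K f := FAFF.transcendental_of_notMem_range hfK
  let Z := (finite_zeros h f hft).toFinset
  let P := (finite_poles h f hft).toFinset
  let D : Divisor K F := Finsupp.onFinset (Z ∪ P) (fun v => v.ord f) (by
    intro v hv
    simp only [Z, P, Finset.mem_union, Set.Finite.mem_toFinset, Set.mem_ofPred_eq]
    omega)
  refine ⟨D, fun v => rfl, ?_⟩
  have hdisj : Disjoint Z P := by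
    rw [Finset.disjoint_left]
    intro v hv hv'
    simp only [Z, P, Set.Finite.mem_toFinset, Set.mem_ofPred_eq] at hv hv'
    omega
  rw [degree_eq_sum_of_subset h D (Z ∪ P) Finsupp.support_onFinset_subset,
    Finset.sum_union hdisj]
  show ∑ v ∈ Z, v.ord f + ∑ v ∈ P, v.ord f = 0
  rw [sum_zeros h f hft, sum_poles h f hft]
  ring

end FA24
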