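import Fermat.Agent.X0Genus.DefsAlg
import Fermat.Agent.X0Genus.Dedekind
import Fermat.Agent.X0Genus.Places

/-! S24 package ALG2: counting the places above a point by means of branches. -/

open AlgebraicCurve IntermediateField IsDedekindDomain
open scoped LaurentSeries

namespace FA24

/-- the norm is the product over a full set of embeddings into any field. -/
theorem map_norm_eq_prod {k F L : Type*} [Field k] [Field F] [Algebra k F] [FiniteDimensional k F]
    [Algebra.IsSeparable k F] [Field L] {X : Type*} [Fintype X]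
    (hX : Fintype.card X = Module.finrank k F) (φ : X → F →+* L) (hinj : Function.Injective φ)
    (hagree : ∀ i j (z : k), φ i (algebraMap k F z) = φ j (algebraMap k F z)) (i : X) (f : F) :
    φ i (algebraMap k F (Algebra.norm k f)) = ∏ j, φ j f := by
  classical
  let E := AlgebraicClosure L
  letI : Algebra k E := ((algebraMap L E).comp ((φ i).comp (algebraMap k F))).toAlgebra
  let Ψ : X → (F →ₐ[k] E) := fun j =>
    { ((algebraMap L E).comp (φ j)) with
      commutes' := fun z => by
        show algebraMap L E (φ j (algebraMap k F z)) = algebraMap L E (φ i (algebraMap k F z))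
        rw [hagree j i] }
  have hΨ : ∀ j g, Ψ j g = algebraMap L E (φ j g) := fun _ _ => rfl
  have hΨinj : Function.Injective Ψ := by
    intro a b hab
    apply hinj
    ext g
    apply (algebraMap L E).injective
    rw [← hΨ, ← hΨ, hab]
  have hbij : Function.Bijective Ψ := by
    rw [Fintype.bijective_iff_injective_and_card]
    exact ⟨hΨinj, by rw [hX, AlgHom.card]⟩
  have h1 := Algebra.norm_eq_prod_embeddings k E f
  rw [← Fintype.prod_bijective Ψ hbij (fun j => algebraMap L E (φ j f)) (fun σ => σ f)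
    (fun j => (hΨ j f).symm), ← map_prod] at h1
  exact (algebraMap L E).injective h1

lemma injective_of_sum_eq {Q Z : Type*} [Fintype Q] [Fintype Z] (g : Q → Z)
    (hg : Function.Surjective g) (e : Z → ℤ) (s : Q → ℤ) (hs : ∀ q, 0 < s q)
    (hle : ∀ q, e (g q) ≤ s q) (hsum : ∑ z, e z = ∑ q, s q) : Function.Injective g := by
  classical
  obtain ⟨σ, hσ⟩ := hg.hasRightInverse
  have hσinj : Function.Injective σ := hσ.injective
  have hall : ∀ q, q ∈ Finset.univ.image σ := by
    by_contra hne
    push Not at hne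
    obtain ⟨q₀, hq₀⟩ := hne
    have h1 : ∑ q ∈ Finset.univ.image σ, s q = ∑ z, s (σ z) :=
      Finset.sum_image (fun a _ b _ h => hσinj h)
    have h2 : ∑ z, e z ≤ ∑ z, s (σ z) := Finset.sum_le_sum fun z _ => by
      have := hle (σ z)
      rwa [hσ z] at this
    have h3 : ∑ q ∈ Finset.univ.image σ, s q < ∑ q, s q :=
      Finset.sum_lt_sum_of_subset (Finset.subset_univ _) (Finset.mem_univ q₀) hq₀ (hs q₀)
        (fun j _ _ => (hs j).le)
    omega
  intro a b hab
  obtain ⟨z, _, rfl⟩ := Finset.mem_image.1 (hall a)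
  obtain ⟨z', _, rfl⟩ := Finset.mem_image.1 (hall b)
  rw [hσ z, hσ z'] at hab
  rw [hab]

section

variable {K F : Type*} [Field K] [Field F] [Algebra K F]

/-- A ring embedding into Laurent series, constant on `K`, nontrivial: comes from a place. -/
theorem exists_place_of_branch (φ : F →+* LaurentSeries ℂ) (ι : K →+* ℂ)
    (hφK : ∀ a, φ (algebraMap K F a) = HahnSeries.C (ι a)) (y : F) (hy : 0 < (φ y).order) :
    ∃ (v : Place K F) (c : ℤ), 0 < c ∧ ∀ f, f ≠ 0 → (φ f).order = c * v.ord f := by
  have h0 : ∀ f, f ≠ 0 → φ f ≠ 0 := fun f hf => (map_ne_zero φ).2 hf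
  refine FAFF.exists_place_of_ord (K := K) (fun f => (φ f).order) ?_ ?_ ?_ ?_
  · intro f g hf hg
    simp only [map_mul]
    exact HahnSeries.order_mul (h0 f hf) (h0 g hg)
  · intro f g hf hg hfg
    simp only [map_add]
    exact HahnSeries.min_order_le_order_add (by rw [← map_add]; exact h0 _ hfg)
  · intro a _
    simp only [hφK]
    exact HahnSeries.order_C
  · refine ⟨y, ?_, hy.ne'⟩
    rintro rfl
    simp at hy

/-- an element of `K[y]` which vanishes at one place above `y = 0` vanishes at all of them. -/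
theorem polyRing_ord_pos (y : F) (v v' : Place K F) (hv : 0 < v.ord y) (hv' : 0 < v'.ord y)
    (a : polyRing K y) (ha : (a : F) ≠ 0) (h : 0 < v.ord (a : F)) : 0 < v'.ord (a : F) := by
  have hy0 : y ≠ 0 := by rintro rfl; simp at hv
  obtain ⟨p, hp⟩ : ∃ p : Polynomial K, Polynomial.aeval y p = (a : F) := by
    have : (a : F) ∈ Algebra.adjoin K {y} := a.2
    rw [Algebra.adjoin_singleton_eq_range_aeval] at this
    exact this
  have hdec : (a : F) = Polynomial.aeval y p.divX * y + algebraMap K F (p.coeff 0) := by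
    conv_lhs => rw [← hp, ← Polynomial.divX_mul_X_add p]
    simp
  set b : F := Polynomial.aeval y p.divX with hb
  have hbmem : ∀ w : Place K F, 0 < w.ord y → b ∈ w.toValuationSubring := by
    intro w hw
    have : b ∈ polyRing K y := by
      show b ∈ Algebra.adjoin K {y}
      rw [Algebra.adjoin_singleton_eq_range_aeval]
      exact ⟨_, rfl⟩
    exact polyRing_le_place w ((FAFF.mem_iff_ord_nonneg w hy0).2 hw.le) ⟨b, this⟩
  have hpos : ∀ w : Place K F, 0 < w.ord y → b ≠ 0 → 0 < w.ord (b * y) := by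
    intro w hw hb0
    rw [w.ord_mul hb0 hy0]
    have := (FAFF.mem_iff_ord_nonneg w hb0).1 (hbmem w hw)
    omega
  have hc : p.coeff 0 = 0 := by
    by_contra hc
    have hc' : algebraMap K F (p.coeff 0) ≠ 0 := by simpa using hc
    rcases eq_or_ne b 0 with hb0 | hb0
    · rw [hdec, hb0, zero_mul, zero_add, FAFF.ord_algebraMap] at h
      omega
    · have h1 := FAFF.ord_add_eq_of_lt v hc' (mul_ne_zero hb0 hy0)
        (by rw [FAFF.ord_algebraMap]; exact hpos v hv hb0)
      rw [add_comm, ← hdec, FAFF.ord_algebraMap] at h1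
      omega
  rw [hc, map_zero, add_zero] at hdec
  have hb0 : b ≠ 0 := by
    rintro hb0
    rw [hdec, hb0, zero_mul] at ha
    exact ha rfl
  rw [hdec]
  exact hpos v' hv' hb0

theorem order_prod_laurent {X : Type*} (s : Finset X) (x : X → LaurentSeries ℂ)
    (hx : ∀ j ∈ s, x j ≠ 0) : (∏ j ∈ s, x j).order = ∑ j ∈ s, (x j).order := by
  classical
  induction s using Finset.induction_on with
  | empty => simp
  | insert a s ha ih =>
    rw [Finset.prod_insert ha, Finset.sum_insert ha,
      HahnSeries.order_mul (hx a (Finset.mem_insert_self a s))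
        (Finset.prod_ne_zero_iff.2 fun j hj => hx j (Finset.mem_insert_of_mem hj)),
      ih fun j hj => hx j (Finset.mem_insert_of_mem hj)]

theorem agree_on_adjoin {L : Type*} [Field L] (y : F) (φ ψ : F →+* L)
    (hK : ∀ a : K, φ (algebraMap K F a) = ψ (algebraMap K F a)) (hy : φ y = ψ y) (z : K⟮y⟯) :
    φ (algebraMap K⟮y⟯ F z) = ψ (algebraMap K⟮y⟯ F z) := by
  obtain ⟨z, hz⟩ := z
  show φ z = ψ z
  induction hz using IntermediateField.adjoin_induction with
  | mem x hx => rw [Set.mem_singleton_iff.1 hx, hy]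
  | algebraMap x => exact hK x
  | add x y _ _ hx hy => rw [map_add, map_add, hx, hy]
  | inv x _ hx => rw [map_inv₀, map_inv₀, hx]
  | mul x y _ _ hx hy => rw [map_mul, map_mul, hx, hy]

open scoped IntermediateField.algebraAdjoinAdjoin in
theorem exists_branch_place [CharZero K] (y : F) (hy : Transcendental K y)
    [FiniteDimensional K⟮y⟯ F]
    {X : Type} [Fintype X] (hX : Fintype.card X = Module.finrank K⟮y⟯ F)
    (φ : X → F →+* LaurentSeries ℂ) (hφinj : Function.Injective φ)
    (ι : K →+* ℂ) (hφK : ∀ k a, φ k (algebraMap K F a) = HahnSeries.C (ι a))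
    (hφy : ∀ k k', φ k y = φ k' y)
    (vv : X → Place K F) (cc : X → ℤ) (hcc : ∀ k, 0 < cc k)
    (hvv : ∀ k f, f ≠ 0 → (φ k f).order = cc k * (vv k).ord f)
    (hvy : ∀ k, 0 < (vv k).ord y)
    (v : Place K F) (hv : 0 < v.ord y) : ∃ k, vv k = v := by
  classical
  by_contra hne
  push Not at hne
  have hy0 : y ≠ 0 := by rintro rfl; simp at hv
  haveI := polyRing_isPrincipalIdealRing hy
  haveI := isSeparable_adjoin (K := K) (y := y)
  haveI := intRing_isDedekindDomain hy
  haveI := intRing_isFractionRing (K := K) (y := y)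
  haveI := intRing_finite hy
  haveI : IsScalarTower (polyRing K y) (intRing K y) F :=
    IsScalarTower.of_algebraMap_eq (fun _ => rfl)
  haveI : Nonempty X := by
    rw [← Fintype.card_pos_iff, hX]
    exact Module.finrank_pos
  obtain ⟨k₀⟩ := ‹Nonempty X›
  obtain ⟨P, hP⟩ := exists_prime_of_place v
    (intRing_le_place v ((FAFF.mem_iff_ord_nonneg v hy0).2 hv.le))
  choose Pk hPk using fun k => exists_prime_of_place (vv k)
    (intRing_le_place (vv k) ((FAFF.mem_iff_ord_nonneg (vv k) hy0).2 (hvy k).le))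
  have hnot : ¬ ((P.asIdeal : Set (intRing K y)) ⊆
      ⋃ k ∈ ((Finset.univ : Finset X) : Set X), ((Pk k).asIdeal : Set (intRing K y))) := by
    rw [Ideal.subset_union_prime k₀ k₀ (fun k _ _ _ => (Pk k).isPrime)]
    rintro ⟨k, _, hle⟩
    have h1 : P.asIdeal = (Pk k).asIdeal := P.isMaximal.eq_of_le (Pk k).isPrime.ne_top hle
    have h2 : P = Pk k := HeightOneSpectrum.ext h1
    exact hne k (by rw [← hPk k, ← hP, h2])
  rw [Set.not_subset] at hnot
  obtain ⟨f, hfP, hfk⟩ := hnot
  have hfk' : ∀ k, f ∉ (Pk k).asIdeal := by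
    intro k hk
    exact hfk (Set.mem_biUnion (by simp) hk)
  have hf0 : f ≠ 0 := by
    rintro rfl
    exact hfk' k₀ (Ideal.zero_mem _)
  have hfF : algebraMap (intRing K y) F f ≠ 0 := by simpa using hf0
  set a := Algebra.intNorm (polyRing K y) (intRing K y) f with ha
  have hdvd : f ∣ algebraMap (polyRing K y) (intRing K y) a :=
    Algebra.dvd_algebraMap_intNorm_self _ _ f
  have hnorm : algebraMap (polyRing K y) K⟮y⟯ a
      = Algebra.norm K⟮y⟯ (algebraMap (intRing K y) F f) :=
    Algebra.algebraMap_intNorm (K := K⟮y⟯) (L := F) f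
  have hprod := map_norm_eq_prod hX φ hφinj
    (fun i j z => agree_on_adjoin y (φ i) (φ j) (fun a => by rw [hφK, hφK]) (hφy i j) z) k₀
    (algebraMap (intRing K y) F f)
  rw [← hnorm] at hprod
  have haF : algebraMap K⟮y⟯ F (algebraMap (polyRing K y) K⟮y⟯ a) = (a : F) := rfl
  rw [haF] at hprod
  have hne0 : ∀ j, φ j (algebraMap (intRing K y) F f) ≠ 0 := fun j => (map_ne_zero _).2 hfF
  have haF0 : (a : F) ≠ 0 := by
    intro h0
    rw [h0, map_zero] at hprod
    exact Finset.prod_ne_zero_iff.2 (fun j _ => hne0 j) hprod.symm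
  have hord0 : ∀ j, (vv j).ord (algebraMap (intRing K y) F f) = 0 := by
    intro j
    have h1 : 0 ≤ (vv j).ord (algebraMap (intRing K y) F f) := by
      rw [← FAFF.mem_iff_ord_nonneg _ hfF, ← hPk j]
      exact algebraMap_mem_placeOfPrime K (Pk j) f
    have h2 : ¬ 0 < (vv j).ord (algebraMap (intRing K y) F f) := by
      rw [← hPk j, placeOfPrime_ord, primeOrd_algebraMap_pos_iff _ hf0]
      exact hfk' j
    omega
  have hO : (φ k₀ (a : F)).order = 0 := by
    rw [hprod, order_prod_laurent _ _ (fun j _ => hne0 j)]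
    apply Finset.sum_eq_zero
    intro j _
    rw [hvv j _ hfF, hord0 j, mul_zero]
  have haP : algebraMap (polyRing K y) (intRing K y) a ∈ P.asIdeal :=
    Ideal.mem_of_dvd _ hdvd hfP
  have ha0' : algebraMap (polyRing K y) (intRing K y) a ≠ 0 := by
    intro h0
    apply haF0
    have := congrArg (algebraMap (intRing K y) F) h0
    simpa using this
  have hpos : 0 < v.ord (a : F) := by
    have := (primeOrd_algebraMap_pos_iff (F := F) P ha0').2 haP
    rw [← placeOfPrime_ord K, hP] at this
    exact this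
  have hpos' := polyRing_ord_pos y v (vv k₀) hv (hvy k₀) a haF0 hpos
  rw [hvv k₀ _ haF0] at hO
  have := hcc k₀
  have h3 : 0 < cc k₀ * (vv k₀).ord (a : F) := mul_pos this hpos'
  omega

end

variable {K F : Type*} [Field K] [IsAlgClosed K] [CharZero K] [Field F] [Algebra K F]

/-- ALG2 : counting the places above a point by means of branches. -/
theorem count_places (y : F) (hy : Transcendental K y) [FiniteDimensional K⟮y⟯ F]
    {X : Type} [Fintype X] (hX : Fintype.card X = Module.finrank K⟮y⟯ F)
    (φ : X → F →+* LaurentSeries ℂ) (hφinj : Function.Injective φ)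
    (ι : K →+* ℂ) (hφK : ∀ k a, φ k (algebraMap K F a) = HahnSeries.C (ι a))
    (hφy : ∀ k k', φ k y = φ k' y)
    (S₀ : ℕ) (hS₀ : 0 < S₀) (hy0 : ∀ k, (φ k y).order = S₀)
    (r : Setoid X) (hr1 : ∀ k k', r k k' → ∀ f, (φ k f).order = (φ k' f).order)
    (hr2 : ∀ k f, f ≠ 0 → (S₀ : ℤ) ∣ (Nat.card {k' // r k' k} : ℤ) * (φ k f).order) :
    {v : Place K F | 0 < v.ord y}.ncard = Nat.card (Quotient r) ∧
      ∀ v : Place K F, 0 < v.ord y → HasBranch v := by
  classical
  have hFF : IsFF K F := ⟨y, hy, inferInstance⟩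
  have hyne : y ≠ 0 := by
    rintro rfl
    exact hy (by simpa using (isAlgebraic_zero : IsAlgebraic K (0 : F)))
  choose vv cc hcc hvv using fun k => exists_place_of_branch (φ k) ι (hφK k) y
    (by rw [hy0 k]; exact_mod_cast hS₀)
  have hS : ∀ k, (S₀ : ℤ) = cc k * (vv k).ord y := fun k => by rw [← hvv k y hyne, hy0 k]
  have hvy : ∀ k, 0 < (vv k).ord y := by
    intro k
    have h1 : (0 : ℤ) < cc k * (vv k).ord y := by rw [← hS k]; exact_mod_cast hS₀
    exact (pos_iff_pos_of_mul_pos h1).1 (hcc k)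
  have hsurj := exists_branch_place y hy hX φ hφinj ι hφK hφy vv cc hcc hvv hvy
  refine ⟨?_, ?_⟩
  swap
  · intro v hv
    obtain ⟨k, rfl⟩ := hsurj v hv
    exact ⟨φ k, cc k, hcc k, fun a => ⟨ι a, hφK k a⟩, hvv k⟩
  -- the counting
  have hfin := finite_zeros hFF y hy
  haveI : Fintype {v : Place K F | 0 < v.ord y} := hfin.fintype
  have hrel : ∀ k k', r k k' → vv k = vv k' := by
    intro k k' hkk
    apply FAFF.place_ext
    intro f hf h0
    have h1 := hr1 k k' hkk f
    rw [hvv k f hf, hvv k' f hf] at h1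
    have h2 : 0 ≤ cc k' * (vv k').ord f := by
      rw [← h1]; exact mul_nonneg (hcc k).le h0
    exact nonneg_of_mul_nonneg_right h2 (hcc k')
  let g : Quotient r → {v : Place K F | 0 < v.ord y} :=
    Quotient.lift (fun k => (⟨vv k, hvy k⟩ : {v : Place K F | 0 < v.ord y}))
      (fun k k' h => Subtype.ext (hrel k k' h))
  have hg : Function.Surjective g := by
    rintro ⟨v, hv⟩
    obtain ⟨k, hk⟩ := hsurj v hv
    exact ⟨Quotient.mk r k, Subtype.ext hk⟩
  let s : Quotient r → ℤ := fun q => (Nat.card {k' // Quotient.mk r k' = q} : ℤ)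
  have hsmk : ∀ k, s (Quotient.mk r k) = (Nat.card {k' // r k' k} : ℤ) := by
    intro k
    show ((Nat.card {k' // Quotient.mk r k' = Quotient.mk r k} : ℕ) : ℤ) = _
    congr 1
    exact Nat.card_congr (Equiv.subtypeEquivRight fun k' => Quotient.eq)
  have hspos : ∀ q, 0 < s q := by
    intro q
    induction q using Quotient.inductionOn with
    | h k =>
      have : Nonempty {k' // Quotient.mk r k' = Quotient.mk r k} := ⟨⟨k, rfl⟩⟩
      show (0 : ℤ) < ((Nat.card {k' // Quotient.mk r k' = Quotient.mk r k} : ℕ) : ℤ)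
      exact_mod_cast Nat.card_pos
  have hle : ∀ q, ((g q : Place K F)).ord y ≤ s q := by
    intro q
    induction q using Quotient.inductionOn with
    | h k =>
      show (vv k).ord y ≤ s (Quotient.mk r k)
      obtain ⟨π, hπ⟩ := FAFF.exists_irreducible (vv k)
      have hπ0 := FAFF.coe_ne_zero_of_irreducible (vv k) hπ
      have h1 := hr2 k π hπ0
      rw [hvv k _ hπ0, (vv k).ord_coe_irreducible hπ, mul_one, hS k, ← hsmk, mul_comm] at h1
      have h2 : (vv k).ord y ∣ s (Quotient.mk r k) :=
        (mul_dvd_mul_iff_right (hcc k).ne').1 h1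
      exact Int.le_of_dvd (hspos _) h2
  have hsum : ∑ z : {v : Place K F | 0 < v.ord y}, (z : Place K F).ord y = ∑ q, s q := by
    have h1 := sum_zeros hFF y hy
    have h2 : ∑ z : {v : Place K F | 0 < v.ord y}, (z : Place K F).ord y
        = ∑ v ∈ (finite_zeros hFF y hy).toFinset, v.ord y := by
      rw [Finset.sum_set_coe (f := fun v : Place K F => v.ord y) {v : Place K F | 0 < v.ord y}]
      refine Finset.sum_congr ?_ fun _ _ => rfl
      ext v
      simp
    rw [h2, h1, ← hX]
    have h3 : Fintype.card X = ∑ q : Quotient r, Nat.card {k' // Quotient.mk r k' = q} := by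
      rw [← Fintype.card_congr (Equiv.sigmaFiberEquiv (Quotient.mk r)), Fintype.card_sigma]
      simp [Nat.card_eq_fintype_card]
    rw [h3]
    push_cast
    rfl
  have hinj := injective_of_sum_eq g hg (fun z => (z : Place K F).ord y) s hspos hle hsum
  rw [← Nat.card_coe_set_eq]
  exact (Nat.card_congr (Equiv.ofBijective g ⟨hinj, hg⟩)).symm

end FA24
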