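import Mathlib
import Fermat.Prelude.Def_AlgebraicCurve_CanonicalDivisor

/-! S24: shared definitions, algebraic part. -/

open AlgebraicCurve IntermediateField

namespace FA24

/-- `F/K` is a function field in one variable. -/
def IsFF (K F : Type*) [Field K] [Field F] [Algebra K F] : Prop :=
  ∃ x : F, Transcendental K x ∧ FiniteDimensional K⟮x⟯ F

/-- A branch of `F` centred at the place `v`: an embedding into Laurent series over `ℂ`,
constant on `K`, whose order function is a positive multiple of `v.ord`. -/
def HasBranch {K F : Type*} [Field K] [Field F] [Algebra K F] (v : Place K F) : Prop :=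
  ∃ (φ : F →+* LaurentSeries ℂ) (c : ℤ), 0 < c ∧
    (∀ a : K, ∃ z : ℂ, φ (algebraMap K F a) = HahnSeries.C z) ∧
    ∀ f : F, f ≠ 0 → (φ f).order = c * v.ord f

end FA24
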