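import Mathlib

/-! S24 bridge: generic field theory lemmas. -/

open Polynomial IntermediateField

namespace FA24

variable {K F : Type*} [Field K] [Field F] [Algebra K F]

lemma gen_transcendental [IsAlgClosed K] (x : F) (hx : ∀ a : K, x ≠ algebraMap K F a) :
    Transcendental K x := by
  intro halg
  have : Algebra.IsAlgebraic K K⟮x⟯ := isAlgebraic_adjoin_simple halg.isIntegral
  have h := IntermediateField.eq_bot_of_isAlgClosed_of_isAlgebraic K⟮x⟯
  have h2 : x ∈ (⊥ : IntermediateField K F) := h ▸ mem_adjoin_simple_self K x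
  obtain ⟨a, ha⟩ := IntermediateField.mem_bot.mp h2
  exact hx a ha.symm

lemma gen_relation (x : F) (hx : Transcendental K x) (f : F) (Q : K[X][X]) (hQ0 : Q ≠ 0)
    (hQ : Q.eval₂ (aeval x).toRingHom f = 0) :
    ∃ Q' : K⟮x⟯[X], Q' ≠ 0 ∧ Q'.natDegree ≤ Q.natDegree ∧ aeval f Q' = 0 := by
  have h : Transcendental K (AdjoinSimple.gen K x) := by
    intro halg
    apply hx
    have := halg.algebraMap (A := F)
    simpa using this
  have hinj : Function.Injective (aeval (AdjoinSimple.gen K x)).toRingHom :=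
    transcendental_iff_injective.mp h
  refine ⟨Q.map (aeval (AdjoinSimple.gen K x)).toRingHom, ?_, natDegree_map_le, ?_⟩
  · rwa [Ne, Polynomial.map_eq_zero_iff hinj]
  · rw [aeval_def, eval₂_map]
    have h2 : (algebraMap K⟮x⟯ F).comp (aeval (AdjoinSimple.gen K x)).toRingHom =
        (aeval (R := K) x).toRingHom := by
      apply Polynomial.ringHom_ext
      · intro a
        simp only [RingHom.comp_apply, AlgHom.toRingHom_eq_coe, RingHom.coe_coe, aeval_C]
        rfl
      · simp only [RingHom.comp_apply, AlgHom.toRingHom_eq_coe, RingHom.coe_coe, aeval_X]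
        rfl
    rw [h2]
    exact hQ

theorem gen_finrank_le [CharZero K] (x : F) (μ : ℕ) (S : Set F) (hS : S.Finite)
    (hgen : adjoin K S = ⊤)
    (hrel : ∀ f : F, ∃ Q : K⟮x⟯[X], Q ≠ 0 ∧ Q.natDegree ≤ μ ∧ aeval f Q = 0) :
    FiniteDimensional K⟮x⟯ F ∧ Module.finrank K⟮x⟯ F ≤ μ := by
  have hint : ∀ f : F, IsIntegral K⟮x⟯ f := fun f => by
    obtain ⟨Q, hQ0, -, hQ⟩ := hrel f
    exact IsAlgebraic.isIntegral ⟨Q, hQ0, hQ⟩
  have hfd : FiniteDimensional K⟮x⟯ F := by
    have h1 : adjoin K⟮x⟯ S = ⊤ := adjoin_eq_top_of_adjoin_eq_top K hgen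
    have : Finite S := hS.to_subtype
    have h2 : FiniteDimensional K⟮x⟯ (adjoin K⟮x⟯ S) :=
      finiteDimensional_adjoin fun f _ => hint f
    rw [h1] at h2
    exact (topEquiv (F := K⟮x⟯) (E := F)).toLinearEquiv.finiteDimensional
  refine ⟨hfd, ?_⟩
  have : CharZero K⟮x⟯ := charZero_of_injective_algebraMap (algebraMap K K⟮x⟯).injective
  obtain ⟨θ, hθ⟩ := Field.exists_primitive_element K⟮x⟯ F
  rw [← finrank_top', ← hθ, adjoin.finrank (hint θ)]
  obtain ⟨Q, hQ0, hQd, hQ⟩ := hrel θ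
  exact (natDegree_le_of_dvd (minpoly.dvd _ _ hQ) hQ0).trans hQd

lemma gen_eq_on_adjoin {L : Type*} [Field L] (x : F) (φ ψ : F →+* L)
    (hK : ∀ a, φ (algebraMap K F a) = ψ (algebraMap K F a)) (hx : φ x = ψ x) (z : K⟮x⟯) :
    φ (z : F) = ψ (z : F) := by
  have hz : (z : F) ∈ Subfield.closure (Set.range (algebraMap K F) ∪ {x}) := z.2
  have hle : Subfield.closure (Set.range (algebraMap K F) ∪ {x}) ≤ φ.eqLocusField ψ := by
    rw [Subfield.closure_le]
    rintro w (⟨a, rfl⟩ | rfl)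
    · exact hK a
    · exact hx
  exact hle hz

theorem gen_card_le (x : F) [FiniteDimensional K⟮x⟯ F] {X : Type*} [Fintype X] {L : Type*}
    [Field L] (φ : X → F →+* L) (hinj : Function.Injective φ)
    (hK : ∀ k k' a, φ k (algebraMap K F a) = φ k' (algebraMap K F a))
    (hx : ∀ k k', φ k x = φ k' x) : Fintype.card X ≤ Module.finrank K⟮x⟯ F := by
  rcases isEmpty_or_nonempty X with hX | ⟨⟨k₀⟩⟩
  · simp
  let _ : Algebra K⟮x⟯ L := ((φ k₀).comp (algebraMap K⟮x⟯ F)).toAlgebra
  let Φ : X → (F →ₐ[K⟮x⟯] L) := fun k =>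
    { φ k with commutes' := fun z => gen_eq_on_adjoin x (φ k) (φ k₀) (hK k k₀) (hx k k₀) z }
  have hΦ : Function.Injective Φ := by
    intro k k' h
    apply hinj
    exact RingHom.ext fun f => congrArg (fun φ : F →ₐ[K⟮x⟯] L => φ f) h
  rw [← Nat.card_eq_fintype_card]
  exact (Nat.card_le_card_of_injective Φ hΦ).trans (card_algHom_le_finrank _ _ _)

lemma gen_adjoin_sub (x : F) (a : K) : K⟮x - algebraMap K F a⟯ = K⟮x⟯ := by
  apply le_antisymm
  · rw [adjoin_simple_le_iff]
    exact sub_mem (mem_adjoin_simple_self K x) (IntermediateField.algebraMap_mem _ a)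
  · rw [adjoin_simple_le_iff]
    have := add_mem (mem_adjoin_simple_self K (x - algebraMap K F a))
      (IntermediateField.algebraMap_mem K⟮x - algebraMap K F a⟯ a)
    simpa using this

lemma gen_adjoin_inv (x : F) : K⟮x⁻¹⟯ = K⟮x⟯ := by
  apply le_antisymm
  · rw [adjoin_simple_le_iff]
    exact inv_mem (mem_adjoin_simple_self K x)
  · rw [adjoin_simple_le_iff]
    have := inv_mem (mem_adjoin_simple_self K x⁻¹)
    simpa using this

end FA24
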