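import Fermat.Agent.X0Genus.DegU2
import Fermat.Agent.X0Genus.DegGen
import Fermat.Agent.X0Genus.DefsAlg

/-! S24 bridge, part 7: the degree of the function field over `ℚ̄(j)`. -/

open Polynomial IntermediateField
open scoped MatrixGroups

namespace FA24

lemma C_eq_algebraMap (a : Kb) :
    (HahnSeries.C a : LaurentSeries Kb) = algebraMap Kb (LaurentSeries Kb) a := by
  rw [ModularCurve.algebraMap_laurentSeries_eq_single]
  rfl

lemma transcendental_xN (N : ℕ) : Transcendental Kb (xN N) := by
  apply gen_transcendental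
  intro a ha
  have h1 : (xN N).1 = algebraMap Kb (LaurentSeries Kb) a := congrArg Subtype.val ha
  have h2 := congrArg (fun s : LaurentSeries Kb => s.coeff (-1)) h1
  simp only [xN_val, ModularCurve.coeffEmb_coeff, ModularCurve.coeff_jq_neg_one, map_one,
    ModularCurve.algebraMap_laurentSeries_eq_single] at h2
  rw [HahnSeries.coeff_single_of_ne (by norm_num)] at h2
  exact one_ne_zero h2

variable {N : ℕ} [NeZero N]

lemma exists_relation (f : FN N) : ∃ Q : Kb⟮xN N⟯[X], Q ≠ 0 ∧
    Q.natDegree ≤ Fintype.card (XN N) ∧ aeval f Q = 0 := by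
  obtain ⟨P, hP0, hPd, hP⟩ := exists_relation_lau f
  obtain ⟨Q, hQ0, hQd, hQ⟩ := descent _ _ P hP0 hP
  have hQ' : Q.eval₂ (aeval (R := Kb) (xN N)).toRingHom f = 0 := by
    apply Subtype.val_injective
    have h1 := hom_eval₂ Q (aeval (R := Kb) (xN N)).toRingHom
      (ModularCurve.modularFunctionFieldBar N).val.toRingHom f
    have h2 : (ModularCurve.modularFunctionFieldBar N).val.toRingHom.comp
        (aeval (R := Kb) (xN N)).toRingHom = eval₂RingHom HahnSeries.C (xN N).1 := by
      apply Polynomial.ringHom_ext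
      · intro a
        simp only [RingHom.comp_apply, AlgHom.toRingHom_eq_coe, RingHom.coe_coe, aeval_C,
          coe_eval₂RingHom, eval₂_C, C_eq_algebraMap]
        rfl
      · simp only [RingHom.comp_apply, AlgHom.toRingHom_eq_coe, RingHom.coe_coe, aeval_X,
          coe_eval₂RingHom, eval₂_X]
        rfl
    rw [h2] at h1
    exact h1.trans hQ
  obtain ⟨Q', h0, hd, h⟩ := gen_relation (xN N) (transcendental_xN N) f Q hQ0 hQ'
  exact ⟨Q', h0, hd.trans (hQd.trans hPd), h⟩

/-- the set of generators -/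
def gens (N : ℕ) : Set (FN N) := {f | ∃ (d : ℕ) (_ : NeZero d) (hd : d ∣ N), f = Jd N hd}

lemma finite_gens : (gens N).Finite := by
  classical
  have : gens N ⊆ ((N.divisors.attach.image fun d =>
      @Jd N d.1 ⟨(Nat.pos_of_mem_divisors d.2).ne'⟩ (Nat.dvd_of_mem_divisors d.2) :
        Finset (FN N)) : Set (FN N)) := by
    rintro f ⟨d, hd, hdN, rfl⟩
    rw [Finset.mem_coe, Finset.mem_image]
    exact ⟨⟨d, Nat.mem_divisors.mpr ⟨hdN, NeZero.ne N⟩⟩, Finset.mem_attach _ _, rfl⟩
  exact (Finset.finite_toSet _).subset this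

omit [NeZero N] in
lemma adjoin_gens : adjoin Kb (gens N) = ⊤ := by
  rw [eq_top_iff]
  intro f _
  refine FN_induction (P := fun f => f ∈ adjoin Kb (gens N))
    (fun a => IntermediateField.algebraMap_mem _ a)
    (fun d hd hdN => subset_adjoin _ _ ⟨d, hd, hdN, rfl⟩) (fun f g hf hg => add_mem hf hg)
    (fun f hf => neg_mem hf) (fun f g hf hg => mul_mem hf hg) (fun f hf => inv_mem hf) f

instance finiteDimensional_FN : FiniteDimensional Kb⟮xN N⟯ (FN N) :=
  (gen_finrank_le (xN N) _ (gens N) finite_gens adjoin_gens exists_relation).1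

theorem finrank_FN : Module.finrank Kb⟮xN N⟯ (FN N) = Fintype.card (XN N) :=
  le_antisymm (gen_finrank_le (xN N) _ (gens N) finite_gens adjoin_gens exists_relation).2
    (gen_card_le (xN N) (br expInf) (br_injective _)
      (fun k k' a => by rw [br_algebraMap, br_algebraMap]) (fun k k' => by rw [br_xN, br_xN]))

theorem isFF_FN : IsFF Kb (FN N) := ⟨xN N, transcendental_xN N, finiteDimensional_FN⟩

end FA24
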