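import Mathlib
import Fermat.Prelude.Def_ModularCurve_GenusNumerics
import Fermat.Agent.Genus.CardCoset
import Fermat.Agent.Genus.FixS
import Fermat.Agent.Genus.FixST
import Fermat.Agent.Genus.Final

/-! S24 package COMB: orbit counts on `SL(2,ℤ) ⧸ Γ₀(N)`. -/

open scoped MatrixGroups
open CongruenceSubgroup MulAction

namespace FA24

theorem card_orbits_of_prime {G X : Type*} [Group G] [MulAction G X] [Finite X] (s : G) (p : ℕ)
    (hp : p.Prime) (hs : ∀ x : X, s ^ p • x = x) :
    p * Nat.card (orbitRel.Quotient (Subgroup.zpowers s) X) =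
      Nat.card X + (p - 1) * Nat.card (fixedBy X s) := by
  classical
  haveI := Fintype.ofFinite X
  set Ω := orbitRel.Quotient (Subgroup.zpowers s) X with hΩ
  haveI : Fintype Ω := Fintype.ofFinite Ω
  have h1 : Nat.card X = ∑ ω : Ω, Nat.card ω.orbit := by
    rw [Nat.card_congr (selfEquivSigmaOrbits' (Subgroup.zpowers s) X), Nat.card_sigma]
  have h2 : ∀ ω : Ω, Nat.card ω.orbit = 1 ∨ Nat.card ω.orbit = p := by
    intro ω
    induction ω using Quotient.inductionOn' with
    | h x =>
      rw [orbitRel.Quotient.orbit_mk]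
      have := MulAction.minimalPeriod_eq_card (a := s) (b := x)
      rw [Nat.card_eq_fintype_card, ← this]
      apply (Nat.dvd_prime hp).1
      apply Function.IsPeriodicPt.minimalPeriod_dvd
      show (s • ·)^[p] x = x
      rw [smul_iterate_apply, hs]
  have hfix : ∀ x : X, s • x = x → orbit (Subgroup.zpowers s) x = {x} := by
    intro x hx
    ext y
    constructor
    · rintro ⟨⟨g, n, rfl⟩, rfl⟩
      show s ^ n • x = x
      exact zpow_smul_eq_iff_period_dvd.2 (by
        rw [(period_eq_one_iff).2 hx]; simp)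
    · rintro rfl
      exact mem_orbit_self _
  have h3 : Nat.card (fixedBy X s) = (Finset.univ.filter fun ω : Ω => Nat.card ω.orbit = 1).card := by
    rw [← Fintype.card_subtype, ← Nat.card_eq_fintype_card]
    refine Nat.card_congr (Equiv.ofBijective
      (fun x => ⟨(Quotient.mk'' x.1 : Ω), ?_⟩) ⟨?_, ?_⟩)
    · rw [orbitRel.Quotient.orbit_mk, hfix x.1 x.2]; simp
    · intro x y hxy
      have := congrArg Subtype.val hxy
      simp only at this
      have h' : x.1 ∈ orbit (Subgroup.zpowers s) y.1 := by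
        rw [← orbitRel_apply]; exact Quotient.exact' this
      rw [hfix y.1 y.2] at h'
      exact Subtype.ext h'
    · rintro ⟨ω, hω⟩
      induction ω using Quotient.inductionOn' with
      | h x =>
        rw [orbitRel.Quotient.orbit_mk] at hω
        refine ⟨⟨x, ?_⟩, rfl⟩
        rw [Nat.card_eq_one_iff_unique] at hω
        obtain ⟨hsub, _⟩ := hω
        have := hsub.elim (⟨s • x, ⟨⟨s, Subgroup.mem_zpowers s⟩, rfl⟩⟩ : orbit (Subgroup.zpowers s) x)
          ⟨x, mem_orbit_self x⟩
        exact congrArg Subtype.val this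
  have h4 : ∑ ω : Ω, Nat.card ω.orbit + (p - 1) * (Finset.univ.filter fun ω : Ω => Nat.card ω.orbit = 1).card
      = ∑ ω : Ω, p := by
    rw [Finset.card_filter, Finset.mul_sum, ← Finset.sum_add_distrib]
    refine Finset.sum_congr rfl fun ω _ => ?_
    have := hp.one_lt
    rcases h2 ω with h | h
    · rw [h]; simp; omega
    · rw [h, if_neg (by omega)]; simp
  rw [h1, h3, h4]
  simp [mul_comm]


lemma comb_S_sq : (ModularGroup.S : SL(2, ℤ)) ^ 2 = -1 := by
  apply Subtype.ext
  rw [Matrix.SpecialLinearGroup.coe_pow, Matrix.SpecialLinearGroup.coe_neg,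
    Matrix.SpecialLinearGroup.coe_one, ModularGroup.coe_S, pow_two, Matrix.mul_fin_two]
  ext i j
  fin_cases i <;> fin_cases j <;> simp

lemma comb_ST_cube : (ModularGroup.S * ModularGroup.T : SL(2, ℤ)) ^ 3 = -1 := by
  apply Subtype.ext
  rw [Matrix.SpecialLinearGroup.coe_pow, Matrix.SpecialLinearGroup.coe_neg,
    Matrix.SpecialLinearGroup.coe_one, Matrix.SpecialLinearGroup.coe_mul, ModularGroup.coe_S,
    ModularGroup.coe_T, Matrix.mul_fin_two, pow_succ, pow_two, Matrix.mul_fin_two,
    Matrix.mul_fin_two]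
  ext i j
  fin_cases i <;> fin_cases j <;> simp

lemma comb_neg_one_smul (N : ℕ) (x : SL(2, ℤ) ⧸ Gamma0 N) : (-1 : SL(2, ℤ)) • x = x := by
  obtain ⟨g, rfl⟩ := QuotientGroup.mk_surjective x
  show (((-1 : SL(2, ℤ)) * g : SL(2, ℤ)) : SL(2, ℤ) ⧸ Gamma0 N) = (g : SL(2, ℤ) ⧸ Gamma0 N)
  rw [eq_comm, QuotientGroup.eq]
  have : g⁻¹ * (-1 * g) = -1 := by simp
  rw [this, Gamma0_mem]
  simp

lemma comb_finite (N : ℕ) [NeZero N] : Finite (SL(2, ℤ) ⧸ Gamma0 N) := by
  apply Nat.finite_of_card_ne_zero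
  rw [FAGenus.card_coset]
  have := FAGenus.card_coset N
  intro h
  rw [h] at this
  have h2 : (Gamma0 N).index = 0 := this
  exact (Subgroup.FiniteIndex.index_ne_zero (H := Gamma0 N)) h2

theorem two_mul_card_orbits_S (N : ℕ) [NeZero N] :
    2 * Nat.card (orbitRel.Quotient (Subgroup.zpowers ModularGroup.S) (SL(2, ℤ) ⧸ Gamma0 N)) =
      ModularCurve.dedekindPsi N + ModularCurve.nuTwo N := by
  haveI := comb_finite N
  have h := card_orbits_of_prime (X := SL(2, ℤ) ⧸ Gamma0 N) ModularGroup.S 2 Nat.prime_two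
    (fun x => by rw [comb_S_sq, comb_neg_one_smul])
  rw [FAGenus.card_coset, FAGenus.card_fixedBy_S] at h
  rw [show (2 - 1 : ℕ) = 1 from rfl, one_mul] at h
  exact h

theorem three_mul_card_orbits_ST (N : ℕ) [NeZero N] :
    3 * Nat.card (orbitRel.Quotient (Subgroup.zpowers (ModularGroup.S * ModularGroup.T))
      (SL(2, ℤ) ⧸ Gamma0 N)) = ModularCurve.dedekindPsi N + 2 * ModularCurve.nuThree N := by
  haveI := comb_finite N
  have h := card_orbits_of_prime (X := SL(2, ℤ) ⧸ Gamma0 N) (ModularGroup.S * ModularGroup.T) 3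
    Nat.prime_three (fun x => by rw [comb_ST_cube, comb_neg_one_smul])
  rw [FAGenus.card_coset, FAGenus.card_fixedBy_ST] at h
  exact h

/-- the genus formula is a natural number (from S20). -/
theorem genusFormula_nat (N : ℕ) [NeZero N] : ∃ g : ℕ, (g : ℚ) = ModularCurve.genusFormula N :=
  ⟨_, FAGenus.finrank_cusp_two N⟩

end FA24
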