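import Fermat.Agent.X0Genus.OrdAPI
import Fermat.Agent.X0Genus.Places

open AlgebraicCurve IntermediateField
open scoped LaurentSeries

namespace FA24

/-- the derivative of a complex Laurent series. -/
noncomputable def dL (f : LaurentSeries ℂ) : LaurentSeries ℂ := LaurentSeries.derivative ℂ f

theorem dL_coeff (f : LaurentSeries ℂ) (n : ℤ) : (dL f).coeff n = ((n : ℂ) + 1) * f.coeff (n + 1) := by
  rw [dL, LaurentSeries.derivative_apply, LaurentSeries.hasseDeriv_coeff]
  simp [zsmul_eq_mul]

theorem dL_add (f g : LaurentSeries ℂ) : dL (f + g) = dL f + dL g := by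
  simp [dL]

theorem dL_C (z : ℂ) : dL (HahnSeries.C z) = 0 := by
  ext n
  rw [dL_coeff, HahnSeries.C_apply, HahnSeries.coeff_single]
  by_cases h : n + 1 = 0
  · have : (n : ℂ) + 1 = 0 := by exact_mod_cast h
    simp [this]
  · simp [h]

theorem coeff_coe_neg (p : PowerSeries ℂ) {n : ℤ} (hn : n < 0) :
    (p : LaurentSeries ℂ).coeff n = 0 := by
  rw [PowerSeries.coeff_coe, if_pos hn]

theorem dL_coe (p : PowerSeries ℂ) :
    dL (p : LaurentSeries ℂ) = ((PowerSeries.derivative ℂ p : PowerSeries ℂ) : LaurentSeries ℂ) := by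
  ext n
  rw [dL_coeff]
  rcases lt_or_ge n 0 with hn | hn
  · rw [coeff_coe_neg _ hn]
    rcases eq_or_lt_of_le (show n + 1 ≤ 0 by omega) with h | h
    · have : (n : ℂ) + 1 = 0 := by exact_mod_cast h
      simp [this]
    · rw [coeff_coe_neg _ h, mul_zero]
  · obtain ⟨m, rfl⟩ := Int.eq_ofNat_of_zero_le hn
    rw [LaurentSeries.coeff_coe_powerSeries, PowerSeries.coeff_derivative]
    have : ((m : ℤ) + 1) = ((m + 1 : ℕ) : ℤ) := by push_cast; ring
    rw [this, LaurentSeries.coeff_coe_powerSeries]
    push_cast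
    ring

theorem dL_single_mul (m : ℤ) (f : LaurentSeries ℂ) :
    dL (HahnSeries.single m 1 * f) =
      HahnSeries.C (m : ℂ) * (HahnSeries.single (m - 1) 1 * f) + HahnSeries.single m 1 * dL f := by
  ext n
  rw [dL_coeff, HahnSeries.coeff_add, HahnSeries.coeff_single_mul, HahnSeries.C_apply,
    HahnSeries.coeff_single_mul, HahnSeries.coeff_single_mul, HahnSeries.coeff_single_mul, dL_coeff]
  have h1 : n + 1 - m = n - 0 - (m - 1) := by ring
  have h2 : n + 1 - m = n - m + 1 := by ring
  rw [← h1, ← h2]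
  push_cast
  ring

theorem dL_mul (f g : LaurentSeries ℂ) : dL (f * g) = dL f * g + f * dL g := by
  rw [← LaurentSeries.single_order_mul_powerSeriesPart f,
    ← LaurentSeries.single_order_mul_powerSeriesPart g]
  set m := f.order
  set k := g.order
  set p := f.powerSeriesPart
  set q := g.powerSeriesPart
  have h1 : HahnSeries.single m (1 : ℂ) * (p : LaurentSeries ℂ) *
      (HahnSeries.single k (1 : ℂ) * (q : LaurentSeries ℂ)) =
      HahnSeries.single (m + k) (1 : ℂ) * ((p * q : PowerSeries ℂ) : LaurentSeries ℂ) := by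
    have : HahnSeries.single (m + k) (1 : ℂ) = HahnSeries.single m 1 * HahnSeries.single k 1 := by
      rw [HahnSeries.single_mul_single, one_mul]
    rw [this]
    push_cast
    ring
  rw [h1, dL_single_mul, dL_single_mul, dL_single_mul, dL_coe, dL_coe, dL_coe,
    Derivation.leibniz]
  have e1 : HahnSeries.single (m + k) (1 : ℂ) = HahnSeries.single m 1 * HahnSeries.single k 1 := by
    rw [HahnSeries.single_mul_single, one_mul]
  have e2 : HahnSeries.single (m + k - 1) (1 : ℂ) =
      HahnSeries.single (m - 1) 1 * HahnSeries.single k 1 := by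
    rw [HahnSeries.single_mul_single, one_mul, show m + k - 1 = m - 1 + k by ring]
  have e3 : HahnSeries.single (m + k - 1) (1 : ℂ) =
      HahnSeries.single m 1 * HahnSeries.single (k - 1) 1 := by
    rw [HahnSeries.single_mul_single, one_mul, show m + k - 1 = m + (k - 1) by ring]
  have e4 : (HahnSeries.C ((m + k : ℤ) : ℂ) : LaurentSeries ℂ) =
      HahnSeries.C (m : ℂ) + HahnSeries.C (k : ℂ) := by
    rw [← map_add]
    push_cast
    rfl
  rw [e4, add_mul, e1]
  conv_lhs => 
    enter [1, 1]
    rw [e2]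
  conv_lhs =>
    enter [1, 2]
    rw [e3]
  simp only [smul_eq_mul]
  push_cast
  ring

theorem dL_order {f : LaurentSeries ℂ} (hf : f.order ≠ 0) :
    dL f ≠ 0 ∧ (dL f).order = f.order - 1 := by
  have hf0 : f ≠ 0 := by
    rintro rfl
    simp at hf
  have hc : (dL f).coeff (f.order - 1) ≠ 0 := by
    rw [dL_coeff, sub_add_cancel]
    refine mul_ne_zero ?_ (fun h => hf0 (HahnSeries.coeff_order_eq_zero.mp h))
    have : ((f.order - 1 : ℤ) : ℂ) + 1 = ((f.order : ℤ) : ℂ) := by push_cast; ring
    rw [this]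
    exact_mod_cast hf
  have hne : dL f ≠ 0 := by
    intro h
    rw [h] at hc
    simp at hc
  refine ⟨hne, le_antisymm (HahnSeries.order_le_of_coeff_ne_zero hc) ?_⟩
  by_contra hlt
  push Not at hlt
  apply hne
  rw [← HahnSeries.coeff_order_eq_zero, dL_coeff,
    HahnSeries.coeff_eq_zero_of_lt_order (by omega), mul_zero]

section Lift

variable {K F : Type*} [Field K] [Field F] [Algebra K F]

open KaehlerDifferential in
theorem exists_lift_dL (φ : F →+* LaurentSeries ℂ)
    (hφK : ∀ a : K, ∃ z : ℂ, φ (algebraMap K F a) = HahnSeries.C z) :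
    ∃ ℓ : Ω[F⁄K] → LaurentSeries ℂ, (∀ (f : F) ω, ℓ (f • ω) = φ f * ℓ ω) ∧
      ∀ f, ℓ (KaehlerDifferential.D K F f) = dL (φ f) := by
  let _ : Algebra F (LaurentSeries ℂ) := φ.toAlgebra
  let _ : Algebra K (LaurentSeries ℂ) := (φ.comp (algebraMap K F)).toAlgebra
  have : IsScalarTower K F (LaurentSeries ℂ) := IsScalarTower.of_algebraMap_eq fun _ => rfl
  have hsmulF : ∀ (f : F) (x : LaurentSeries ℂ), f • x = φ f * x := fun f x => by
    rw [Algebra.smul_def]; rfl
  have hsmulK : ∀ (a : K) (x : LaurentSeries ℂ), a • x = φ (algebraMap K F a) * x := fun f x => by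
    rw [Algebra.smul_def]; rfl
  let δ : Derivation K F (LaurentSeries ℂ) := Derivation.mk'
    { toFun := fun f => dL (φ f)
      map_add' := fun f g => by rw [map_add, dL_add]
      map_smul' := fun a f => by
        obtain ⟨z, hz⟩ := hφK a
        rw [RingHom.id_apply, hsmulK, Algebra.smul_def, map_mul, dL_mul, hz, dL_C, zero_mul,
          zero_add] }
    (fun f g => by
      show dL (φ (f * g)) = f • dL (φ g) + g • dL (φ f)
      rw [map_mul, dL_mul, hsmulF, hsmulF]
      ring)
  refine ⟨δ.liftKaehlerDifferential, fun f ω => ?_, fun f => ?_⟩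
  · rw [map_smul, hsmulF]
  · rw [Derivation.liftKaehlerDifferential_comp_D]
    rfl

end Lift

section Span

variable {K F : Type*} [Field K] [Field F] [Algebra K F]

theorem D_mem_span_of_mem_adjoin (π : F) (a : F) (ha : a ∈ K⟮π⟯) :
    KaehlerDifferential.D K F a ∈ Submodule.span F {KaehlerDifferential.D K F π} := by
  obtain ⟨r, s, rfl⟩ := (IntermediateField.mem_adjoin_simple_iff K a).mp ha
  have key : ∀ p : Polynomial K, KaehlerDifferential.D K F (Polynomial.aeval π p) ∈
      Submodule.span F {KaehlerDifferential.D K F π} := by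
    intro p
    rw [Derivation.map_aeval]
    exact Submodule.smul_mem _ _ (Submodule.mem_span_singleton_self _)
  rw [Derivation.leibniz_div]
  exact Submodule.smul_mem _ _
    (Submodule.sub_mem _ (Submodule.smul_mem _ _ (key r)) (Submodule.smul_mem _ _ (key s)))

theorem D_mem_span [CharZero K] (π : F) [FiniteDimensional K⟮π⟯ F] (f : F) :
    KaehlerDifferential.D K F f ∈ Submodule.span F {KaehlerDifferential.D K F π} := by
  have : CharZero K⟮π⟯ := charZero_of_injective_algebraMap (algebraMap K K⟮π⟯).injective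
  set P := minpoly K⟮π⟯ f with hPdef
  have hP : Polynomial.aeval f P = 0 := minpoly.aeval _ _
  have hsep : Polynomial.aeval f (Polynomial.derivative P) ≠ 0 :=
    (Algebra.IsSeparable.isSeparable K⟮π⟯ f).aeval_derivative_ne_zero hP
  have hform : ∀ Q : Polynomial K⟮π⟯, ∃ ω ∈ Submodule.span F {KaehlerDifferential.D K F π},
      KaehlerDifferential.D K F (Polynomial.aeval f Q) =
        ω + Polynomial.aeval f (Polynomial.derivative Q) • KaehlerDifferential.D K F f := by
    intro Q
    induction Q using Polynomial.induction_on' with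
    | add p q hp hq =>
      obtain ⟨ω1, h1, e1⟩ := hp
      obtain ⟨ω2, h2, e2⟩ := hq
      refine ⟨ω1 + ω2, Submodule.add_mem _ h1 h2, ?_⟩
      rw [map_add, map_add, e1, e2, map_add, map_add, add_smul]
      abel
    | monomial n a =>
      refine ⟨f ^ n • KaehlerDifferential.D K F (a : F),
        Submodule.smul_mem _ _ (D_mem_span_of_mem_adjoin π a a.2), ?_⟩
      rw [Polynomial.aeval_monomial, Derivation.leibniz, Derivation.leibniz_pow,
        Polynomial.derivative_monomial, Polynomial.aeval_monomial]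
      have : (algebraMap K⟮π⟯ F) a = (a : F) := rfl
      rw [map_mul, this, add_comm, map_natCast, ← Nat.cast_smul_eq_nsmul F, smul_smul, smul_smul,
        mul_assoc]
  obtain ⟨ω, hω, e⟩ := hform P
  rw [hP, map_zero] at e
  have h2 : KaehlerDifferential.D K F f =
      (-(Polynomial.aeval f (Polynomial.derivative P))⁻¹) • ω := by
    have h3 : ω = -(Polynomial.aeval f (Polynomial.derivative P) • KaehlerDifferential.D K F f) :=
      eq_neg_of_add_eq_zero_left e.symm
    rw [h3, smul_neg, neg_smul, neg_neg, smul_smul, inv_mul_cancel₀ hsep, one_smul]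
  rw [h2]
  exact Submodule.smul_mem _ _ hω

end Span

section Final

variable {K F : Type*} [Field K] [IsAlgClosed K] [CharZero K] [Field F] [Algebra K F]

omit [IsAlgClosed K] [CharZero K] in
theorem transcendental_of_ord_pos (v : Place K F) {π : F} (hπ : 0 < v.ord π) :
    Transcendental K π := by
  rw [transcendental_iff]
  intro p hp
  by_contra hne
  have hπ0 : π ≠ 0 := by
    rintro rfl
    simp at hπ
  exact ((isOrd_place v).aeval_eq (fun a ha => ord_algebraMap v ha) hπ0 hπ p hne).1 hp

/-- ALG3a -/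
theorem ordDifferential_of_branch (h : IsFF K F) (v : Place K F) (hv : HasBranch v) (y : F)
    (hy : v.ord y ≠ 0) : v.ordDifferential (KaehlerDifferential.D K F y) = v.ord y - 1 := by
  obtain ⟨φ, c, hc, hφK, hφ⟩ := hv
  obtain ⟨π, hπ1, hπD⟩ : ∃ π : F, v.ord π = 1 ∧ v.dCoord = KaehlerDifferential.D K F π :=
    ⟨_, v.ord_coe_irreducible
      (IsDiscreteValuationRing.exists_irreducible v.toValuationSubring).choose_spec, rfl⟩
  have hπtr : Transcendental K π := transcendental_of_ord_pos v (by omega)
  have : FiniteDimensional K⟮π⟯ F := finiteDimensional_of_transcendental h π hπtr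
  have hex : ∃ f : F, KaehlerDifferential.D K F y = f • v.dCoord := by
    have := D_mem_span (K := K) π y
    rw [Submodule.mem_span_singleton] at this
    obtain ⟨f, hf⟩ := this
    exact ⟨f, by rw [hπD, hf]⟩
  have hkey : ∀ f : F, KaehlerDifferential.D K F y = f • v.dCoord → v.ord f = v.ord y - 1 := by
    intro f hf
    obtain ⟨ℓ, hℓ1, hℓ2⟩ := exists_lift_dL φ hφK
    have h1 := congrArg ℓ hf
    rw [hπD, hℓ1, hℓ2, hℓ2] at h1
    have hy0 : y ≠ 0 := by
      rintro rfl
      simp at hy
    have hπ0 : π ≠ 0 := by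
      rintro rfl
      simp at hπ1
    have hoy : (φ y).order = c * v.ord y := hφ y hy0
    have hoπ : (φ π).order = c := by rw [hφ π hπ0, hπ1, mul_one]
    obtain ⟨a1, a2⟩ := dL_order (f := φ y) (by rw [hoy]; exact mul_ne_zero hc.ne' hy)
    obtain ⟨b1, b2⟩ := dL_order (f := φ π) (by rw [hoπ]; exact hc.ne')
    have hf0 : f ≠ 0 := by
      rintro rfl
      rw [map_zero, zero_mul] at h1
      exact a1 h1
    have h2 := congrArg HahnSeries.order h1
    rw [HahnSeries.order_mul ((map_ne_zero φ).mpr hf0) b1, a2, b2, hoy, hoπ, hφ f hf0] at h2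
    have h3 : c * (v.ord f - (v.ord y - 1)) = 0 := by linarith
    rcases mul_eq_zero.mp h3 with h4 | h4
    · omega
    · omega
  rw [Place.ordDifferential, Place.differentialCoeff, dif_pos hex]
  exact hkey _ hex.choose_spec

end Final

section Extra

variable {K F : Type*} [Field K] [IsAlgClosed K] [CharZero K] [Field F] [Algebra K F]

omit [IsAlgClosed K] [CharZero K] in
theorem D_ne_zero_of_branch (v : Place K F) (hv : HasBranch v) (y : F) (hy : v.ord y ≠ 0) :
    KaehlerDifferential.D K F y ≠ 0 := by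
  obtain ⟨φ, c, hc, hφK, hφ⟩ := hv
  obtain ⟨ℓ, hℓ1, hℓ2⟩ := exists_lift_dL φ hφK
  intro h0
  have hy0 : y ≠ 0 := by
    rintro rfl
    simp at hy
  have hoy : (φ y).order = c * v.ord y := hφ y hy0
  obtain ⟨a1, -⟩ := dL_order (f := φ y) (by rw [hoy]; exact mul_ne_zero hc.ne' hy)
  apply a1
  rw [← hℓ2, h0]
  have := hℓ1 0 0
  rwa [zero_smul, map_zero, zero_mul] at this

open KaehlerDifferential in
theorem exists_smul_D (h : IsFF K F) (y : F) (hy : Transcendental K y) (ω : Ω[F⁄K]) :
    ∃ f : F, ω = f • KaehlerDifferential.D K F y := by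
  have : FiniteDimensional K⟮y⟯ F := finiteDimensional_of_transcendental h y hy
  have htop : Submodule.span F {KaehlerDifferential.D K F y} = ⊤ := by
    rw [eq_top_iff, ← KaehlerDifferential.span_range_derivation, Submodule.span_le]
    rintro _ ⟨f, rfl⟩
    exact D_mem_span (K := K) y f
  have hω : ω ∈ Submodule.span F {KaehlerDifferential.D K F y} := htop ▸ Submodule.mem_top
  obtain ⟨f, hf⟩ := Submodule.mem_span_singleton.mp hω
  exact ⟨f, hf.symm⟩

end Extra

end FA24
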