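import Fermat.Agent.X0Genus.Places
import Fermat.Agent.X0Genus.Diff
import Fermat.Agent.FF.Place

open AlgebraicCurve IntermediateField
open scoped LaurentSeries

namespace FA24

section
variable {K F : Type*} [Field K] [Field F] [Algebra K F]

lemma rh_adjoin_sub (x : F) (a : K) : K⟮x - algebraMap K F a⟯ = K⟮x⟯ := by
  apply le_antisymm
  · rw [adjoin_simple_le_iff]
    exact sub_mem (mem_adjoin_simple_self K x) (IntermediateField.algebraMap_mem _ a)
  · rw [adjoin_simple_le_iff]
    have := add_mem (mem_adjoin_simple_self K (x - algebraMap K F a))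
      (IntermediateField.algebraMap_mem K⟮x - algebraMap K F a⟯ a)
    simpa using this

lemma rh_adjoin_inv (x : F) : K⟮x⁻¹⟯ = K⟮x⟯ := by
  apply le_antisymm
  · rw [adjoin_simple_le_iff]
    exact inv_mem (mem_adjoin_simple_self K x)
  · rw [adjoin_simple_le_iff]
    have := inv_mem (mem_adjoin_simple_self K x⁻¹)
    simpa using this

lemma rh_finrank_congr {E E' : IntermediateField K F} (h : E = E') :
    Module.finrank E F = Module.finrank E' F := by
  subst h; rfl

lemma rh_transcendental_sub {x : F} (hx : Transcendental K x) (a : K) :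
    Transcendental K (x - algebraMap K F a) := by
  intro h
  apply hx
  have := h.add (isAlgebraic_algebraMap (A := F) a)
  simpa using this

lemma rh_transcendental_inv {x : F} (hx : Transcendental K x) : Transcendental K x⁻¹ := by
  intro h
  apply hx
  simpa using h.inv

end

variable {K F : Type*} [Field K] [IsAlgClosed K] [CharZero K] [Field F] [Algebra K F]

/-- `Σ_{v ∈ Z} (ord_v y - 1) = n - #Z`. -/
lemma rh_sum_sub_one (h : IsFF K F) (y : F) (hy : Transcendental K y) :
    ∑ v ∈ (finite_zeros h y hy).toFinset, (v.ord y - 1) =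
      (Module.finrank K⟮y⟯ F : ℤ) - ({v : Place K F | 0 < v.ord y}.ncard : ℤ) := by
  rw [Finset.sum_sub_distrib, sum_zeros h y hy, Finset.sum_const,
    Set.ncard_eq_toFinset_card _ (finite_zeros h y hy)]
  simp

/-- if the number of zeros is the degree, all zeros are simple. -/
lemma rh_ord_eq_one (h : IsFF K F) (y : F) (hy : Transcendental K y)
    (hc : {v : Place K F | 0 < v.ord y}.ncard = Module.finrank K⟮y⟯ F)
    (v : Place K F) (hv : 0 < v.ord y) : v.ord y = 1 := by
  have h1 := rh_sum_sub_one h y hy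
  rw [hc, sub_self] at h1
  have h2 := (Finset.sum_eq_zero_iff_of_nonneg (fun w hw => by
    have : 0 < w.ord y := by simpa using hw
    omega)).1 h1 v (by simpa using hv)
  omega


/-- ALG3b : Riemann-Hurwitz for a covering of the line branched over `a₁, a₂, ∞`. -/
theorem riemannHurwitz (x : F) (hx : Transcendental K x) [FiniteDimensional K⟮x⟯ F]
    (hbr : ∀ v : Place K F, HasBranch v) (a₁ a₂ : K) (h12 : a₁ ≠ a₂)
    (hgen : ∀ a : K, a ≠ a₁ → a ≠ a₂ →
      {v : Place K F | 0 < v.ord (x - algebraMap K F a)}.ncard = Module.finrank K⟮x⟯ F)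
    (ω : Ω[F⁄K]) (hω : ω ≠ 0) (D : Divisor K F) (hD : ∀ v, D v = v.ordDifferential ω) :
    Divisor.degree D = (Module.finrank K⟮x⟯ F : ℤ)
      - ({v : Place K F | 0 < v.ord (x - algebraMap K F a₁)}.ncard : ℤ)
      - ({v : Place K F | 0 < v.ord (x - algebraMap K F a₂)}.ncard : ℤ)
      - ({v : Place K F | v.ord x < 0}.ncard : ℤ) := by
  classical
  have hFF : IsFF K F := ⟨x, hx, inferInstance⟩
  have hx0 : x ≠ 0 := by
    rintro rfl
    exact hx (by simpa using (isAlgebraic_zero : IsAlgebraic K (0 : F)))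
  obtain ⟨f, hf⟩ := exists_smul_D hFF x hx ω
  have hf0 : f ≠ 0 := by
    rintro rfl
    exact hω (by rw [hf, zero_smul])
  have hDx : KaehlerDifferential.D K F x ≠ 0 := by
    intro h
    exact hω (by rw [hf, h, smul_zero])
  haveI : Nontrivial Ω[F⁄K] := ⟨⟨ω, 0, hω⟩⟩
  have hgenr : ∀ v : Place K F, v.DCoordGenerates := by
    intro v
    obtain ⟨π, hπ1, hπD⟩ : ∃ π : F, v.ord π = 1 ∧ v.dCoord = KaehlerDifferential.D K F π :=
      ⟨_, v.ord_coe_irreducible
        (IsDiscreteValuationRing.exists_irreducible v.toValuationSubring).choose_spec, rfl⟩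
    refine ⟨?_⟩
    rw [eq_top_iff]
    intro η _
    obtain ⟨g, hg⟩ := exists_smul_D hFF π (transcendental_of_ord_pos v (by omega)) η
    rw [hπD, hg]
    exact Submodule.smul_mem _ _ (Submodule.mem_span_singleton_self _)
  have hδ : ∀ v : Place K F,
      D v = v.ord f + v.ordDifferential (KaehlerDifferential.D K F x) := by
    intro v
    haveI := hgenr v
    rw [hD, hf, v.ordDifferential_smul hf0]
    intro h0
    have := v.differentialCoeff_smul_dCoord (KaehlerDifferential.D K F x)
    rw [h0, zero_smul] at this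
    exact hDx this.symm
  obtain ⟨Df, hDf, hDf0⟩ := (hasPrincipalDivisors hFF).exists_divisor f hf0
  set R : Divisor K F := D - Df with hRdef
  have hR : ∀ v : Place K F, R v = v.ordDifferential (KaehlerDifferential.D K F x) := by
    intro v
    rw [hRdef, Finsupp.sub_apply, hδ v, hDf v]
    ring
  have hdeg : Divisor.degree D = Divisor.degree R := by
    rw [hRdef, map_sub, hDf0, sub_zero]
  -- values of `R`
  have hval : ∀ (v : Place K F) (a : K), 0 < v.ord (x - algebraMap K F a) →
      R v = v.ord (x - algebraMap K F a) - 1 := by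
    intro v a hv
    rw [hR, ← ordDifferential_of_branch hFF v (hbr v) _ hv.ne', map_sub,
      Derivation.map_algebraMap, sub_zero]
  have hvalinf : ∀ v : Place K F, 0 < v.ord x⁻¹ → R v = - v.ord x⁻¹ - 1 := by
    intro v hv
    rw [v.ord_inv] at hv
    rw [hR, ordDifferential_of_branch hFF v (hbr v) x (by omega), v.ord_inv]
    ring
  have ht : ∀ a : K, Transcendental K (x - algebraMap K F a) := rh_transcendental_sub hx
  have hti : Transcendental K x⁻¹ := rh_transcendental_inv hx
  set Z₁ := (finite_zeros hFF _ (ht a₁)).toFinset with hZ₁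
  set Z₂ := (finite_zeros hFF _ (ht a₂)).toFinset with hZ₂
  set Zi := (finite_zeros hFF _ hti).toFinset with hZi
  have hne : ∀ a : K, x - algebraMap K F a ≠ 0 := by
    intro a h0
    exact ht a (by rw [h0]; exact isAlgebraic_zero)
  have hd12 : Disjoint Z₁ Z₂ := by
    rw [Finset.disjoint_left]
    intro v h1 h2
    have h1' : 0 < v.ord (x - algebraMap K F a₁) := by simpa [hZ₁] using h1
    have h2' : 0 < v.ord (x - algebraMap K F a₂) := by simpa [hZ₂] using h2
    have hc : algebraMap K F (a₁ - a₂) ≠ 0 := by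
      simpa [sub_eq_zero] using h12
    have h3 := FAFF.min_ord_le_ord_add v (hne a₂) (neg_ne_zero.2 (hne a₁))
      (by
        have : x - algebraMap K F a₂ + -(x - algebraMap K F a₁) = algebraMap K F (a₁ - a₂) := by
          rw [map_sub]; ring
        rw [this]; exact hc)
    have h4 : x - algebraMap K F a₂ + -(x - algebraMap K F a₁) = algebraMap K F (a₁ - a₂) := by
      rw [map_sub]; ring
    rw [h4, FAFF.ord_algebraMap, FAFF.ord_neg] at h3
    have := lt_min h2' h1'
    omega
  have hdi : ∀ (a : K) (v : Place K F), 0 < v.ord (x - algebraMap K F a) → ¬ 0 < v.ord x⁻¹ := by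
    intro a v h1 h2
    rw [v.ord_inv] at h2
    rcases eq_or_ne a 0 with rfl | ha
    · rw [map_zero, sub_zero] at h1
      omega
    · have hc : algebraMap K F a ≠ 0 := by simpa using ha
      have h3 := FAFF.ord_add_eq_of_lt v hx0 (neg_ne_zero.2 hc)
        (by rw [FAFF.ord_neg, FAFF.ord_algebraMap]; omega)
      rw [← sub_eq_add_neg] at h3
      omega
  have hd12i : Disjoint (Z₁ ∪ Z₂) Zi := by
    rw [Finset.disjoint_left]
    intro v h1 h2
    have h2' : 0 < v.ord x⁻¹ := by simpa [hZi] using h2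
    rcases Finset.mem_union.1 h1 with h | h
    · exact hdi a₁ v (by simpa [hZ₁] using h) h2'
    · exact hdi a₂ v (by simpa [hZ₂] using h) h2'
  have hsupp : R.support ⊆ (Z₁ ∪ Z₂) ∪ Zi := by
    intro v hv
    rw [Finsupp.mem_support_iff] at hv
    by_contra hnot
    simp only [Finset.mem_union, not_or] at hnot
    obtain ⟨⟨hn1, hn2⟩, hn3⟩ := hnot
    have hn1' : ¬ 0 < v.ord (x - algebraMap K F a₁) := by simpa [hZ₁] using hn1
    have hn2' : ¬ 0 < v.ord (x - algebraMap K F a₂) := by simpa [hZ₂] using hn2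
    have hn3' : ¬ 0 < v.ord x⁻¹ := by simpa [hZi] using hn3
    rw [v.ord_inv] at hn3'
    obtain ⟨a, ha | ha⟩ := exists_ord_sub_pos hFF v x (by omega)
    · exact hne a (by rw [ha, sub_self])
    · have ha1 : a ≠ a₁ := by rintro rfl; exact hn1' ha
      have ha2 : a ≠ a₂ := by rintro rfl; exact hn2' ha
      have h1 := rh_ord_eq_one hFF _ (ht a)
        (by rw [hgen a ha1 ha2]; exact (rh_finrank_congr (rh_adjoin_sub x a)).symm) v ha
      apply hv
      rw [hval v a ha, h1, sub_self]
  have hdegR : Divisor.degree R = ∑ v ∈ (Z₁ ∪ Z₂) ∪ Zi, R v := by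
    have h1 : Divisor.degree R = R.sum fun v n => n * (v.deg : ℤ) := by
      simp [Divisor.degree, Finsupp.liftAddHom_apply]
    rw [h1, Finsupp.sum_of_support_subset R hsupp _ (fun v _ => by simp)]
    refine Finset.sum_congr rfl fun v _ => ?_
    rw [place_deg_eq_one hFF v]
    simp
  rw [hdeg, hdegR, Finset.sum_union hd12i, Finset.sum_union hd12]
  have hs1 : ∑ v ∈ Z₁, R v = (Module.finrank K⟮x⟯ F : ℤ)
      - ({v : Place K F | 0 < v.ord (x - algebraMap K F a₁)}.ncard : ℤ) := by
    rw [← rh_finrank_congr (rh_adjoin_sub x a₁), ← rh_sum_sub_one hFF _ (ht a₁)]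
    refine Finset.sum_congr rfl fun v hv => hval v a₁ (by simpa [hZ₁] using hv)
  have hs2 : ∑ v ∈ Z₂, R v = (Module.finrank K⟮x⟯ F : ℤ)
      - ({v : Place K F | 0 < v.ord (x - algebraMap K F a₂)}.ncard : ℤ) := by
    rw [← rh_finrank_congr (rh_adjoin_sub x a₂), ← rh_sum_sub_one hFF _ (ht a₂)]
    refine Finset.sum_congr rfl fun v hv => hval v a₂ (by simpa [hZ₂] using hv)
  have hset : {v : Place K F | v.ord x < 0} = {v : Place K F | 0 < v.ord x⁻¹} := by
    ext v
    simp only [Set.mem_setOf_eq, v.ord_inv]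
    omega
  have hs3 : ∑ v ∈ Zi, R v = - (Module.finrank K⟮x⟯ F : ℤ)
      - ({v : Place K F | v.ord x < 0}.ncard : ℤ) := by
    have h1 : ∑ v ∈ Zi, R v = ∑ v ∈ Zi, (- v.ord x⁻¹ - 1) :=
      Finset.sum_congr rfl fun v hv => hvalinf v (by simpa [hZi] using hv)
    rw [h1, Finset.sum_sub_distrib, Finset.sum_neg_distrib, sum_zeros hFF _ hti,
      rh_finrank_congr (rh_adjoin_inv x), hset, Finset.sum_const,
      Set.ncard_eq_toFinset_card _ (finite_zeros hFF _ hti), ← hZi]
    simp
  rw [hs1, hs2, hs3]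
  ring

end FA24
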