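import Fermat.Agent.X0Genus.BrPts
import Fermat.Agent.X0Genus.RH
import Fermat.Agent.X0Genus.Comb
import Fermat.Agent.Genus.OrbT
import Fermat.Agent.Genus.CardCoset

/-! S24 bridge, part 11: the degree of the canonical divisor. -/

open Polynomial IntermediateField AlgebraicCurve UpperHalfPlane
open scoped MatrixGroups Real

namespace FA24

variable {N : ℕ} [NeZero N]

theorem hasBranch_all (v : Place Kb (FN N)) : HasBranch v := by
  by_cases h : v.ord (xN N) < 0
  · apply count_inf.2 v
    rw [Place.ord_inv]
    omega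
  · obtain ⟨a, ha | ha⟩ := exists_ord_sub_pos isFF_FN v (xN N) (not_lt.mp h)
    · exfalso
      apply transcendental_xN N
      rw [ha]
      exact isAlgebraic_algebraMap a
    · by_cases h0 : a = 0
      · subst h0
        exact count_0.2 v ha
      · by_cases h1 : a = 1728
        · subst h1
          exact count_1728.2 v ha
        · exact (count_generic a h0 h1).2 v ha

theorem exists_differential_ne_zero : ∃ ω : Ω[FN N⁄Kb], ω ≠ 0 := by
  -- there is a place above `∞`
  have h1 := (count_inf (N := N)).1
  have h2 : 0 < Nat.card (MulAction.orbitRel.Quotient (Subgroup.zpowers ModularGroup.T) (XN N)) := by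
    have : Nonempty (MulAction.orbitRel.Quotient (Subgroup.zpowers ModularGroup.T) (XN N)) :=
      ⟨Quotient.mk _ ((1 : SL(2, ℤ)) : XN N)⟩
    exact Nat.card_pos
  rw [← h1] at h2
  obtain ⟨v, hv⟩ := (Set.ncard_pos
    (Set.finite_of_ncard_pos h2)).mp h2
  exact ⟨_, D_ne_zero_of_branch v (hasBranch_all v) (xN N)⁻¹ (ne_of_gt hv)⟩

theorem degree_canonical (ω : Ω[FN N⁄Kb]) (hω : ω ≠ 0) (D : Divisor Kb (FN N))
    (hD : ∀ v, D v = v.ordDifferential ω) :
    Divisor.degree D = (ModularCurve.dedekindPsi N : ℤ)
      - (Nat.card (MulAction.orbitRel.Quotient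
          (Subgroup.zpowers (ModularGroup.S * ModularGroup.T)) (XN N)) : ℤ)
      - (Nat.card (MulAction.orbitRel.Quotient (Subgroup.zpowers ModularGroup.S) (XN N)) : ℤ)
      - (ModularCurve.cuspCount N : ℤ) := by
  have hfr : Module.finrank Kb⟮xN N⟯ (FN N) = ModularCurve.dedekindPsi N := by
    rw [finrank_FN, ← Nat.card_eq_fintype_card, FAGenus.card_coset]
  have h := riemannHurwitz (xN N) (transcendental_xN N) hasBranch_all 0 1728 (by norm_num)
    (fun a h0 h1 => by rw [(count_generic a h0 h1).1, finrank_FN]) ω hω D hD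
  have hinf : {v : Place Kb (FN N) | v.ord (xN N) < 0} = {v | 0 < v.ord (xN N)⁻¹} := by
    ext v
    simp only [Set.mem_ofPred_eq, Place.ord_inv]
    omega
  rw [hfr, count_0.1, count_1728.1, hinf, count_inf.1, FAGenus.card_orbits_T] at h
  exact h

theorem genus_eq [HasCanonicalDivisor (K := Kb) (F := FN N)] :
    (genus Kb (FN N) : ℚ) = ModularCurve.genusFormula N := by
  obtain ⟨g, hg⟩ := genusFormula_nat N
  have hex := exists_differential_ne_zero (N := N)
  have hdeg := degree_canonical _ hex.choose_spec (canonicalDivisorOf hex.choose_spec)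
    (canonicalDivisorOf_apply hex.choose_spec)
  have h2 := two_mul_card_orbits_S N
  have h3 := three_mul_card_orbits_ST N
  set oS := Nat.card (MulAction.orbitRel.Quotient (Subgroup.zpowers ModularGroup.S) (XN N))
  set oST := Nat.card (MulAction.orbitRel.Quotient
    (Subgroup.zpowers (ModularGroup.S * ModularGroup.T)) (XN N))
  have key : Divisor.degree (canonicalDivisorOf hex.choose_spec) = 2 * (g : ℤ) - 2 := by
    rw [hdeg]
    have h2' : (2 : ℚ) * oS = ModularCurve.dedekindPsi N + ModularCurve.nuTwo N := by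
      exact_mod_cast h2
    have h3' : (3 : ℚ) * oST = ModularCurve.dedekindPsi N + 2 * ModularCurve.nuThree N := by
      exact_mod_cast h3
    have : ((ModularCurve.dedekindPsi N : ℤ) - (oST : ℤ) - (oS : ℤ) - (ModularCurve.cuspCount N : ℤ)
        : ℚ) = 2 * (g : ℚ) - 2 := by
      rw [hg, ModularCurve.genusFormula]
      push_cast
      linear_combination (-1 / 2 : ℚ) * h2' - (1 / 3 : ℚ) * h3'
    exact_mod_cast this
  rw [← hg, genus, dif_pos hex, key]
  congr 1
  omega

end FA24
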