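import Fermat.Agent.X0Genus.DefsAlg

open AlgebraicCurve IntermediateField
open scoped LaurentSeries

namespace FA24

/-- An "order function" on a field (junk value at `0`). -/
structure IsOrd {F : Type*} [Field F] (w : F → ℤ) : Prop where
  mul : ∀ f g, f ≠ 0 → g ≠ 0 → w (f * g) = w f + w g
  add : ∀ f g, f ≠ 0 → g ≠ 0 → f + g ≠ 0 → min (w f) (w g) ≤ w (f + g)

namespace IsOrd

variable {F : Type*} [Field F] {w : F → ℤ} (hw : IsOrd w)
include hw

theorem one : w 1 = 0 := by
  have := hw.mul 1 1 one_ne_zero one_ne_zero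
  rw [mul_one] at this
  omega

theorem neg_one : w (-1) = 0 := by
  have := hw.mul (-1) (-1) (neg_ne_zero.mpr one_ne_zero) (neg_ne_zero.mpr one_ne_zero)
  rw [neg_mul_neg, mul_one, hw.one] at this
  omega

theorem neg {f : F} (hf : f ≠ 0) : w (-f) = w f := by
  have := hw.mul (-1) f (neg_ne_zero.mpr one_ne_zero) hf
  rw [neg_one_mul, hw.neg_one, zero_add] at this
  exact this

theorem inv {f : F} (hf : f ≠ 0) : w f⁻¹ = -w f := by
  have := hw.mul f f⁻¹ hf (inv_ne_zero hf)
  rw [mul_inv_cancel₀ hf, hw.one] at this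
  omega

theorem pow {f : F} (hf : f ≠ 0) (n : ℕ) : w (f ^ n) = n * w f := by
  induction n with
  | zero => simp [hw.one]
  | succ n ih =>
    rw [pow_succ, hw.mul _ _ (pow_ne_zero n hf) hf, ih]
    push_cast
    ring

theorem div {f g : F} (hf : f ≠ 0) (hg : g ≠ 0) : w (f / g) = w f - w g := by
  rw [div_eq_mul_inv, hw.mul _ _ hf (inv_ne_zero hg), hw.inv hg]
  ring

theorem add_ne_zero_of_lt {f g : F} (hf : f ≠ 0) (h : w f < w g) : f + g ≠ 0 := by
  intro h0
  have : g = -f := by linear_combination h0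
  rw [this, hw.neg hf] at h
  exact lt_irrefl _ h

theorem add_eq_of_lt {f g : F} (hf : f ≠ 0) (hg : g ≠ 0) (h : w f < w g) : w (f + g) = w f := by
  have hne := hw.add_ne_zero_of_lt hf h
  have h1 := hw.add f g hf hg hne
  have h2 := hw.add (f + g) (-g) hne (neg_ne_zero.mpr hg) (by simpa using hf)
  rw [add_neg_cancel_right, hw.neg hg] at h2
  rw [min_eq_left h.le] at h1
  rcases le_total (w (f + g)) (w g) with h3 | h3
  · rw [min_eq_left h3] at h2
    omega
  · rw [min_eq_right h3] at h2
    omega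

/-- the valuation ring of an order function, as a subring. -/
def subring : Subring F where
  carrier := {f | f = 0 ∨ 0 ≤ w f}
  zero_mem' := Or.inl rfl
  one_mem' := Or.inr hw.one.ge
  neg_mem' := by
    rintro f (rfl | hf)
    · left; simp
    · by_cases h0 : f = 0
      · left; simp [h0]
      · right; rw [hw.neg h0]; exact hf
  add_mem' := by
    intro f g hf hg
    by_cases hf0 : f = 0
    · simpa [hf0] using hg
    by_cases hg0 : g = 0
    · simpa [hg0] using hf
    by_cases hfg : f + g = 0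
    · left; exact hfg
    right
    have hf' := hf.resolve_left hf0
    have hg' := hg.resolve_left hg0
    exact (le_min hf' hg').trans (hw.add f g hf0 hg0 hfg)
  mul_mem' := by
    intro f g hf hg
    by_cases hf0 : f = 0
    · left; simp [hf0]
    by_cases hg0 : g = 0
    · left; simp [hg0]
    right
    rw [hw.mul f g hf0 hg0]
    exact add_nonneg (hf.resolve_left hf0) (hg.resolve_left hg0)

theorem mem_subring {f : F} : f ∈ hw.subring ↔ f = 0 ∨ 0 ≤ w f := Iff.rfl

theorem comp {F' : Type*} [Field F'] (φ : F' →+* F) : IsOrd (fun f => w (φ f)) where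
  mul f g hf hg := by
    simp only [map_mul]
    exact hw.mul _ _ ((map_ne_zero φ).mpr hf) ((map_ne_zero φ).mpr hg)
  add f g hf hg hfg := by
    simp only [map_add]
    exact hw.add _ _ ((map_ne_zero φ).mpr hf) ((map_ne_zero φ).mpr hg)
      (by rw [← map_add]; exact (map_ne_zero φ).mpr hfg)

end IsOrd

theorem isOrd_order : IsOrd (fun x : LaurentSeries ℂ => x.order) where
  mul _ _ hf hg := HahnSeries.order_mul hf hg
  add _ _ _ _ hfg := HahnSeries.min_order_le_order_add hfg

section Place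

variable {K F : Type*} [Field K] [Field F] [Algebra K F] (v : Place K F)

theorem isOrd_place : IsOrd v.ord where
  mul f g hf hg := v.ord_mul hf hg
  add f g hf hg hfg := by
    have h := v.adicValuation.map_add f g
    have hf' := v.adicValuation_ne_zero hf
    have hg' := v.adicValuation_ne_zero hg
    have hfg' := v.adicValuation_ne_zero hfg
    unfold Place.ord
    rcases le_max_iff.mp h with h1 | h1
    · have := (WithZero.log_le_log hfg' hf').mpr h1
      exact (min_le_left _ _).trans (by omega)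
    · have := (WithZero.log_le_log hfg' hg').mpr h1
      exact (min_le_right _ _).trans (by omega)

theorem mem_place_iff {f : F} (hf : f ≠ 0) : f ∈ v.toValuationSubring ↔ 0 ≤ v.ord f := by
  obtain ⟨π, hπ⟩ := IsDiscreteValuationRing.exists_irreducible v.toValuationSubring
  constructor
  · intro hmem
    have h1 := v.adicValuation_coe ⟨f, hmem⟩
    have h2 : v.heightOneSpectrum.intValuation ⟨f, hmem⟩ ≤ 1 :=
      IsDedekindDomain.HeightOneSpectrum.intValuation_le_one _ _
    rw [← h1] at h2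
    have h3 := (WithZero.log_le_log (v.adicValuation_ne_zero hf) one_ne_zero).mpr h2
    rw [WithZero.log_one] at h3
    unfold Place.ord
    simpa using h3
  · intro hord
    obtain ⟨u, hu⟩ := v.exists_unit_mul_zpow hf hπ
    rw [hu]
    obtain ⟨n, hn⟩ := Int.eq_ofNat_of_zero_le hord
    rw [hn, zpow_natCast]
    exact v.toValuationSubring.mul_mem _ _ (u : v.toValuationSubring).2
      (v.toValuationSubring.pow_mem π.2 n)

theorem ord_algebraMap {a : K} (ha : a ≠ 0) : v.ord (algebraMap K F a) = 0 := by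
  have hu : IsUnit (algebraMap K v.toValuationSubring a) := (Ne.isUnit ha).map _
  have := v.ord_coe_unit hu.unit
  simpa using this

end Place


section MkPlace

variable {K F : Type*} [Field K] [Field F] [Algebra K F]

/-- the valuation subring of an order function. -/
def IsOrd.valuationSubring {w : F → ℤ} (hw : IsOrd w) : ValuationSubring F :=
  { hw.subring with
    mem_or_inv_mem' := by
      intro f
      by_cases hf : f = 0
      · left; left; exact hf
      rcases le_total 0 (w f) with h | h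
      · left; right; exact h
      · right; right; rw [hw.inv hf]; omega }

theorem IsOrd.mem_valuationSubring {w : F → ℤ} (hw : IsOrd w) {f : F} :
    f ∈ hw.valuationSubring ↔ f = 0 ∨ 0 ≤ w f := Iff.rfl

theorem IsOrd.isPrincipalIdealRing {w : F → ℤ} (hw : IsOrd w) :
    IsPrincipalIdealRing hw.valuationSubring := by
  refine ⟨fun I => ?_⟩
  by_cases hI : I = ⊥
  · rw [hI]; exact bot_isPrincipal
  obtain ⟨a₀, ha₀I, ha₀⟩ := Submodule.exists_mem_ne_zero_of_ne_bot hI
  classical
  -- minimal value of `w` on `I`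
  have hex : ∃ n : ℕ, ∃ a ∈ I, a ≠ 0 ∧ w (a : F) = n := by
    have h0 : (a₀ : F) ≠ 0 := fun h => ha₀ (Subtype.ext h)
    have := (hw.mem_valuationSubring.mp a₀.2).resolve_left h0
    obtain ⟨n, hn⟩ := Int.eq_ofNat_of_zero_le this
    exact ⟨n, a₀, ha₀I, ha₀, hn⟩
  obtain ⟨a, haI, ha0, han⟩ := Nat.find_spec hex
  have haF : (a : F) ≠ 0 := fun h => ha0 (Subtype.ext h)
  refine ⟨a, le_antisymm ?_ ?_⟩
  · intro b hb
    by_cases hb0 : b = 0
    · rw [hb0]; exact Submodule.zero_mem _
    have hbF : (b : F) ≠ 0 := fun h => hb0 (Subtype.ext h)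
    have hbw := (hw.mem_valuationSubring.mp b.2).resolve_left hbF
    obtain ⟨m, hm⟩ := Int.eq_ofNat_of_zero_le hbw
    have hle : Nat.find hex ≤ m := Nat.find_min' hex ⟨b, hb, hb0, hm⟩
    have hq : (b : F) / a ∈ hw.valuationSubring := by
      right
      rw [hw.div hbF haF, hm, han]
      have : (Nat.find hex : ℤ) ≤ m := by exact_mod_cast hle
      omega
    rw [Ideal.submodule_span_eq, Ideal.mem_span_singleton]
    refine ⟨⟨_, hq⟩, Subtype.ext ?_⟩
    simp only [MulMemClass.coe_mul]
    field_simp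
  · rw [Ideal.submodule_span_eq, Ideal.span_singleton_le_iff_mem]
    exact haI

/-- An order function which is trivial on `K` and nontrivial comes from a place. -/
theorem exists_place_of_isOrd {w : F → ℤ} (hw : IsOrd w)
    (hK : ∀ a : K, a ≠ 0 → w (algebraMap K F a) = 0) (hnt : ∃ f, f ≠ 0 ∧ w f ≠ 0) :
    ∃ (v : Place K F) (c : ℤ), 0 < c ∧ ∀ f, f ≠ 0 → w f = c * v.ord f := by
  obtain ⟨v, hvdef⟩ : ∃ v : Place K F, v.toValuationSubring = hw.valuationSubring := ⟨
    { toValuationSubring := hw.valuationSubring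
      algebraMap_mem' := by
        intro a
        by_cases ha : a = 0
        · left; simp [ha]
        · right; rw [hK a ha]
      ne_top' := by
        intro htop
        obtain ⟨f, hf, hwf⟩ := hnt
        have h1 : f ∈ hw.valuationSubring := htop ▸ ValuationSubring.mem_top f
        have h2 : f⁻¹ ∈ hw.valuationSubring := htop ▸ ValuationSubring.mem_top f⁻¹
        have h1' := (hw.mem_valuationSubring.mp h1).resolve_left hf
        have h2' := (hw.mem_valuationSubring.mp h2).resolve_left (inv_ne_zero hf)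
        rw [hw.inv hf] at h2'
        omega
      isPrincipalIdealRing' := hw.isPrincipalIdealRing }, rfl⟩
  have hmem : ∀ {f : F}, f ∈ v.toValuationSubring → f = 0 ∨ 0 ≤ w f := by
    intro f hf
    rw [hvdef] at hf
    exact hf
  obtain ⟨π, hπ⟩ := IsDiscreteValuationRing.exists_irreducible v.toValuationSubring
  have hπF : (π : F) ≠ 0 := fun h => hπ.ne_zero (Subtype.ext h)
  have hunit : ∀ u : v.toValuationSubringˣ, w ((u : v.toValuationSubring) : F) = 0 := by
    intro u
    have hu0 : ((u : v.toValuationSubring) : F) ≠ 0 := fun h => u.ne_zero (Subtype.ext h)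
    have h1 := (hmem (u : v.toValuationSubring).2).resolve_left hu0
    have hinv : (((u⁻¹ : v.toValuationSubringˣ) : v.toValuationSubring) : F) =
        ((u : v.toValuationSubring) : F)⁻¹ := by
      have : ((u : v.toValuationSubring) : F) *
          (((u⁻¹ : v.toValuationSubringˣ) : v.toValuationSubring) : F) = 1 := by
        have h := congrArg (Subtype.val : v.toValuationSubring → F) u.mul_inv
        exact h
      exact eq_inv_of_mul_eq_one_right this
    have h2 := (hmem
      ((u⁻¹ : v.toValuationSubringˣ) : v.toValuationSubring).2)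
    rw [hinv] at h2
    have h2' := h2.resolve_left (inv_ne_zero hu0)
    rw [hw.inv hu0] at h2'
    omega
  have hzpow : ∀ n : ℤ, w ((π : F) ^ n) = n * w (π : F) := by
    intro n
    obtain ⟨m, rfl | rfl⟩ := n.eq_nat_or_neg
    · rw [zpow_natCast, hw.pow hπF]
    · rw [zpow_neg, zpow_natCast, hw.inv (pow_ne_zero m hπF), hw.pow hπF]
      ring
  have hform : ∀ f, f ≠ 0 → w f = w (π : F) * v.ord f := by
    intro f hf
    obtain ⟨u, hu⟩ := v.exists_unit_mul_zpow hf hπ
    have hu0 : ((u : v.toValuationSubring) : F) ≠ 0 := fun h => u.ne_zero (Subtype.ext h)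
    conv_lhs => rw [hu, hw.mul _ _ hu0 (zpow_ne_zero _ hπF), hunit u, zero_add, hzpow]
    ring
  refine ⟨v, w (π : F), ?_, hform⟩
  have h1 := (hmem π.2).resolve_left hπF
  rcases h1.lt_or_eq with h | h
  · exact h
  · exfalso
    obtain ⟨f, hf, hwf⟩ := hnt
    rw [hform f hf, ← h, zero_mul] at hwf
    exact hwf rfl

end MkPlace

section Incomparable

variable {K F : Type*} [Field K] [Field F] [Algebra K F]

theorem not_le_of_ne {v v' : Place K F} (h : v ≠ v') :
    ¬ v.toValuationSubring ≤ v'.toValuationSubring := by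
  intro hle
  have hex : ∃ x, x ∈ v'.toValuationSubring ∧ x ∉ v.toValuationSubring := by
    by_contra hcon
    push Not at hcon
    exact h (Place.ext (le_antisymm hle hcon))
  obtain ⟨x, hx', hx⟩ := hex
  have hx0 : x ≠ 0 := fun h0 => hx (h0 ▸ v.toValuationSubring.zero_mem)
  have hxord : v.ord x < 0 := by
    by_contra hcon
    exact hx ((mem_place_iff v hx0).mpr (not_lt.mp hcon))
  apply v'.ne_top'
  refine SetLike.ext fun g => ⟨fun _ => ValuationSubring.mem_top g, fun _ => ?_⟩
  by_cases hg : g = 0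
  · rw [hg]; exact v'.toValuationSubring.zero_mem
  -- `g = (g * x⁻¹ ^ N) * x ^ N`
  set N : ℕ := (v.ord g).natAbs with hN
  have hw := isOrd_place v
  have h1 : g * (x⁻¹) ^ N ∈ v.toValuationSubring := by
    rw [mem_place_iff v (mul_ne_zero hg (pow_ne_zero N (inv_ne_zero hx0))),
      hw.mul _ _ hg (pow_ne_zero N (inv_ne_zero hx0)), hw.pow (inv_ne_zero hx0), hw.inv hx0]
    have h2 : (N : ℤ) = |v.ord g| := by rw [hN]; exact Int.natCast_natAbs _
    have h3 : -|v.ord g| ≤ v.ord g := neg_abs_le _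
    have h4 : (N : ℤ) ≤ N * -v.ord x := by nlinarith [abs_nonneg (v.ord g)]
    omega
  have h2 : g = (g * (x⁻¹) ^ N) * x ^ N := by
    rw [mul_assoc, ← mul_pow, inv_mul_cancel₀ hx0, one_pow, mul_one]
  rw [h2]
  exact v'.toValuationSubring.mul_mem _ _ (hle h1) (v'.toValuationSubring.pow_mem hx' N)

theorem exists_pos_neg_of_ne {v v' : Place K F} (h : v ≠ v') :
    ∃ z : F, z ≠ 0 ∧ 0 < v.ord z ∧ v'.ord z < 0 := by
  have h1 := not_le_of_ne h
  have h2 := not_le_of_ne h.symm
  rw [SetLike.not_le_iff_exists] at h1 h2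
  obtain ⟨a, ha, ha'⟩ := h1
  obtain ⟨b, hb', hb⟩ := h2
  have ha0 : a ≠ 0 := fun h0 => ha' (h0 ▸ v'.toValuationSubring.zero_mem)
  have hb0 : b ≠ 0 := fun h0 => hb (h0 ▸ v.toValuationSubring.zero_mem)
  rw [mem_place_iff v ha0] at ha
  rw [mem_place_iff v' ha0] at ha'
  rw [mem_place_iff v' hb0] at hb'
  rw [mem_place_iff v hb0] at hb
  refine ⟨a / b, div_ne_zero ha0 hb0, ?_, ?_⟩
  · rw [(isOrd_place v).div ha0 hb0]; omega
  · rw [(isOrd_place v').div ha0 hb0]; omega

end Incomparable

section Approx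

variable {F : Type*} [Field F]

/-- weak approximation (Stichtenoth 1.3.1, step 1). -/
theorem exists_pos_forall_neg {ι : Type*} (s : Finset ι) {v : F → ℤ} (hv : IsOrd v)
    (w : ι → F → ℤ) (hw : ∀ i, IsOrd (w i)) (h0 : ∃ u, u ≠ 0 ∧ 0 < v u)
    (h : ∀ i ∈ s, ∃ z, z ≠ 0 ∧ 0 < v z ∧ w i z < 0) :
    ∃ u, u ≠ 0 ∧ 0 < v u ∧ ∀ i ∈ s, w i u < 0 := by
  classical
  induction s using Finset.induction_on with
  | empty =>
    obtain ⟨u, hu, hvu⟩ := h0
    exact ⟨u, hu, hvu, by simp⟩
  | insert m s hm ih =>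
    obtain ⟨u, hu, hvu, hwu⟩ := ih (fun i hi => h i (Finset.mem_insert_of_mem hi))
    by_cases hmu : w m u < 0
    · refine ⟨u, hu, hvu, fun i hi => ?_⟩
      rcases Finset.mem_insert.mp hi with rfl | hi
      · exact hmu
      · exact hwu i hi
    obtain ⟨z, hz, hvz, hwz⟩ := h m (Finset.mem_insert_self m s)
    -- choose `r` large
    set r : ℕ := 1 + ∑ i ∈ s, (w i u).natAbs with hr
    have hr1 : 1 ≤ r := by omega
    have hri : ∀ i ∈ s, (w i u).natAbs < r := by
      intro i hi
      have := Finset.single_le_sum (f := fun i => (w i u).natAbs) (fun _ _ => Nat.zero_le _) hi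
      omega
    have hzr : z ^ r ≠ 0 := pow_ne_zero r hz
    have hmz : w m (z ^ r) < w m u := by
      rw [(hw m).pow hz]
      have : (1 : ℤ) ≤ r := by exact_mod_cast hr1
      nlinarith
    have hne : u + z ^ r ≠ 0 := by
      rw [add_comm]
      exact (hw m).add_ne_zero_of_lt hzr hmz
    refine ⟨u + z ^ r, hne, ?_, fun i hi => ?_⟩
    · have h1 := hv.add u (z ^ r) hu hzr hne
      have h2 : 0 < v (z ^ r) := by
        rw [hv.pow hz]
        have : (1 : ℤ) ≤ r := by exact_mod_cast hr1
        nlinarith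
      exact lt_of_lt_of_le (lt_min hvu h2) h1
    · rcases Finset.mem_insert.mp hi with rfl | hi
      · rw [add_comm, (hw i).add_eq_of_lt hzr hu hmz, (hw i).pow hz]
        have : (1 : ℤ) ≤ r := by exact_mod_cast hr1
        nlinarith
      · have hneg := hwu i hi
        have hlt := hri i hi
        rcases le_or_gt 0 (w i z) with hpos | hnegz
        · have h3 : w i u < w i (z ^ r) := by
            rw [(hw i).pow hz]
            have : (0 : ℤ) ≤ r * w i z := by positivity
            omega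
          rw [(hw i).add_eq_of_lt hu hzr h3]
          exact hneg
        · have h3 : w i (z ^ r) < w i u := by
            rw [(hw i).pow hz]
            have h4 : ((w i u).natAbs : ℤ) < r := by exact_mod_cast hlt
            have h5 : ((w i u).natAbs : ℤ) = -w i u := by omega
            nlinarith
          rw [add_comm, (hw i).add_eq_of_lt hzr hu h3]
          omega

end Approx


section RatFun

variable {K F : Type*} [Field K] [Field F] [Algebra K F]

theorem IsOrd.aeval_mem {w : F → ℤ} (hw : IsOrd w)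
    (hK : ∀ a : K, a ≠ 0 → w (algebraMap K F a) = 0) {y : F} (hy : 0 < w y)
    (q : Polynomial K) : Polynomial.aeval y q ∈ hw.subring := by
  rw [Polynomial.aeval_eq_sum_range]
  refine Subring.sum_mem _ fun i _ => ?_
  rw [Algebra.smul_def]
  refine Subring.mul_mem _ ?_ (Subring.pow_mem _ (Or.inr hy.le) i)
  by_cases ha : q.coeff i = 0
  · left; simp [ha]
  · right; rw [hK _ ha]

theorem IsOrd.aeval_of_coeff_zero_ne {w : F → ℤ} (hw : IsOrd w)
    (hK : ∀ a : K, a ≠ 0 → w (algebraMap K F a) = 0) {y : F} (hy0 : y ≠ 0) (hy : 0 < w y)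
    (p : Polynomial K) (hp : p.coeff 0 ≠ 0) :
    Polynomial.aeval y p ≠ 0 ∧ w (Polynomial.aeval y p) = 0 := by
  have h1 : Polynomial.aeval y p =
      algebraMap K F (p.coeff 0) + Polynomial.aeval y p.divX * y := by
    conv_lhs => rw [← Polynomial.divX_mul_X_add p]
    simp [add_comm]
  have hc0 : algebraMap K F (p.coeff 0) ≠ 0 := by
    simpa using hp
  by_cases hg : Polynomial.aeval y p.divX = 0
  · rw [h1, hg, zero_mul, add_zero]
    exact ⟨hc0, hK _ hp⟩
  · have h2 := (hw.aeval_mem hK hy p.divX).resolve_left hg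
    have h3 : w (algebraMap K F (p.coeff 0)) < w (Polynomial.aeval y p.divX * y) := by
      rw [hK _ hp, hw.mul _ _ hg hy0]
      omega
    rw [h1]
    exact ⟨hw.add_ne_zero_of_lt hc0 h3, by
      rw [hw.add_eq_of_lt hc0 (mul_ne_zero hg hy0) h3, hK _ hp]⟩

theorem IsOrd.aeval_eq {w : F → ℤ} (hw : IsOrd w)
    (hK : ∀ a : K, a ≠ 0 → w (algebraMap K F a) = 0) {y : F} (hy0 : y ≠ 0) (hy : 0 < w y)
    (p : Polynomial K) (hp : p ≠ 0) :
    Polynomial.aeval y p ≠ 0 ∧ w (Polynomial.aeval y p) = (p.rootMultiplicity 0 : ℤ) * w y := by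
  obtain ⟨q, hq, hdvd⟩ := Polynomial.exists_eq_pow_rootMultiplicity_mul_and_not_dvd p hp 0
  rw [Polynomial.C_0, sub_zero] at hq hdvd
  rw [Polynomial.X_dvd_iff] at hdvd
  obtain ⟨h1, h2⟩ := hw.aeval_of_coeff_zero_ne hK hy0 hy q hdvd
  have h3 : Polynomial.aeval y p = y ^ (p.rootMultiplicity 0) * Polynomial.aeval y q := by
    conv_lhs => rw [hq]
    simp
  rw [h3]
  refine ⟨mul_ne_zero (pow_ne_zero _ hy0) h1, ?_⟩
  rw [hw.mul _ _ (pow_ne_zero _ hy0) h1, hw.pow hy0, h2, add_zero]

/-- two order functions, trivial on `K` and positive at `y`, have the same sign on `K(y)`. -/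
theorem IsOrd.nonneg_of_nonneg {w w' : F → ℤ} (hw : IsOrd w) (hw' : IsOrd w')
    (hK : ∀ a : K, a ≠ 0 → w (algebraMap K F a) = 0)
    (hK' : ∀ a : K, a ≠ 0 → w' (algebraMap K F a) = 0)
    {y : F} (hy0 : y ≠ 0) (hy : 0 < w y) (hy' : 0 < w' y) {a : F} (ha : a ∈ K⟮y⟯) (ha0 : a ≠ 0)
    (h : 0 ≤ w a) : 0 ≤ w' a := by
  obtain ⟨r, s, rfl⟩ := (IntermediateField.mem_adjoin_simple_iff K a).mp ha
  have hr : r ≠ 0 := by
    rintro rfl
    simp at ha0
  have hs : s ≠ 0 := by
    rintro rfl
    simp at ha0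
  obtain ⟨r1, r2⟩ := hw.aeval_eq hK hy0 hy r hr
  obtain ⟨s1, s2⟩ := hw.aeval_eq hK hy0 hy s hs
  obtain ⟨-, r2'⟩ := hw'.aeval_eq hK' hy0 hy' r hr
  obtain ⟨-, s2'⟩ := hw'.aeval_eq hK' hy0 hy' s hs
  rw [hw.div r1 s1, r2, s2] at h
  rw [hw'.div r1 s1, r2', s2']
  have h1 : (0 : ℤ) ≤ (r.rootMultiplicity 0 : ℤ) - s.rootMultiplicity 0 := by
    by_contra hcon
    push Not at hcon
    nlinarith
  nlinarith

end RatFun

end FA24
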