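import Fermat.Agent.X0Genus.Theta

/-! S24 bridge, part 4: the ring of functions of level `N`, expansions, and branches. -/

open UpperHalfPlane ModularForm EisensteinSeries Function CongruenceSubgroup FA_IS
open scoped Manifold MatrixGroups Real

namespace FA24

variable (N : ℕ) [NeZero N]

/-- holomorphic functions all of whose `SL₂(ℤ)`-translates are `N`-periodic and meromorphic
at `i∞`. -/
def MN : Subring (ℍ → ℂ) where
  carrier := {g | ∀ γ : SL(2, ℤ), MeroInf N (fun τ => g (γ • τ))}
  mul_mem' := fun {_ _} hf hg γ => (hf γ).mul (hg γ)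
  one_mem' := fun _ => MeroInf.const N 1
  add_mem' := fun {_ _} hf hg γ => (hf γ).add (hg γ)
  zero_mem' := fun _ => MeroInf.const N 0
  neg_mem' := fun {_} hf γ => (hf γ).neg

variable {N}

lemma MN.mero {g : ℍ → ℂ} (hg : g ∈ MN N) : MeroInf N g := by
  simpa using hg 1

lemma MN.mdiff {g : ℍ → ℂ} (hg : g ∈ MN N) : MDiff g := (MN.mero hg).hol

instance : IsDomain (MN N) := by
  have : NoZeroDivisors (MN N) := ⟨by
    rintro ⟨f, hf⟩ ⟨g, hg⟩ h
    have h' : f * g = 0 := congrArg Subtype.val h
    rcases (UpperHalfPlane.mul_eq_zero_iff (MN.mdiff hf) (MN.mdiff hg)).mp h' with h0 | h0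
    · exact Or.inl (Subtype.ext h0)
    · exact Or.inr (Subtype.ext h0)⟩
  have : Nontrivial (MN N) := ⟨⟨0, 1, fun h => by
    have := congrFun (congrArg Subtype.val h) UpperHalfPlane.I
    simp at this⟩⟩
  exact NoZeroDivisors.to_isDomain _

/-- the action of `SL₂(ℤ)`. -/
noncomputable def sig (s : SL(2, ℤ)) : MN N →+* MN N where
  toFun g := ⟨fun τ => g.1 (s⁻¹ • τ), fun γ => by
    have := g.2 (s⁻¹ * γ)
    simpa only [mul_smul] using this⟩
  map_one' := rfl
  map_mul' _ _ := rfl
  map_zero' := rfl
  map_add' _ _ := rfl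

lemma sig_apply (s : SL(2, ℤ)) (g : MN N) (τ : ℍ) : (sig s g).1 τ = g.1 (s⁻¹ • τ) := rfl

/-- the translates of a modular function. -/
noncomputable def trnM (k : XN N) : RN N →+* MN N where
  toFun g := ⟨trn g.1 k, fun γ => by
    have := g.2.2 ((rep k)⁻¹ * γ)
    simpa only [mul_smul, trn] using this⟩
  map_one' := rfl
  map_mul' _ _ := rfl
  map_zero' := rfl
  map_add' _ _ := rfl

lemma trnM_val (k : XN N) (g : RN N) : (trnM k g).1 = trn g.1 k := rfl

lemma sig_trnM (s : SL(2, ℤ)) (k : XN N) (g : RN N) : sig s (trnM k g) = trnM (s • k) g := by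
  apply Subtype.ext
  rw [trnM_val, trn_smul g.2]
  rfl

lemma trnM_injective (k : XN N) : Function.Injective (trnM k) := by
  rw [injective_iff_map_eq_zero]
  intro g hg
  exact Subtype.ext (trn_eq_zero (congrArg Subtype.val hg))

/-- the inclusion -/
def inclM : RN N →+* MN N where
  toFun g := ⟨g.1, g.2.2⟩
  map_one' := rfl
  map_mul' _ _ := rfl
  map_zero' := rfl
  map_add' _ _ := rfl

lemma trnM_one (g : RN N) : trnM ((1 : SL(2, ℤ)) : XN N) g = inclM g := by
  apply Subtype.ext
  rw [trnM_val, trn_eq_of_mk g.2]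
  funext τ
  simp [inclM]

/-- constants -/
def cstM (c : ℂ) : MN N := ⟨fun _ => c, fun _ => MeroInf.const N c⟩

lemma trnM_cst (k : XN N) (c : ℂ) : trnM k (cst c) = cstM c := rfl

/-- `j` -/
noncomputable def jM : MN N := inclM jR

lemma trnM_jR (k : XN N) : trnM k jR = jM := by
  apply Subtype.ext
  funext τ
  exact jf_smul _ _

/-- An expansion: an embedding of `MN N` into Laurent series. -/
structure Expn (N : ℕ) [NeZero N] where
  /-- the underlying ring homomorphism -/
  ε : MN N →+* LaurentSeries ℂ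
  inj : Function.Injective ε
  const : ∀ c, ε (cstM c) = HahnSeries.C c

/-- the expansion at `i∞` -/
noncomputable def expInf : Expn N where
  ε :=
    { toFun := fun g => lau N g.1
      map_one' := by
        show lau N (fun _ => 1 : ℍ → ℂ) = 1
        rw [lau_const]
        simp
      map_mul' := fun f g => lau_mul (MN.mero f.2) (MN.mero g.2)
      map_zero' := by
        show lau N (fun _ => 0 : ℍ → ℂ) = 0
        rw [lau_const]
        simp
      map_add' := fun f g => lau_add (MN.mero f.2) (MN.mero g.2) }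
  inj := by
    rw [injective_iff_map_eq_zero]
    intro g hg
    exact Subtype.ext ((lau_eq_zero_iff (MN.mero g.2)).mp hg)
  const := fun c => lau_const N c

lemma expInf_apply (g : MN N) : expInf.ε g = lau N g.1 := rfl

/-- the Taylor expansion at `τ₀` -/
noncomputable def expTay (τ₀ : ℍ) : Expn N where
  ε :=
    { toFun := fun g => HahnSeries.ofPowerSeries ℤ ℂ (tay τ₀ g.1)
      map_one' := by
        show HahnSeries.ofPowerSeries ℤ ℂ (tay τ₀ (fun _ => 1 : ℍ → ℂ)) = 1
        rw [tay_const]
        simp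
      map_mul' := fun f g => by
        show HahnSeries.ofPowerSeries ℤ ℂ (tay τ₀ (f.1 * g.1)) = _
        rw [tay_mul τ₀ (MN.mdiff f.2) (MN.mdiff g.2), map_mul]
      map_zero' := by
        show HahnSeries.ofPowerSeries ℤ ℂ (tay τ₀ (fun _ => 0 : ℍ → ℂ)) = 0
        rw [tay_const]
        simp
      map_add' := fun f g => by
        show HahnSeries.ofPowerSeries ℤ ℂ (tay τ₀ (f.1 + g.1)) = _
        rw [tay_add τ₀ (MN.mdiff f.2) (MN.mdiff g.2), map_add] }
  inj := by
    rw [injective_iff_map_eq_zero]
    intro g hg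
    have h1 : tay τ₀ g.1 = 0 := by
      apply HahnSeries.ofPowerSeries_injective (Γ := ℤ) (R := ℂ)
      rw [map_zero]
      exact hg
    exact Subtype.ext ((tay_eq_zero_iff τ₀ (MN.mdiff g.2)).mp h1)
  const := fun c => by
    show HahnSeries.ofPowerSeries ℤ ℂ (tay τ₀ (fun _ => c : ℍ → ℂ)) = _
    rw [tay_const, HahnSeries.ofPowerSeries_C]

lemma expTay_apply (τ₀ : ℍ) (g : MN N) :
    (expTay τ₀).ε g = HahnSeries.ofPowerSeries ℤ ℂ (tay τ₀ g.1) := rfl

/-- the branch on modular functions -/
noncomputable def brR (e : Expn N) (k : XN N) : RN N →+* LaurentSeries ℂ := e.ε.comp (trnM k)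

lemma brR_apply (e : Expn N) (k : XN N) (g : RN N) : brR e k g = e.ε (trnM k g) := rfl

lemma brR_injective (e : Expn N) (k : XN N) : Function.Injective (brR e k) :=
  e.inj.comp (trnM_injective k)

/-- the branch on the function field -/
noncomputable def br (e : Expn N) (k : XN N) : FN N →+* LaurentSeries ℂ :=
  (IsFractionRing.lift (brR_injective e k)).comp Theta

lemma br_of_Theta (e : Expn N) (k : XN N) {f : FN N} {g : RN N}
    (h : Theta f = algebraMap (RN N) (FR N) g) : br e k f = brR e k g := by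
  rw [br, RingHom.comp_apply, h, IsFractionRing.lift_algebraMap]

lemma br_mul_eq (e : Expn N) (k : XN N) {f : FN N} {g h : RN N}
    (hr : Theta f * algebraMap (RN N) (FR N) h = algebraMap (RN N) (FR N) g) :
    br e k f * brR e k h = brR e k g := by
  have := congrArg (IsFractionRing.lift (brR_injective e k)) hr
  rwa [map_mul, IsFractionRing.lift_algebraMap, IsFractionRing.lift_algebraMap] at this

lemma br_algebraMap (e : Expn N) (k : XN N) (a : Kb) :
    br e k (algebraMap Kb (FN N) a) = HahnSeries.C (iota a) := by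
  rw [br_of_Theta e k (Theta_algebraMap a), brR_apply, trnM_cst, e.const]

lemma br_xN (e : Expn N) (k : XN N) : br e k (xN N) = e.ε jM := by
  rw [br_of_Theta e k Theta_xN, brR_apply, trnM_jR]

lemma br_Jd (e : Expn N) (k : XN N) {d : ℕ} [NeZero d] (hd : d ∣ N) :
    br e k (Jd N hd) = e.ε (trnM k (jdR hd)) := by
  rw [br_of_Theta e k (Theta_Jd hd), brR_apply]

lemma br_injective (e : Expn N) : Function.Injective (br e) := by
  intro k k' h
  have h1 := congrArg (fun φ : FN N →+* LaurentSeries ℂ => φ (Jd N dvd_rfl)) h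
  simp only [br_Jd] at h1
  have h2 := congrArg Subtype.val (e.inj h1)
  simp only [trnM_val] at h2
  have h3 : (rep k)⁻¹ * rep k' ∈ Gamma0 N := by
    apply mem_Gamma0_of_jf_level_invariant
    intro τ
    have := congrFun h2 (rep k' • τ)
    simp only [trn, inv_smul_smul] at this
    rw [mul_smul]
    exact this
  rw [← mk_rep k, ← mk_rep k']
  exact QuotientGroup.eq.mpr h3

end FA24
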