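import Fermat.Agent.X0Genus.Laurent

open UpperHalfPlane ModularForm EisensteinSeries Function CongruenceSubgroup FA_IS
open scoped Manifold MatrixGroups Real

namespace FA24

/-! ### AN5 : `EtaProd.lean` (uses AN4) -/

theorem qExpansion_E₄ : qExpansion 1 E₄ =
    PowerSeries.map (Int.castRingHom ℂ) ModularCurve.eisenstein4 := by
  ext n
  rw [E_qExpansion_coeff _ ⟨2, rfl⟩, PowerSeries.coeff_map, ModularCurve.eisenstein4,
    PowerSeries.coeff_mk]
  split_ifs with h
  · simp
  · rw [show bernoulli 4 = -1 / 30 by decide +kernel, ArithmeticFunction.sigma_apply]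
    simp only [eq_intCast]
    push_cast
    ring

/-- Taylor series at `0`. -/
noncomputable def tay0 (F : ℂ → ℂ) : PowerSeries ℂ :=
  PowerSeries.mk fun n => ((n.factorial : ℂ))⁻¹ * iteratedDeriv n F 0

lemma coeff_tay0 (F : ℂ → ℂ) (n : ℕ) :
    PowerSeries.coeff n (tay0 F) = ((n.factorial : ℂ))⁻¹ * iteratedDeriv n F 0 := by
  simp [tay0]

lemma tay0_mul {F G : ℂ → ℂ} (hF : AnalyticAt ℂ F 0) (hG : AnalyticAt ℂ G 0) :
    tay0 (F * G) = tay0 F * tay0 G := by
  ext
  simp only [coeff_tay0,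
    iteratedDeriv_mul hF.contDiffAt hG.contDiffAt, Finset.mul_sum, PowerSeries.coeff_mul,
    Finset.Nat.sum_antidiagonal_eq_sum_range_succ_mk, Nat.succ_eq_add_one]
  refine Finset.sum_congr rfl fun i hi ↦ ?_
  rw [Nat.cast_choose _ (by grind)]
  field_simp [Nat.factorial_ne_zero]

lemma tay0_sub {F G : ℂ → ℂ} (hF : AnalyticAt ℂ F 0) (hG : AnalyticAt ℂ G 0) :
    tay0 (F - G) = tay0 F - tay0 G := by
  ext m
  simp [coeff_tay0, iteratedDeriv_sub hF.contDiffAt hG.contDiffAt, mul_sub]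

lemma tay0_const (c : ℂ) : tay0 (fun _ => c) = PowerSeries.C c := by
  ext n
  rw [coeff_tay0, iteratedDeriv_const, PowerSeries.coeff_C]
  split_ifs with h
  · simp [h]
  · simp

lemma tay0_id : tay0 (fun q => q) = PowerSeries.X := by
  ext n
  rw [coeff_tay0, PowerSeries.coeff_X]
  rcases n with _ | n
  · simp
  · rw [iteratedDeriv_succ']
    have : deriv (fun q : ℂ => q) = fun _ => 1 := by
      ext q; simp
    rw [this, iteratedDeriv_const]
    rcases n with _ | n
    · simp
    · simp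

lemma tay0_pow {F : ℂ → ℂ} (hF : AnalyticAt ℂ F 0) (k : ℕ) : tay0 (F ^ k) = tay0 F ^ k := by
  induction k with
  | zero =>
    rw [pow_zero, pow_zero]
    exact (tay0_const 1).trans (map_one _)
  | succ k ih => rw [pow_succ, tay0_mul (hF.pow k) hF, ih, pow_succ]

lemma tay0_congr {F G : ℂ → ℂ} (h : F =ᶠ[nhds 0] G) : tay0 F = tay0 G := by
  ext n
  rw [coeff_tay0, coeff_tay0, h.iteratedDeriv_eq]

lemma tay0_factor (i : ℕ) : tay0 (fun q => 1 - q ^ (i + 1)) = 1 - PowerSeries.X ^ (i + 1) := by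
  have h1 : AnalyticAt ℂ (fun q : ℂ => q) 0 := analyticAt_id
  have h2 := tay0_sub (F := fun _ => 1) (G := (fun q : ℂ => q) ^ (i + 1)) analyticAt_const
    (h1.pow _)
  rw [tay0_pow h1, tay0_id, tay0_const, map_one] at h2
  exact h2

lemma analyticAt_factor (i : ℕ) : AnalyticAt ℂ (fun q : ℂ => 1 - q ^ (i + 1)) 0 := by
  fun_prop

lemma tay0_finprod (s : Finset ℕ) : tay0 (fun q => ∏ i ∈ s, (1 - q ^ (i + 1))) =
    ∏ i ∈ s, (1 - PowerSeries.X ^ (i + 1)) := by
  classical
  induction s using Finset.induction_on with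
  | empty => simpa using tay0_const 1
  | insert i t hi IH =>
    simp only [Finset.prod_insert hi]
    rw [← IH, ← tay0_factor]
    apply tay0_mul (analyticAt_factor i)
    have : (fun q : ℂ => ∏ i ∈ t, (1 - q ^ (i + 1))) = ∏ i ∈ t, (fun q : ℂ => 1 - q ^ (i + 1)) := by
      ext q; simp
    rw [this]
    exact Finset.analyticAt_prod _ fun i _ => analyticAt_factor i

lemma tendsto_iteratedDeriv {ι : Type*} {φ : Filter ι} {F : ι → ℂ → ℂ} {G : ℂ → ℂ} {U : Set ℂ}
    (hU : IsOpen U) (h : TendstoLocallyUniformlyOn F G φ U)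
    (hF : ∀ i, DifferentiableOn ℂ (F i) U) (n : ℕ) :
    TendstoLocallyUniformlyOn (fun i => iteratedDeriv n (F i)) (iteratedDeriv n G) φ U ∧
      ∀ i, DifferentiableOn ℂ (iteratedDeriv n (F i)) U := by
  induction n with
  | zero => simpa using ⟨h, hF⟩
  | succ n ih =>
    simp only [iteratedDeriv_succ]
    exact ⟨ih.1.deriv (.of_forall ih.2) hU, fun i => (ih.2 i).deriv hU⟩

open scoped PowerSeries.WithPiTopology in
lemma tay0_tprod : tay0 (fun q => ∏' n : ℕ, (1 - q ^ (n + 1))) =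
    PowerSeries.map (Int.castRingHom ℂ) ModularCurve.etaProd := by
  ext n
  have h1 := multipliableLocallyUniformlyOn_one_sub_pow.hasProdLocallyUniformlyOn
  rw [hasProdLocallyUniformlyOn_iff_tendstoLocallyUniformlyOn] at h1
  have h2 := (tendsto_iteratedDeriv Metric.isOpen_ball h1 (fun s => by fun_prop) n).1.tendsto_at
    (Metric.mem_ball_self one_pos)
  have h3 := h2.const_mul ((n.factorial : ℂ))⁻¹
  have h4 : ∀ s : Finset ℕ, ((n.factorial : ℂ))⁻¹ *
      iteratedDeriv n (fun q : ℂ => ∏ i ∈ s, (1 - q ^ (i + 1))) 0 =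
      ((PowerSeries.coeff n (∏ i ∈ s, (1 - PowerSeries.X ^ (i + 1)) : PowerSeries ℤ) : ℤ) : ℂ) := by
    intro s
    rw [← coeff_tay0, tay0_finprod, ← eq_intCast (Int.castRingHom ℂ), ← PowerSeries.coeff_map,
      map_prod (PowerSeries.map (Int.castRingHom ℂ))]
    simp
  simp only [h4] at h3
  have h5 := (PowerSeries.WithPiTopology.multipliable_one_sub_X_pow ℤ).hasProd
  have h6 := ((continuous_of_discreteTopology (f := (Int.cast : ℤ → ℂ))).comp
    (PowerSeries.WithPiTopology.continuous_coeff ℤ n)).tendsto _ |>.comp h5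
  rw [coeff_tay0, PowerSeries.coeff_map, eq_intCast]
  exact tendsto_nhds_unique h3 h6

lemma analyticAt_tprod : AnalyticAt ℂ (fun q : ℂ => ∏' n : ℕ, (1 - q ^ (n + 1))) 0 :=
  differentiableOn_tprod_one_sub_pow.analyticAt (Metric.ball_mem_nhds 0 one_pos)

theorem qExpansion_discriminant : qExpansion 1 ModularForm.discriminant =
    PowerSeries.X * PowerSeries.map (Int.castRingHom ℂ) ModularCurve.dedekindEtaUnit := by
  have h0 : qExpansion 1 ModularForm.discriminant =
      tay0 (cuspFunction 1 ModularForm.discriminant) := rfl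
  have h1 : cuspFunction 1 ModularForm.discriminant =ᶠ[nhds 0]
      (fun q : ℂ => q) * (fun q : ℂ => ∏' n : ℕ, (1 - q ^ (n + 1))) ^ 24 := by
    filter_upwards [Metric.ball_mem_nhds (0 : ℂ) one_pos] with q hq
    rw [discriminant_cuspFunction_eqOn hq]
    simp only [Pi.mul_apply, Pi.pow_apply]
    rw [(multipliable_one_sub_pow (by simpa using hq)).tprod_pow]
  rw [h0, tay0_congr h1, tay0_mul (F := fun q => q) analyticAt_id (analyticAt_tprod.pow 24), tay0_id,
    tay0_pow analyticAt_tprod, tay0_tprod, ModularCurve.dedekindEtaUnit, map_pow]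

lemma nice_E4 : Nice 1 E₄ := Nice.of_modularForm E₄ one_pos one_mem_strictPeriods_SL

lemma jf_mul_disc : jf * ModularForm.discriminant ^ 1 = (E₄ : ℍ → ℂ) ^ 3 := by
  ext τ
  simp only [Pi.mul_apply, Pi.pow_apply, jf, pow_one]
  exact div_mul_cancel₀ _ (discriminant_ne_zero τ)

theorem meroInf_jf : MeroInf 1 jf := by
  refine ⟨fun w => ?_, ?_, ⟨1, ?_⟩⟩
  · have h1 := nice_E4.per w
    have h2 := nice_disc_one.per w
    simp only [comp_apply, jf, Nat.cast_one] at h1 h2 ⊢
    rw [h1, h2]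
  · exact (nice_E4.pow 3).hol.div nice_disc_one.hol discriminant_ne_zero
  · rw [jf_mul_disc]
    exact (nice_E4.pow 3).bdd

lemma coeffMap_ofPowerSeries {R S : Type*} [CommRing R] [CommRing S] (φ : R →+* S)
    (P : PowerSeries R) :
    ModularCurve.coeffMap φ (HahnSeries.ofPowerSeries ℤ R P) =
      HahnSeries.ofPowerSeries ℤ S (PowerSeries.map φ P) := by
  ext k
  rw [ModularCurve.coeffMap_coeff]
  rcases lt_or_ge k 0 with hj | hj
  · rw [ModularCurve.ofPowerSeries_coeff_of_neg _ hj, ModularCurve.ofPowerSeries_coeff_of_neg _ hj,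
      map_zero]
  · lift k to ℕ using hj
    rw [HahnSeries.ofPowerSeries_apply_coeff, HahnSeries.ofPowerSeries_apply_coeff,
      PowerSeries.coeff_map]

theorem lau_jf : lau 1 jf = ModularCurve.coeffMap (algebraMap ℚ ℂ) ModularCurve.jq := by
  have e1 : ((1 : ℕ) : ℝ) = 1 := Nat.cast_one
  have hb : IsBoundedAtImInfty (jf * ModularForm.discriminant ^ 1) := by
    rw [jf_mul_disc]
    exact (nice_E4.pow 3).bdd
  apply lau_eq_of_mul meroInf_jf 1 hb
  rw [jf_mul_disc, e1, nice_E4.qExpansion_pow one_pos, qExpansion_E₄, qExpansion_discriminant,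
    ModularCurve.jq, map_mul, ModularCurve.coeffMap_single, coeffMap_ofPowerSeries,
    ModularCurve.jNumQ, ModularCurve.jNum, pow_one, map_mul (HahnSeries.ofPowerSeries ℤ ℂ),
    HahnSeries.ofPowerSeries_X, map_one]
  have h1 : PowerSeries.map (algebraMap ℚ ℂ) (PowerSeries.map (Int.castRingHom ℚ)
      (ModularCurve.eisenstein4 ^ 3 * ModularCurve.dedekindEtaUnitInv)) =
      PowerSeries.map (Int.castRingHom ℂ)
      (ModularCurve.eisenstein4 ^ 3 * ModularCurve.dedekindEtaUnitInv) := by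
    ext n
    simp only [PowerSeries.coeff_map, eq_intCast, eq_ratCast, Rat.cast_intCast]
  rw [h1]
  have h2 : (HahnSeries.single (-1 : ℤ) (1 : ℂ)) * HahnSeries.single (1 : ℤ) (1 : ℂ) = 1 := by
    rw [HahnSeries.single_mul_single]
    simp
  calc _ = (HahnSeries.single (-1 : ℤ) (1 : ℂ) * HahnSeries.single (1 : ℤ) (1 : ℂ)) *
        (HahnSeries.ofPowerSeries ℤ ℂ (PowerSeries.map (Int.castRingHom ℂ)
          (ModularCurve.eisenstein4 ^ 3 * ModularCurve.dedekindEtaUnitInv)) *
          HahnSeries.ofPowerSeries ℤ ℂ (PowerSeries.map (Int.castRingHom ℂ)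
            ModularCurve.dedekindEtaUnit)) := by ring
    _ = _ := by
      rw [h2, one_mul, ← map_mul, ← map_mul, mul_assoc,
        mul_comm ModularCurve.dedekindEtaUnitInv, ModularCurve.dedekindEtaUnit_mul_inv, mul_one,
        map_pow]

end FA24
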