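import Fermat.Agent.X0Genus.BrGen

/-! S24 bridge, part 9: the places above the finite points of the `j`-line. -/

open Polynomial IntermediateField AlgebraicCurve UpperHalfPlane
open scoped MatrixGroups

namespace FA24

lemma gen_transcendental_of_adjoin_eq {K F : Type*} [Field K] [Field F] [Algebra K F] (x y : F)
    (hx : Transcendental K x) (h : K⟮y⟯ = K⟮x⟯) : Transcendental K y := by
  intro halg
  have : Algebra.IsAlgebraic K K⟮y⟯ := isAlgebraic_adjoin_simple halg.isIntegral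
  have hx' : x ∈ K⟮y⟯ := h ▸ mem_adjoin_simple_self K x
  have h2 := Algebra.IsAlgebraic.isAlgebraic (R := K) (⟨x, hx'⟩ : K⟮y⟯)
  exact hx (by simpa using h2.algebraMap (A := F))

lemma order_oPS {p : PowerSeries ℂ} (hp : p ≠ 0) :
    (HahnSeries.ofPowerSeries ℤ ℂ p).order = p.order.toNat := by
  have hne : p.order ≠ ⊤ := by rwa [Ne, PowerSeries.order_eq_top]
  have hn : p.order = (p.order.toNat : ℕ∞) := (ENat.natCast_toNat hne).symm
  obtain ⟨h1, h2⟩ := PowerSeries.order_eq_nat.mp hn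
  apply order_eq_of_coeff
  · rw [HahnSeries.ofPowerSeries_apply_coeff]
    exact h1
  · intro m hm
    by_cases hm0 : m < 0
    · exact ModularCurve.ofPowerSeries_coeff_of_neg _ hm0
    · obtain ⟨m', rfl⟩ := Int.eq_ofNat_of_zero_le (not_lt.mp hm0)
      rw [HahnSeries.ofPowerSeries_apply_coeff]
      exact h2 m' (by exact_mod_cast hm)

lemma denom_pow_of_fixed (s : SL(2, ℤ)) (τ₀ : ℍ) (hs : s • τ₀ = τ₀) (m : ℕ) :
    denom ((s ^ m : SL(2, ℤ)) : GL (Fin 2) ℝ) τ₀ = (denom (s : GL (Fin 2) ℝ) τ₀) ^ m := by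
  induction m with
  | zero => simp [denom]
  | succ m ih =>
    have hs' : (s : GL (Fin 2) ℝ) • τ₀ = τ₀ := by
      rw [← ModularGroup.sl_moeb, hs]
    have hσ : ∀ z : ℂ, σ (s : GL (Fin 2) ℝ) z = z := by
      intro z
      simp [σ]
    rw [pow_succ, map_mul, map_mul, denom_cocycle_σ, hs', hσ, ih, pow_succ]

variable {N : ℕ} [NeZero N]

lemma pow_smul_fixed (s : SL(2, ℤ)) (τ₀ : ℍ) (hs : s • τ₀ = τ₀) (m : ℕ) : s ^ m • τ₀ = τ₀ := by
  induction m with
  | zero => simp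
  | succ m ih => rw [pow_succ, mul_smul, hs, ih]

theorem count_tay (τ₀ : ℍ) (s : SL(2, ℤ)) (hs : s • τ₀ = τ₀) (S₀ : ℕ) (hS₀ : 0 < S₀)
    (a : Kb) (ha : jf τ₀ = iota a)
    (hord : (tay τ₀ (fun τ => jf τ - jf τ₀)).order = S₀)
    (hmult : ∀ n : ℕ, (denom (s : GL (Fin 2) ℝ) τ₀) ^ (2 * n) = 1 → S₀ ∣ n) :
    {v : Place Kb (FN N) | 0 < v.ord (xN N - algebraMap Kb (FN N) a)}.ncard =
        Nat.card (MulAction.orbitRel.Quotient (Subgroup.zpowers s) (XN N)) ∧
      ∀ v : Place Kb (FN N), 0 < v.ord (xN N - algebraMap Kb (FN N) a) → HasBranch v := by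
  have hadj := gen_adjoin_sub (xN N) a
  have hbr : ∀ k : XN N, br (expTay τ₀) k (xN N - algebraMap Kb (FN N) a) =
      HahnSeries.ofPowerSeries ℤ ℂ (tay τ₀ (fun τ => jf τ - jf τ₀)) := by
    intro k
    rw [map_sub, br_xN, br_algebraMap, ← (expTay (N := N) τ₀).const, ← map_sub, expTay_apply, ha]
    rfl
  have hne : tay τ₀ (fun τ => jf τ - jf τ₀) ≠ 0 := by
    intro h
    rw [h, PowerSeries.order_zero] at hord
    exact ENat.top_ne_natCast _ hord
  refine count_general (expTay τ₀) s S₀ hS₀ _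
    (gen_transcendental_of_adjoin_eq _ _ (transcendental_xN N) hadj) hadj
    (fun k k' => by rw [hbr, hbr]) (fun k => by rw [hbr, order_oPS hne, hord]; rfl) ?_ ?_
  · intro G
    have hs' : s⁻¹ • τ₀ = τ₀ := by rw [inv_smul_eq_iff, hs]
    have h1 := order_tay_comp s⁻¹ τ₀ hs' (MN.mdiff G.2)
    by_cases hG : G = 0
    · simp [hG]
    have hG1 : tay τ₀ G.1 ≠ 0 := by
      rw [Ne, tay_eq_zero_iff τ₀ (MN.mdiff G.2)]
      exact fun h => hG (Subtype.ext h)
    have hG2 : tay τ₀ (sig s G).1 ≠ 0 := by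
      intro h
      have h2 : (tay τ₀ (fun τ => G.1 (s⁻¹ • τ))).order = ⊤ := by
        rw [PowerSeries.order_eq_top]
        exact h
      rw [h1, PowerSeries.order_eq_top] at h2
      exact hG1 h2
    rw [expTay_apply, expTay_apply, order_oPS hG1, order_oPS hG2]
    congr 2
  · intro G m hG hinv
    have hG0 : G.1 ≠ 0 := fun h => hG (Subtype.ext h)
    have hG1 : tay τ₀ G.1 ≠ 0 := by
      rw [Ne, tay_eq_zero_iff τ₀ (MN.mdiff G.2)]
      exact hG0
    have h1 := tay_multiplier (s ^ m) τ₀ (pow_smul_fixed s τ₀ hs m) (MN.mdiff G.2) hG0 (fun τ => by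
      have := congrFun (congrArg Subtype.val hinv) (s ^ m • τ)
      rw [sig_apply, inv_smul_smul] at this
      exact this.symm)
    rw [denom_pow_of_fixed s τ₀ hs, ← pow_mul,
      show m * (2 * (tay τ₀ G.1).order.toNat) = 2 * (m * (tay τ₀ G.1).order.toNat) by ring] at h1
    have h2 := hmult _ h1
    rw [expTay_apply, order_oPS hG1]
    exact_mod_cast h2

end FA24
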