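import Fermat.Agent.X0Genus.Degree
import Fermat.Agent.X0Genus.Count

/-! S24 bridge, part 8: counting the places above a point of the `j`-line, general form. -/

open Polynomial IntermediateField AlgebraicCurve
open scoped MatrixGroups

namespace FA24

variable {N : ℕ} [NeZero N]

lemma order_br (e : Expn N) (k : XN N) {f : FN N} {g h : RN N} (hf : f ≠ 0) (hh : h ≠ 0)
    (hr : Theta f * algebraMap (RN N) (FR N) h = algebraMap (RN N) (FR N) g) :
    (br e k f).order = (brR e k g).order - (brR e k h).order := by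
  have h1 := br_mul_eq e k hr
  have hf' : br e k f ≠ 0 := (_root_.map_ne_zero _).mpr hf
  have hh' : brR e k h ≠ 0 := (map_ne_zero_iff _ (brR_injective e k)).mpr hh
  rw [← h1, HahnSeries.order_mul hf' hh']
  ring

lemma rep_num_ne_zero {f : FN N} {g h : RN N} (hf : f ≠ 0) (hh : h ≠ 0)
    (hr : Theta f * algebraMap (RN N) (FR N) h = algebraMap (RN N) (FR N) g) : g ≠ 0 := by
  rintro rfl
  rw [map_zero] at hr
  rcases mul_eq_zero.mp hr with h0 | h0
  · exact hf ((map_eq_zero _).mp h0)
  · exact hh ((map_eq_zero_iff _ (IsFractionRing.injective (RN N) (FR N))).mp h0)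

lemma order_br_smul (e : Expn N) (s : SL(2, ℤ))
    (H2 : ∀ G : MN N, (e.ε (sig s G)).order = (e.ε G).order) (k : XN N) (f : FN N) :
    (br e (s • k) f).order = (br e k f).order := by
  by_cases hf : f = 0
  · simp [hf]
  obtain ⟨g, h, hh, hr⟩ := exists_rep f
  rw [order_br e _ hf hh hr, order_br e _ hf hh hr, brR_apply, brR_apply, brR_apply, brR_apply,
    ← sig_trnM, ← sig_trnM, H2, H2]

lemma order_br_of_rel (e : Expn N) (s : SL(2, ℤ))
    (H2 : ∀ G : MN N, (e.ε (sig s G)).order = (e.ε G).order) (k k' : XN N)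
    (hk : MulAction.orbitRel (Subgroup.zpowers s) (XN N) k k') (f : FN N) :
    (br e k f).order = (br e k' f).order := by
  let H : Subgroup SL(2, ℤ) :=
    { carrier := {z | ∀ k f, (br e (z • k) f).order = (br e k f).order}
      mul_mem' := fun {a b} ha hb k f => by rw [mul_smul, ha, hb]
      one_mem' := fun k f => by rw [one_smul]
      inv_mem' := fun {a} ha k f => by
        have := ha (a⁻¹ • k) f
        rw [smul_inv_smul] at this
        exact this.symm }
  have hs : Subgroup.zpowers s ≤ H := by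
    rw [Subgroup.zpowers_le]
    exact order_br_smul e s H2
  obtain ⟨⟨z, hz⟩, rfl⟩ := hk
  exact hs hz k' f

lemma pow_card_orbit_smul (s : SL(2, ℤ)) (k : XN N) :
    s ^ (Nat.card {k' // MulAction.orbitRel (Subgroup.zpowers s) (XN N) k' k}) • k = k := by
  classical
  have h1 : Nat.card {k' // MulAction.orbitRel (Subgroup.zpowers s) (XN N) k' k} =
      Function.minimalPeriod (s • ·) k := by
    rw [MulAction.minimalPeriod_eq_card, ← Nat.card_eq_fintype_card]
    rfl
  rw [h1]
  exact MulAction.pow_smul_eq_iff_minimalPeriod_dvd.mpr dvd_rfl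

theorem count_general (e : Expn N) (s : SL(2, ℤ)) (S₀ : ℕ) (hS₀ : 0 < S₀)
    (y : FN N) (hy : Transcendental Kb y) (hadj : Kb⟮y⟯ = Kb⟮xN N⟯)
    (hyk : ∀ k k', br e k y = br e k' y) (hy0 : ∀ k, (br e k y).order = S₀)
    (H2 : ∀ G : MN N, (e.ε (sig s G)).order = (e.ε G).order)
    (H3 : ∀ (G : MN N) (m : ℕ), G ≠ 0 → sig (s ^ m) G = G → (S₀ : ℤ) ∣ m * (e.ε G).order) :
    {v : Place Kb (FN N) | 0 < v.ord y}.ncard =
        Nat.card (MulAction.orbitRel.Quotient (Subgroup.zpowers s) (XN N)) ∧
      ∀ v : Place Kb (FN N), 0 < v.ord y → HasBranch v := by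
  have hfd : FiniteDimensional Kb⟮y⟯ (FN N) := by
    rw [hadj]
    exact finiteDimensional_FN
  have hX : Fintype.card (XN N) = Module.finrank Kb⟮y⟯ (FN N) := by
    rw [hadj]
    exact finrank_FN.symm
  refine count_places y hy hX (br e) (br_injective e) iota (br_algebraMap e) hyk S₀ hS₀ hy0
    (MulAction.orbitRel (Subgroup.zpowers s) (XN N)) (order_br_of_rel e s H2) ?_
  intro k f hf
  obtain ⟨g, h, hh, hr⟩ := exists_rep f
  have hg : g ≠ 0 := rep_num_ne_zero hf hh hr
  set m := Nat.card {k' // MulAction.orbitRel (Subgroup.zpowers s) (XN N) k' k} with hm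
  have hfix : s ^ m • k = k := pow_card_orbit_smul s k
  have key : ∀ g : RN N, g ≠ 0 → (S₀ : ℤ) ∣ m * (brR e k g).order := fun g hg =>
    H3 (trnM k g) m ((map_ne_zero_iff _ (trnM_injective k)).mpr hg) (by rw [sig_trnM, hfix])
  rw [order_br e k hf hh hr, mul_sub]
  exact dvd_sub (key g hg) (key h hh)

end FA24
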