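import Fermat.Agent.IntStr.AffQ
import Fermat.Prelude.Def_ModularCurve_X0
import Fermat.Prelude.Def_ModularCurve_LaurentCoeff

/-! S24: shared definitions, analytic part. -/

open UpperHalfPlane ModularForm EisensteinSeries Function
open scoped Manifold MatrixGroups

namespace FA24

/-- Klein's `j`-function. -/
noncomputable def jf (τ : ℍ) : ℂ := E₄ τ ^ 3 / ModularForm.discriminant τ

/-- Taylor series at `τ₀` of a function on the upper half plane. -/
noncomputable def tay (τ₀ : ℍ) (f : ℍ → ℂ) : PowerSeries ℂ :=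
  PowerSeries.mk fun n => ((n.factorial : ℂ))⁻¹ * iteratedDeriv n (f ∘ ofComplex) (τ₀ : ℂ)

/-- holomorphic on `ℍ`, `N`-periodic, with at most a pole at `i∞`. -/
structure MeroInf (N : ℕ) (f : ℍ → ℂ) : Prop where
  per : Function.Periodic (f ∘ ofComplex) ((N : ℝ) : ℂ)
  hol : MDiff f
  pole : ∃ m : ℕ, IsBoundedAtImInfty (f * ModularForm.discriminant ^ m)

open Classical in
/-- a bound for the order of the pole at `i∞`, in terms of powers of `Δ`. -/
noncomputable def poleBound (f : ℍ → ℂ) : ℕ :=
  if h : ∃ m : ℕ, IsBoundedAtImInfty (f * ModularForm.discriminant ^ m) then Nat.find h else 0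

/-- the Laurent expansion in `q_N = exp (2π i τ / N)`. -/
noncomputable def lau (N : ℕ) (f : ℍ → ℂ) : LaurentSeries ℂ :=
  HahnSeries.ofPowerSeries ℤ ℂ (qExpansion N (f * ModularForm.discriminant ^ poleBound f)) *
    ((HahnSeries.ofPowerSeries ℤ ℂ (qExpansion N ModularForm.discriminant))⁻¹) ^ poleBound f

end FA24
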