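import Fermat.Agent.X0Genus.MN

/-! S24 bridge, part 5: every element of the function field satisfies a polynomial of degree
`≤ [SL₂(ℤ) : Γ₀(N)]` over `ℂ[j]`. -/

open UpperHalfPlane ModularForm EisensteinSeries Function CongruenceSubgroup FA_IS Polynomial
open scoped Manifold MatrixGroups Real

namespace FA24

variable {N : ℕ} [NeZero N]

/-- constants, as a ring homomorphism -/
def cstHom : ℂ →+* RN N where
  toFun c := cst c
  map_one' := rfl
  map_mul' _ _ := rfl
  map_zero' := rfl
  map_add' _ _ := rfl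

/-- polynomials in `j` -/
noncomputable def evR : ℂ[X] →+* RN N := eval₂RingHom cstHom jR

lemma evR_apply (p : ℂ[X]) (τ : ℍ) : (evR (N := N) p).1 τ = p.eval (jf τ) := by
  have : ((Pi.evalRingHom (fun _ : ℍ => ℂ) τ).comp ((RN N).subtype.comp evR)) =
      evalRingHom (jf τ) := by
    apply Polynomial.ringHom_ext
    · intro a
      simp [evR, cstHom, cst]
    · simp [evR, jR]
  exact congrArg (fun φ : ℂ[X] →+* ℂ => φ p) this

lemma exists_poly_of_sig_invariant (G : MN N) (hG : ∀ s, sig s G = G) :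
    ∃ p : ℂ[X], inclM (evR p) = G := by
  obtain ⟨m, hm⟩ := (MN.mero G.2).pole
  obtain ⟨p, -, hp⟩ := exists_poly_of_invariant G.1 (MN.mdiff G.2) (fun γ τ => by
    have := congrFun (congrArg Subtype.val (hG γ⁻¹)) τ
    rw [sig_apply, inv_inv] at this
    exact this) m hm
  refine ⟨p, Subtype.ext (funext fun τ => ?_)⟩
  rw [hp τ]
  exact evR_apply p τ

/-- the characteristic polynomial of a quotient `g / h`. -/
noncomputable def Psi (g h : RN N) : (MN N)[X] :=
  ∏ k : XN N, (C (trnM k h) * X - C (trnM k g))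

lemma Psi_map_sig (g h : RN N) (s : SL(2, ℤ)) : (Psi g h).map (sig s) = Psi g h := by
  rw [Psi, Polynomial.map_prod]
  simp only [Polynomial.map_sub, Polynomial.map_mul, Polynomial.map_C, Polynomial.map_X, sig_trnM]
  exact Fintype.prod_equiv (MulAction.toPerm s) _ _ (fun k => rfl)

lemma Psi_ne_zero (g : RN N) {h : RN N} (hh : h ≠ 0) : Psi g h ≠ 0 := by
  rw [Psi, Finset.prod_ne_zero_iff]
  intro k _ h0
  have := congrArg (fun p => Polynomial.coeff p 1) h0
  simp only [coeff_sub, coeff_C_mul, coeff_X_one, mul_one, coeff_C_succ, sub_zero,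
    coeff_zero] at this
  exact hh (trnM_injective k (by rw [this, map_zero]))

lemma Psi_natDegree_le (g h : RN N) : (Psi g h).natDegree ≤ Fintype.card (XN N) := by
  rw [Psi]
  refine (natDegree_prod_le _ _).trans ?_
  calc ∑ k : XN N, (C (trnM k h) * X - C (trnM k g)).natDegree ≤ ∑ _k : XN N, 1 := by
        refine Finset.sum_le_sum fun k _ => ?_
        refine (natDegree_sub_le _ _).trans ?_
        rw [natDegree_C, max_le_iff]
        exact ⟨(natDegree_C_mul_le _ _).trans natDegree_X_le, Nat.zero_le _⟩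
    _ = Fintype.card (XN N) := by simp

lemma exists_lift_Psi (g : RN N) {h : RN N} (hh : h ≠ 0) :
    ∃ P : ℂ[X][X], P ≠ 0 ∧ P.natDegree ≤ Fintype.card (XN N) ∧
      P.map (inclM.comp evR) = Psi g h := by
  have hl : Psi g h ∈ lifts (inclM.comp (evR (N := N))) := by
    rw [lifts_iff_coeff_lifts]
    intro n
    obtain ⟨p, hp⟩ := exists_poly_of_sig_invariant ((Psi g h).coeff n) (fun s => by
      rw [← coeff_map, Psi_map_sig])
    exact ⟨p, hp⟩
  obtain ⟨P, hP, hdeg⟩ := exists_natDegree_eq_of_mem_lifts hl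
  refine ⟨P, ?_, hdeg ▸ Psi_natDegree_le g h, hP⟩
  rintro rfl
  rw [Polynomial.map_zero] at hP
  exact Psi_ne_zero g hh hP.symm

/-- the algebraic relation, in the field of modular functions -/
lemma exists_relation_FR (f : FN N) :
    ∃ P : ℂ[X][X], P ≠ 0 ∧ P.natDegree ≤ Fintype.card (XN N) ∧
      P.eval₂ ((algebraMap (RN N) (FR N)).comp evR) (Theta f) = 0 := by
  obtain ⟨g, h, hh, hr⟩ := exists_rep f
  obtain ⟨P, hP0, hPd, hP⟩ := exists_lift_Psi g hh
  refine ⟨P, hP0, hPd, ?_⟩
  set k₀ : XN N := ((1 : SL(2, ℤ)) : XN N)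
  set e : Expn N := expInf
  apply (IsFractionRing.lift (brR_injective e k₀)).injective
  rw [map_zero, hom_eval₂]
  have h1 : (IsFractionRing.lift (brR_injective e k₀)).comp
      ((algebraMap (RN N) (FR N)).comp evR) = e.ε.comp (inclM.comp evR) := by
    refine RingHom.ext fun p => ?_
    simp only [RingHom.comp_apply, IsFractionRing.lift_algebraMap, brR_apply]
    rw [trnM_one]
  rw [h1, ← eval₂_map, ← eval_map, hP, Psi, Polynomial.map_prod, eval_prod]
  apply Finset.prod_eq_zero (Finset.mem_univ k₀)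
  have h2 := br_mul_eq e k₀ hr
  simp only [Polynomial.map_sub, Polynomial.map_mul, Polynomial.map_C, Polynomial.map_X, eval_sub,
    eval_mul, eval_C, eval_X]
  rw [sub_eq_zero, mul_comm]
  exact h2

/-- the algebraic relation, for `q`-expansions -/
lemma exists_relation_lau (f : FN N) :
    ∃ P : ℂ[X][X], P ≠ 0 ∧ P.natDegree ≤ Fintype.card (XN N) ∧
      P.eval₂ (eval₂RingHom HahnSeries.C (cm (xN N).1)) (cm f.1) = 0 := by
  obtain ⟨P, hP0, hPd, hP⟩ := exists_relation_FR f
  refine ⟨P, hP0, hPd, ?_⟩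
  have := congrArg LamF hP
  rw [map_zero, hom_eval₂, LamF_Theta] at this
  have h1 : LamF.comp ((algebraMap (RN N) (FR N)).comp evR) =
      eval₂RingHom HahnSeries.C (cm (xN N).1) := by
    apply Polynomial.ringHom_ext
    · intro a
      simp only [coe_eval₂RingHom, eval₂_C, RingHom.comp_apply, evR, LamF_algebraMap]
      exact Lam_cst a
    · simp only [coe_eval₂RingHom, eval₂_X, RingHom.comp_apply, evR, LamF_algebraMap]
      rw [← LamF_Theta, Theta_xN, LamF_algebraMap]
  rw [h1] at this
  exact this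

end FA24
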