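import Fermat.Agent.X0Genus.DegU1

/-! S24 bridge, part 6: descent of algebraic relations from `ℂ` to `ℚ̄`. -/

open Polynomial

namespace FA24

/-- a `ℚ̄`-linear functional on `ℂ` with prescribed nonzero value. -/
lemma exists_retraction (l : ℂ) (hl : l ≠ 0) :
    ∃ π : ℂ →+ Kb, (∀ z a, π (z * iota a) = π z * a) ∧ π l = 1 := by
  letI : Algebra Kb ℂ := iota.toAlgebra
  have hsm : ∀ (a : Kb) (z : ℂ), a • z = iota a * z := fun a z => rfl
  have hinj : LinearMap.ker (LinearMap.toSpanSingleton Kb ℂ l) = ⊥ := by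
    rw [LinearMap.ker_eq_bot, injective_iff_map_eq_zero]
    intro a ha
    rw [LinearMap.toSpanSingleton_apply, hsm] at ha
    rcases mul_eq_zero.mp ha with h | h
    · exact (map_eq_zero iota).mp h
    · exact absurd h hl
  obtain ⟨g, hg⟩ := LinearMap.exists_leftInverse_of_injective _ hinj
  refine ⟨g.toAddMonoidHom, fun z a => ?_, ?_⟩
  · show g (z * iota a) = g z * a
    rw [mul_comm z, ← hsm, map_smul, smul_eq_mul, mul_comm]
  · have := congrArg (fun φ : Kb →ₗ[Kb] Kb => φ 1) hg
    simpa [LinearMap.toSpanSingleton_apply] using this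

/-- apply an additive map to the coefficients of a polynomial -/
noncomputable def pmap {A B : Type*} [Semiring A] [Semiring B] (π : A →+ B) : A[X] →+ B[X] where
  toFun p := ∑ i ∈ p.support, monomial i (π (p.coeff i))
  map_zero' := by simp
  map_add' p q := by
    ext n
    simp only [finset_sum_coeff, coeff_monomial, coeff_add, Finset.sum_ite_eq', mem_support_iff]
    by_cases h1 : p.coeff n = 0 <;> by_cases h2 : q.coeff n = 0 <;>
      by_cases h3 : p.coeff n + q.coeff n = 0 <;> simp_all [← map_add]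

lemma coeff_pmap {A B : Type*} [Semiring A] [Semiring B] (π : A →+ B) (p : A[X]) (n : ℕ) :
    (pmap π p).coeff n = π (p.coeff n) := by
  show (∑ i ∈ p.support, monomial i (π (p.coeff i))).coeff n = _
  simp only [finset_sum_coeff, coeff_monomial, Finset.sum_ite_eq', mem_support_iff]
  by_cases h1 : p.coeff n = 0 <;> simp [h1]

lemma natDegree_pmap_le {A B : Type*} [Semiring A] [Semiring B] (π : A →+ B) (p : A[X]) :
    (pmap π p).natDegree ≤ p.natDegree := by
  rw [natDegree_le_iff_coeff_eq_zero]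
  intro n hn
  rw [coeff_pmap, coeff_eq_zero_of_natDegree_lt hn, map_zero]

/-- descent -/
lemma descent (X₀ Y₀ : LaurentSeries Kb) (P : ℂ[X][X]) (hP0 : P ≠ 0)
    (hP : P.eval₂ (eval₂RingHom HahnSeries.C (cm X₀)) (cm Y₀) = 0) :
    ∃ Q : Kb[X][X], Q ≠ 0 ∧ Q.natDegree ≤ P.natDegree ∧
      Q.eval₂ (eval₂RingHom HahnSeries.C X₀) Y₀ = 0 := by
  obtain ⟨i₀, hi₀⟩ : ∃ i, P.coeff i ≠ 0 := by
    by_contra h
    push_neg at h
    exact hP0 (Polynomial.ext (by simpa using h))
  obtain ⟨a₀, ha₀⟩ : ∃ a, (P.coeff i₀).coeff a ≠ 0 := by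
    by_contra h
    push_neg at h
    exact hi₀ (Polynomial.ext (by simpa using h))
  obtain ⟨π, hπ, hπ1⟩ := exists_retraction _ ha₀
  refine ⟨pmap (pmap π) P, ?_, natDegree_pmap_le _ _, ?_⟩
  · intro h
    have := congrArg (fun q : Kb[X][X] => (q.coeff i₀).coeff a₀) h
    simp only [coeff_pmap, hπ1, coeff_zero] at this
    exact one_ne_zero this
  · -- a common bound for the inner degrees
    obtain ⟨M, hM⟩ : ∃ M : ℕ, ∀ i, (P.coeff i).natDegree < M := by
      refine ⟨(∑ i ∈ P.support, (P.coeff i).natDegree) + 1, fun i => ?_⟩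
      by_cases hi : i ∈ P.support
      · exact Nat.lt_succ_of_le
          (Finset.single_le_sum (f := fun i => (P.coeff i).natDegree) (fun _ _ => Nat.zero_le _) hi)
      · rw [notMem_support_iff.mp hi]
        simp
    have e1 : ∀ (c : ℕ → ℕ → ℂ), (∑ i ∈ Finset.range (P.natDegree + 1),
        (∑ a ∈ Finset.range M, HahnSeries.C (c i a) * cm X₀ ^ a) * cm Y₀ ^ i) =
        ∑ i ∈ Finset.range (P.natDegree + 1), ∑ a ∈ Finset.range M,
          HahnSeries.C (c i a) * cm (X₀ ^ a * Y₀ ^ i) := by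
      intro c
      refine Finset.sum_congr rfl fun i _ => ?_
      rw [Finset.sum_mul]
      refine Finset.sum_congr rfl fun a _ => ?_
      rw [map_mul, map_pow, map_pow, mul_assoc]
    have e2 : ∀ (c : ℕ → ℕ → Kb), (∑ i ∈ Finset.range (P.natDegree + 1),
        (∑ a ∈ Finset.range M, HahnSeries.C (c i a) * X₀ ^ a) * Y₀ ^ i) =
        ∑ i ∈ Finset.range (P.natDegree + 1), ∑ a ∈ Finset.range M,
          HahnSeries.C (c i a) * (X₀ ^ a * Y₀ ^ i) := by
      intro c
      refine Finset.sum_congr rfl fun i _ => ?_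
      rw [Finset.sum_mul]
      refine Finset.sum_congr rfl fun a _ => ?_
      rw [mul_assoc]
    rw [eval₂_eq_sum_range' _ (Nat.lt_succ_self _)] at hP
    simp only [coe_eval₂RingHom] at hP
    simp only [eval₂_eq_sum_range' _ (hM _)] at hP
    rw [e1 fun i a => (P.coeff i).coeff a] at hP
    rw [eval₂_eq_sum_range' _ (Nat.lt_succ_of_le (natDegree_pmap_le _ _))]
    simp only [coe_eval₂RingHom]
    simp only [coeff_pmap, eval₂_eq_sum_range' _ (lt_of_le_of_lt (natDegree_pmap_le _ _) (hM _))]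
    rw [e2 fun i a => π ((P.coeff i).coeff a)]
    ext n
    have h3 := congrArg (fun s : LaurentSeries ℂ => π (s.coeff n)) hP
    simp only [HahnSeries.coeff_sum, HahnSeries.coeff_zero, map_zero, map_sum,
      HahnSeries.C_mul_eq_smul, HahnSeries.coeff_smul, smul_eq_mul] at h3 ⊢
    rw [← h3]
    refine Finset.sum_congr rfl fun i _ => Finset.sum_congr rfl fun a _ => ?_
    exact (hπ _ _).symm

end FA24
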