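import Fermat.Agent.X0Genus.DefsAn

open UpperHalfPlane ModularForm EisensteinSeries Function CongruenceSubgroup FA_IS
open scoped Manifold MatrixGroups Real

namespace FA24

/-! ### AN1 : `JFun.lean` -/

/-- transformation law of a level one form under `SL(2,ℤ)`. -/
lemma form_smul {k : ℤ} {F : Type*} [FunLike F ℍ ℂ] [SlashInvariantFormClass F 𝒮ℒ k] (f : F)
    (γ : SL(2, ℤ)) (τ : ℍ) : f (γ • τ) = denom γ τ ^ k * f τ := by
  have : SlashInvariantFormClass F Γ(1) k := Gamma_one_coe_eq_SL ▸ ‹_›
  exact SlashInvariantForm.slash_action_eqn_SL'' f (mem_Gamma_one γ) τ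

lemma disc_smul (γ : SL(2, ℤ)) (τ : ℍ) :
    ModularForm.discriminant (γ • τ) = denom γ τ ^ (12 : ℤ) * ModularForm.discriminant τ :=
  form_smul CuspForm.discriminant γ τ

lemma disc_mdiff : MDiff ModularForm.discriminant := CuspForm.discriminant.holo'

/-- build a level one modular form from its transformation law -/
lemma exists_form (k : ℤ) (F : ℍ → ℂ) (hol : MDiff F)
    (htr : ∀ (γ : SL(2, ℤ)) (τ : ℍ), F (γ • τ) = denom γ τ ^ k * F τ)
    (hb : IsBoundedAtImInfty F) : ∃ H : ModularForm 𝒮ℒ k, ⇑H = F := by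
  have hsl : ∀ γ : SL(2, ℤ), F ∣[k] γ = F := by
    intro γ
    funext τ
    rw [SL_slash_apply, htr, mul_comm, ← mul_assoc, ← zpow_add₀ (denom_ne_zero _ _)]
    simp
  refine ⟨{ toFun := F
            slash_action_eq' := fun _ ⟨γ, hγ⟩ ↦ hγ ▸ hsl γ
            holo' := hol
            bdd_at_cusps' := ?_ }, rfl⟩
  intro c hc
  rw [Subgroup.IsArithmetic.isCusp_iff_isCusp_SL2Z] at hc
  rw [OnePoint.isBoundedAt_iff_forall_SL2Z hc]
  intro γ _
  rw [hsl γ]
  exact hb

theorem jf_mdiff : MDiff jf :=
  (E₄.holo'.pow 3).div disc_mdiff discriminant_ne_zero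

theorem jf_smul (γ : SL(2, ℤ)) (τ : ℍ) : jf (γ • τ) = jf τ := by
  unfold jf
  rw [form_smul E₄ γ τ, disc_smul]
  have h := denom_ne_zero γ τ
  have h2 := discriminant_ne_zero τ
  rw [mul_pow, ← zpow_natCast, ← zpow_mul]
  norm_num
  rw [mul_div_mul_left _ _ (pow_ne_zero _ h)]

theorem jf_sub (τ : ℍ) : jf τ - 1728 = E₆ τ ^ 2 / ModularForm.discriminant τ := by
  unfold jf
  have h2 := discriminant_ne_zero τ
  have h := discriminant_eq_E₄_cube_sub_E₆_sq τ
  field_simp
  rw [h]
  ring


lemma E₄_tendsto : Filter.Tendsto (⇑E₄) atImInfty (nhds 1) := by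
  have h := (Nice.of_modularForm (h := 1) E₄ one_pos one_mem_strictPeriods_SL).tendsto one_pos
  rwa [E_qExpansion_coeff_zero _ ⟨2, rfl⟩] at h

lemma disc_tendsto : Filter.Tendsto ModularForm.discriminant atImInfty (nhds 0) :=
  discriminant_isZeroAtImInfty

lemma atImInfty_neBot : (atImInfty).NeBot := by
  infer_instance

theorem jf_surjective : Function.Surjective jf := by
  intro a
  by_contra hcon
  push Not at hcon
  set g : ℍ → ℂ := fun τ => E₄ τ ^ 3 - a * ModularForm.discriminant τ with hg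
  have hg0 : ∀ τ, g τ ≠ 0 := by
    intro τ h0
    apply hcon τ
    unfold jf
    rw [div_eq_iff (discriminant_ne_zero τ)]
    simp only [hg] at h0
    linear_combination h0
  have hgm : MDiff g := (E₄.holo'.pow 3).sub (mdifferentiable_const.mul disc_mdiff)
  have hgs : ∀ (γ : SL(2, ℤ)) (τ : ℍ), g (γ • τ) = denom γ τ ^ (12 : ℤ) * g τ := by
    intro γ τ
    simp only [hg]
    rw [form_smul E₄ γ τ, disc_smul, mul_pow, ← zpow_natCast, ← zpow_mul]
    norm_num
    ring
  have hgt : Filter.Tendsto g atImInfty (nhds 1) := by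
    have := (E₄_tendsto.pow 3).sub (disc_tendsto.const_mul a)
    simpa using this
  set F : ℍ → ℂ := fun τ => ModularForm.discriminant τ / g τ with hF
  have hFt : Filter.Tendsto F atImInfty (nhds 0) := by
    have := disc_tendsto.div hgt one_ne_zero
    rw [zero_div] at this
    exact this
  obtain ⟨H, hH⟩ := exists_form 0 F (disc_mdiff.div hgm hg0) (by
    intro γ τ
    simp only [hF]
    rw [disc_smul, hgs, mul_div_mul_left _ _ (zpow_ne_zero _ (denom_ne_zero γ τ))]
    simp) (Filter.ZeroAtFilter.boundedAtFilter hFt)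
  obtain ⟨c, hc⟩ := ModularFormClass.levelOne_weight_zero_const H
  rw [hH] at hc
  have hc0 : c = 0 := by
    rw [hc] at hFt
    exact tendsto_nhds_unique tendsto_const_nhds hFt
  have := congr_fun hc UpperHalfPlane.I
  rw [hc0] at this
  simp only [hF, Function.const_apply, div_eq_zero_iff] at this
  rcases this with h | h
  · exact discriminant_ne_zero _ h
  · exact hg0 _ h


lemma nice_E₄ : Nice 1 (⇑E₄) := Nice.of_modularForm (h := 1) E₄ one_pos one_mem_strictPeriods_SL

/-- a holomorphic `SL₂(ℤ)`-invariant function with a pole of finite order at `i∞` is a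
polynomial in `j`. -/
theorem exists_poly_of_invariant (f : ℍ → ℂ) (hf : MDiff f)
    (hinv : ∀ (γ : SL(2, ℤ)) (τ : ℍ), f (γ • τ) = f τ) (m : ℕ)
    (hb : IsBoundedAtImInfty (f * ModularForm.discriminant ^ m)) :
    ∃ P : Polynomial ℂ, P.natDegree ≤ m ∧ ∀ τ, f τ = P.eval (jf τ) := by
  induction m generalizing f with
  | zero =>
    obtain ⟨H, hH⟩ := exists_form 0 f hf (by intro γ τ; rw [hinv, zpow_zero, one_mul]) (by simpa using hb)
    obtain ⟨c, hc⟩ := ModularFormClass.levelOne_weight_zero_const H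
    refine ⟨Polynomial.C c, by simp, fun τ => ?_⟩
    rw [← hH, hc]
    simp
  | succ m ih =>
    obtain ⟨G, hG⟩ := exists_form (12 * ((m + 1 : ℕ) : ℤ)) (f * ModularForm.discriminant ^ (m + 1))
      (hf.mul (disc_mdiff.pow _)) (by
        intro γ τ
        simp only [Pi.mul_apply, Pi.pow_apply]
        rw [hinv, disc_smul, mul_pow, ← zpow_natCast, ← zpow_mul]
        ring) hb
    obtain ⟨E, hE⟩ := exists_form (12 * ((m + 1 : ℕ) : ℤ)) (⇑E₄ ^ (3 * (m + 1)))
      (E₄.holo'.pow _) (by
        intro γ τ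
        simp only [Pi.pow_apply]
        rw [form_smul E₄ γ τ, mul_pow, ← zpow_natCast, ← zpow_mul]
        congr 2
        push_cast
        ring) (nice_E₄.pow _).bdd
    have hE0 : (qExpansion 1 E).coeff 0 = 1 := by
      rw [hE, nice_E₄.qExpansion_pow one_pos, PowerSeries.coeff_zero_eq_constantCoeff, map_pow,
        ← PowerSeries.coeff_zero_eq_constantCoeff, E_qExpansion_coeff_zero _ ⟨2, rfl⟩, one_pow]
    set c : ℂ := (qExpansion 1 G).coeff 0 with hc
    have hcusp : (qExpansion 1 (⇑(G - c • E : ModularForm 𝒮ℒ (12 * ((m + 1 : ℕ) : ℤ))))).coeff 0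
        = 0 := by
      rw [FunLike.coe_sub, ModularForm.qExpansion_sub one_pos one_mem_strictPeriods_SL,
        FunLike.coe_smul, ModularForm.qExpansion_smul one_pos one_mem_strictPeriods_SL, map_sub,
        PowerSeries.coeff_smul, hE0, smul_eq_mul, mul_one, sub_self]
    have h1 := discriminant_mul_discriminantEquiv (toCuspForm (G - c • E) hcusp)
    set h := CuspForm.discriminantEquiv (toCuspForm (G - c • E) hcusp) with hh
    have hkey : (fun τ => f τ - c * jf τ ^ (m + 1)) * ModularForm.discriminant ^ m = ⇑h := by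
      funext τ
      have h2 := congr_fun h1 τ
      have hGτ := congr_fun hG τ
      have hEτ := congr_fun hE τ
      simp only [Pi.mul_apply, toCuspForm_apply, sub_apply, smul_apply,
        Pi.pow_apply, smul_eq_mul] at h2 hGτ hEτ ⊢
      have hd := discriminant_ne_zero τ
      apply mul_left_cancel₀ hd
      rw [h2, hGτ, hEτ]
      unfold jf
      rw [div_pow, pow_mul, pow_succ (ModularForm.discriminant τ) m]
      field_simp
    obtain ⟨P, hP, hPe⟩ := ih (fun τ => f τ - c * jf τ ^ (m + 1))
      (hf.sub (mdifferentiable_const.mul (jf_mdiff.pow _)))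
      (by intro γ τ; simp only [hinv, jf_smul])
      (by rw [hkey]; exact ModularFormClass.bdd_at_infty h)
    refine ⟨P + Polynomial.C c * Polynomial.X ^ (m + 1), ?_, fun τ => ?_⟩
    · refine (Polynomial.natDegree_add_le _ _).trans (max_le (hP.trans (Nat.le_succ m)) ?_)
      exact Polynomial.natDegree_C_mul_X_pow_le c (m + 1)
    · have := hPe τ
      simp only [Polynomial.eval_add, Polynomial.eval_mul, Polynomial.eval_C, Polynomial.eval_pow,
        Polynomial.eval_X]
      rw [← this]
      ring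

end FA24
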