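import Fermat.Agent.X0Genus.DefsAn

open UpperHalfPlane ModularForm EisensteinSeries Function CongruenceSubgroup FA_IS
open scoped Manifold MatrixGroups Real Topology

namespace FA24

/-! ### AN3 : `Taylor.lean` -/

lemma analyticAt_comp_ofComplex {f : ℍ → ℂ} (hf : MDiff f) (τ₀ : ℍ) :
    AnalyticAt ℂ (f ∘ ofComplex) (τ₀ : ℂ) :=
  (UpperHalfPlane.mdifferentiable_iff.mp hf).analyticAt
    (isOpen_upperHalfPlaneSet.mem_nhds τ₀.im_pos)

lemma coeff_tay (τ₀ : ℍ) (f : ℍ → ℂ) (n : ℕ) :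
    PowerSeries.coeff n (tay τ₀ f) =
      ((n.factorial : ℂ))⁻¹ * iteratedDeriv n (f ∘ ofComplex) (τ₀ : ℂ) := by
  simp [tay]

theorem tay_add (τ₀ : ℍ) {f g : ℍ → ℂ} (hf : MDiff f) (hg : MDiff g) :
    tay τ₀ (f + g) = tay τ₀ f + tay τ₀ g := by
  ext n
  have h : (f + g) ∘ ofComplex = f ∘ ofComplex + g ∘ ofComplex := rfl
  rw [map_add, coeff_tay, coeff_tay, coeff_tay, h,
    iteratedDeriv_add (analyticAt_comp_ofComplex hf τ₀).contDiffAt
      (analyticAt_comp_ofComplex hg τ₀).contDiffAt, mul_add]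

theorem tay_mul (τ₀ : ℍ) {f g : ℍ → ℂ} (hf : MDiff f) (hg : MDiff g) :
    tay τ₀ (f * g) = tay τ₀ f * tay τ₀ g := by
  ext n
  have h : (f * g) ∘ ofComplex = f ∘ ofComplex * g ∘ ofComplex := rfl
  simp only [coeff_tay, h, iteratedDeriv_mul (analyticAt_comp_ofComplex hf τ₀).contDiffAt
      (analyticAt_comp_ofComplex hg τ₀).contDiffAt, Finset.mul_sum, PowerSeries.coeff_mul,
    Finset.Nat.sum_antidiagonal_eq_sum_range_succ_mk, Nat.succ_eq_add_one]
  refine Finset.sum_congr rfl fun i hi ↦ ?_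
  rw [Nat.cast_choose _ (by grind)]
  field_simp [Nat.factorial_ne_zero]

theorem tay_const (τ₀ : ℍ) (c : ℂ) : tay τ₀ (fun _ => c) = PowerSeries.C c := by
  ext n
  have h : (fun _ : ℍ => c) ∘ ofComplex = fun _ : ℂ => c := rfl
  rw [coeff_tay, h, PowerSeries.coeff_C, iteratedDeriv_const]
  split_ifs with h0
  · simp [h0]
  · simp

/-- the order of the Taylor series is the analytic order. -/
theorem order_tay (τ₀ : ℍ) {f : ℍ → ℂ} (hf : MDiff f) :
    (tay τ₀ f).order = analyticOrderAt (f ∘ ofComplex) (τ₀ : ℂ) := by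
  apply ENat.eq_of_forall_natCast_le_iff
  intro n
  rw [natCast_le_analyticOrderAt_iff_iteratedDeriv_eq_zero (analyticAt_comp_ofComplex hf τ₀)]
  constructor
  · intro h i hi
    have := PowerSeries.coeff_of_lt_order i (lt_of_lt_of_le (by exact_mod_cast hi) h)
    rw [coeff_tay] at this
    rcases mul_eq_zero.mp this with h0 | h0
    · exact absurd h0 (inv_ne_zero (by exact_mod_cast Nat.factorial_ne_zero i))
    · exact h0
  · intro h
    apply PowerSeries.nat_le_order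
    intro i hi
    rw [coeff_tay, h i hi, mul_zero]

theorem tay_eq_zero_iff (τ₀ : ℍ) {f : ℍ → ℂ} (hf : MDiff f) : tay τ₀ f = 0 ↔ f = 0 := by
  constructor
  · intro h
    have h1 : analyticOrderAt (f ∘ ofComplex) (τ₀ : ℂ) = ⊤ := by
      rw [← order_tay τ₀ hf, h, PowerSeries.order_zero]
    rw [analyticOrderAt_eq_top] at h1
    apply UpperHalfPlane.eq_zero_of_frequently hf (τ := τ₀)
    apply Filter.Eventually.frequently
    rw [eventually_nhdsWithin_iff]
    rw [← isOpenEmbedding_coe.map_nhds_eq, Filter.eventually_map] at h1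
    filter_upwards [h1] with a ha _
    simpa using ha
  · rintro rfl
    have := tay_const τ₀ 0
    rw [map_zero] at this
    exact this

theorem constantCoeff_tay (τ₀ : ℍ) (f : ℍ → ℂ) : PowerSeries.constantCoeff (tay τ₀ f) = f τ₀ := by
  rw [← PowerSeries.coeff_zero_eq_constantCoeff_apply, coeff_tay]
  simp

/-- the order of the Taylor series in terms of derivatives -/
theorem coeff_one_tay (τ₀ : ℍ) (f : ℍ → ℂ) :
    PowerSeries.coeff 1 (tay τ₀ f) = deriv (f ∘ ofComplex) (τ₀ : ℂ) := by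
  rw [coeff_tay]
  simp

lemma det_SL_eq (s : SL(2, ℤ)) : ((s : GL (Fin 2) ℝ)).val.det = 1 :=
  (Matrix.SpecialLinearGroup.map (Int.castRingHom ℝ) s).det_coe

lemma det_SL_pos (s : SL(2, ℤ)) : 0 < ((s : GL (Fin 2) ℝ)).val.det := by
  rw [det_SL_eq]
  exact one_pos

theorem order_tay_comp (s : SL(2, ℤ)) (τ₀ : ℍ) (hs : s • τ₀ = τ₀) {f : ℍ → ℂ} (hf : MDiff f) :
    (tay τ₀ (fun τ => f (s • τ))).order = (tay τ₀ f).order := by
  have hf2 : MDiff (fun τ => f (s • τ)) :=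
    hf.comp (UpperHalfPlane.mdifferentiable_smul (g := (s : GL (Fin 2) ℝ)) (det_SL_pos s))
  rw [order_tay τ₀ hf, order_tay τ₀ hf2]
  have h : (fun τ => f (s • τ)) ∘ ofComplex =
      (f ∘ ofComplex) ∘ (fun z ↦ ↑((s : GL (Fin 2) ℝ) • ofComplex z) : ℂ → ℂ) := by
    funext z
    simp
  rw [h, analyticOrderAt_comp_of_deriv_ne_zero (τ₀.analyticAt_smul (det_SL_pos s))
    (τ₀.deriv_smul_ne_zero (det_SL_pos s))]
  congr 1
  rw [ofComplex_apply, ← ModularGroup.sl_moeb, hs]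


/-- orders of functions invariant under an elliptic element -/
theorem tay_multiplier (s : SL(2, ℤ)) (τ₀ : ℍ) (hs : s • τ₀ = τ₀) {f : ℍ → ℂ} (hf : MDiff f)
    (hf0 : f ≠ 0) (hinv : ∀ τ, f (s • τ) = f τ) :
    (denom s τ₀) ^ (2 * (tay τ₀ f).order.toNat) = 1 := by
  set F : ℂ → ℂ := f ∘ ofComplex with hF
  set G : ℂ → ℂ := (fun z ↦ ↑((s : GL (Fin 2) ℝ) • ofComplex z) : ℂ → ℂ) with hG
  have hFa : AnalyticAt ℂ F τ₀ := analyticAt_comp_ofComplex hf τ₀
  have hGa : AnalyticAt ℂ G τ₀ := τ₀.analyticAt_smul (det_SL_pos s)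
  have hG0 : G τ₀ = τ₀ := by
    simp only [hG]
    rw [ofComplex_apply, ← ModularGroup.sl_moeb, hs]
  have hGd : deriv G τ₀ = 1 / denom s τ₀ ^ 2 := by
    rw [hG, τ₀.deriv_smul (det_SL_pos s), det_SL_eq]
    simp
  have hFG : ∀ z, F (G z) = F z := by
    intro z
    simp only [hF, hG, comp_apply, ofComplex_apply]
    exact hinv _
  have hne : (tay τ₀ f).order ≠ ⊤ := by
    rw [Ne, PowerSeries.order_eq_top, tay_eq_zero_iff τ₀ hf]
    exact hf0
  set n := (tay τ₀ f).order.toNat with hn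
  have hord : analyticOrderAt F τ₀ = n := by
    rw [← order_tay τ₀ hf, hn, ENat.natCast_toNat hne]
  obtain ⟨g, hga, hg0, hg⟩ := (hFa.analyticOrderAt_eq_natCast).mp hord
  have h1 : ∀ᶠ z in 𝓝 (τ₀ : ℂ), F (G z) = (G z - τ₀) ^ n • g (G z) := by
    have := hGa.continuousAt.tendsto
    rw [hG0] at this
    exact this.eventually hg
  have h2 : ∀ᶠ z in 𝓝[≠] (τ₀ : ℂ), (dslope G τ₀ z) ^ n * g (G z) = g z := by
    rw [eventually_nhdsWithin_iff]
    filter_upwards [h1, hg] with z hz1 hz2 hz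
    have hz' : z - τ₀ ≠ 0 := sub_ne_zero.mpr hz
    have h3 : G z - τ₀ = (z - τ₀) * dslope G τ₀ z := by
      have := sub_smul_dslope G (τ₀ : ℂ) z
      rw [hG0, smul_eq_mul] at this
      exact this.symm
    rw [hFG, hz2, h3, mul_pow, smul_eq_mul, smul_eq_mul, mul_assoc] at hz1
    exact (mul_left_cancel₀ (pow_ne_zero n hz') hz1).symm
  have h4 : Filter.Tendsto (fun z => (dslope G τ₀ z) ^ n * g (G z)) (𝓝[≠] (τ₀ : ℂ))
      (𝓝 ((deriv G τ₀) ^ n * g τ₀)) := by
    have hd : ContinuousAt (dslope G τ₀) τ₀ := continuousAt_dslope_same.mpr hGa.differentiableAt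
    have hgG : ContinuousAt (fun z => g (G z)) τ₀ := by
      apply ContinuousAt.comp (g := g)
      · rw [hG0]; exact hga.continuousAt
      · exact hGa.continuousAt
    have := ((hd.pow n).mul hgG).tendsto
    have he : ((dslope G τ₀ ^ n * fun z => g (G z)) (τ₀ : ℂ)) = (deriv G τ₀) ^ n * g τ₀ := by
      simp only [Pi.mul_apply, Pi.pow_apply, dslope_same, hG0]
    rw [he] at this
    exact this.mono_left nhdsWithin_le_nhds
  have h5 : Filter.Tendsto (fun z => (dslope G τ₀ z) ^ n * g (G z)) (𝓝[≠] (τ₀ : ℂ))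
      (𝓝 (g τ₀)) :=
    (hga.continuousAt.tendsto.mono_left nhdsWithin_le_nhds).congr' (h2.mono fun z hz => hz.symm)
  have h6 := tendsto_nhds_unique h4 h5
  have h7 : (deriv G τ₀) ^ n = 1 := by
    apply mul_right_cancel₀ hg0
    rw [h6, one_mul]
  rw [hGd, div_pow, one_pow, ← pow_mul] at h7
  have h8 : denom s τ₀ ^ (2 * n) ≠ 0 := pow_ne_zero _ (denom_ne_zero _ _)
  field_simp at h7
  exact h7.symm

end FA24
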