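import Fermat.Agent.X0Genus.JFun
import Fermat.Agent.X0Genus.Taylor

open UpperHalfPlane ModularForm EisensteinSeries Function CongruenceSubgroup FA_IS
open scoped Manifold MatrixGroups Real Topology

namespace FA24

open Derivative

/-! ### AN2 : `JOrd.lean` (uses AN1, AN3) -/

/-- Cauchy estimate on horizontal half planes. -/
lemma norm_deriv_le_of_bound {F : ℍ → ℂ} (hF : MDiff F) {A M : ℝ} (hA : 0 < A)
    (hM : ∀ τ : ℍ, A ≤ τ.im → ‖F τ‖ ≤ M) (τ : ℍ) (hτ : A + 1 ≤ τ.im) :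
    ‖deriv (F ∘ ofComplex) τ‖ ≤ M := by
  have hsub : ∀ z ∈ Metric.closedBall (τ : ℂ) 1, A ≤ z.im := by
    intro z hz
    have h1 : |(z - τ).im| ≤ ‖z - τ‖ := Complex.abs_im_le_norm _
    have h2 : ‖z - τ‖ ≤ 1 := by simpa [dist_eq_norm] using hz
    have h3 := (abs_le.mp (h1.trans h2)).1
    simp only [Complex.sub_im, coe_im] at h3
    linarith
  have hd : DifferentiableOn ℂ (F ∘ ofComplex) (Metric.closedBall (τ : ℂ) 1) :=
    (UpperHalfPlane.mdifferentiable_iff.mp hF).mono fun z hz => lt_of_lt_of_le hA (hsub z hz)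
  have := Complex.norm_deriv_le_of_forall_mem_sphere_norm_le (c := (τ : ℂ)) (R := 1) (C := M)
    (f := F ∘ ofComplex) one_pos (hd.diffContOnCl_ball subset_rfl) (by
      intro z hz
      have hz' := hsub z (Metric.sphere_subset_closedBall hz)
      have hz0 : 0 < z.im := lt_of_lt_of_le hA hz'
      rw [comp_apply, ofComplex_apply_of_im_pos hz0]
      exact hM _ hz')
  simpa using this

lemma norm_D_le {F : ℍ → ℂ} (τ : ℍ) : ‖D F τ‖ ≤ ‖deriv (F ∘ ofComplex) τ‖ := by
  unfold normalizedDerivOfComplex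
  rw [norm_mul]
  have : ‖(2 * (π : ℂ) * Complex.I)⁻¹‖ ≤ 1 := by
    rw [norm_inv, norm_mul, norm_mul, Complex.norm_I, mul_one, Complex.norm_ofNat,
      Complex.norm_real, Real.norm_eq_abs, abs_of_pos Real.pi_pos]
    apply inv_le_one_of_one_le₀
    nlinarith [Real.pi_gt_three]
  exact mul_le_of_le_one_left (norm_nonneg _) this

lemma D_bdd {F : ℍ → ℂ} (hF : MDiff F) (hb : IsBoundedAtImInfty F) : IsBoundedAtImInfty (D F) := by
  rw [UpperHalfPlane.isBoundedAtImInfty_iff] at hb ⊢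
  obtain ⟨M, A, h⟩ := hb
  refine ⟨M, max A 1 + 1, fun τ hτ => (norm_D_le τ).trans ?_⟩
  exact norm_deriv_le_of_bound hF (A := max A 1) (by positivity)
    (fun z hz => h z ((le_max_left _ _).trans hz)) τ hτ

lemma D_zero {F : ℍ → ℂ} (hF : MDiff F) (hb : IsZeroAtImInfty F) : IsZeroAtImInfty (D F) := by
  rw [UpperHalfPlane.isZeroAtImInfty_iff] at hb ⊢
  intro ε hε
  obtain ⟨A, h⟩ := hb ε hε
  refine ⟨max A 1 + 1, fun τ hτ => (norm_D_le τ).trans ?_⟩
  exact norm_deriv_le_of_bound hF (A := max A 1) (by positivity)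
    (fun z hz => h z ((le_max_left _ _).trans hz)) τ hτ

/-- `D j` has weight two. -/
lemma D_jf_smul (γ : SL(2, ℤ)) (τ : ℍ) : D jf (γ • τ) = denom γ τ ^ (2 : ℤ) * D jf τ := by
  have h0 : jf ∣[(0 : ℤ)] γ = jf := by
    funext z
    rw [SL_slash_apply, jf_smul]
    simp
  have h := normalizedDerivOfComplex_SL_slash (k := 0) jf_mdiff (γ := γ)
  rw [h0] at h
  have h1 := congr_fun h τ
  simp only [Int.cast_zero, zero_mul, Pi.sub_apply, sub_zero, zero_add] at h1
  rw [SL_slash_apply] at h1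
  rw [h1, mul_comm, mul_assoc, ← zpow_add₀ (denom_ne_zero _ _)]
  simp


/-- division of a form vanishing at infinity by `Δ` -/
lemma exists_div_disc {k k' : ℤ} (hk : k' = k - 12) (G : ModularForm 𝒮ℒ k)
    (h0 : IsZeroAtImInfty G) :
    ∃ H : ModularForm 𝒮ℒ k', ∀ τ, G τ = ModularForm.discriminant τ * H τ := by
  subst hk
  have hc : (qExpansion 1 G).coeff 0 = 0 := by
    have h1 := (Nice.of_modularForm (h := 1) G one_pos one_mem_strictPeriods_SL).tendsto one_pos
    exact tendsto_nhds_unique h1 h0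
  refine ⟨CuspForm.discriminantEquiv (toCuspForm G hc), fun τ => ?_⟩
  rw [discriminant_mul_discriminantEquiv_apply, toCuspForm_apply]

lemma nice_E₆ : Nice 1 (⇑E₆) := Nice.of_modularForm (h := 1) E₆ one_pos one_mem_strictPeriods_SL

lemma E₆_tendsto : Filter.Tendsto (⇑E₆) atImInfty (nhds 1) := by
  have h := nice_E₆.tendsto one_pos
  rwa [E_qExpansion_coeff_zero _ ⟨3, rfl⟩] at h

lemma disc_sq_mul_D_jf : (fun τ => ModularForm.discriminant τ ^ 2 * D jf τ) =
    D (⇑E₄ ^ 3) * ModularForm.discriminant - ⇑E₄ ^ 3 * D ModularForm.discriminant := by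
  have h1 : (⇑E₄ : ℍ → ℂ) ^ 3 = jf * ModularForm.discriminant := by
    funext τ
    simp only [Pi.pow_apply, Pi.mul_apply, jf]
    rw [div_mul_cancel₀ _ (discriminant_ne_zero τ)]
  rw [h1, normalizedDerivOfComplex_mul jf _ jf_mdiff disc_mdiff]
  funext τ
  simp only [Pi.sub_apply, Pi.mul_apply, Pi.add_apply]
  ring

/-- `Δ · D j` is a modular form of weight `14`. -/
lemma exists_form_disc_mul_D_jf :
    ∃ H : ModularForm 𝒮ℒ 14, ∀ τ, H τ = ModularForm.discriminant τ * D jf τ := by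
  have hz : IsZeroAtImInfty (fun τ => ModularForm.discriminant τ ^ 2 * D jf τ) := by
    rw [disc_sq_mul_D_jf, sub_eq_add_neg]
    refine Filter.ZeroAtFilter.add ?_ (Filter.ZeroAtFilter.neg ?_)
    · exact Filter.BoundedAtFilter.mul_zeroAtFilter (D_bdd (E₄.holo'.pow 3) (nice_E₄.pow 3).bdd)
        discriminant_isZeroAtImInfty
    · exact Filter.BoundedAtFilter.mul_zeroAtFilter (nice_E₄.pow 3).bdd
        (D_zero disc_mdiff discriminant_isZeroAtImInfty)
  obtain ⟨G, hG⟩ := exists_form 26 (fun τ => ModularForm.discriminant τ ^ 2 * D jf τ)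
    ((disc_mdiff.pow 2).mul (normalizedDerivOfComplex_mdifferentiable jf_mdiff)) (by
      intro γ τ
      rw [disc_smul, D_jf_smul, mul_pow, ← zpow_natCast, ← zpow_mul,
        show (26 : ℤ) = 12 * ((2 : ℕ) : ℤ) + 2 by norm_num, zpow_add₀ (denom_ne_zero _ _)]
      ring) (Filter.ZeroAtFilter.boundedAtFilter hz)
  obtain ⟨H, hH⟩ := exists_div_disc (k' := 14) (by norm_num) G (by rw [hG]; exact hz)
  refine ⟨H, fun τ => ?_⟩
  have h1 := hH τ
  rw [hG] at h1
  apply mul_left_cancel₀ (discriminant_ne_zero τ)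
  rw [← h1]
  ring

lemma form_weight_two_eq_zero (f : ModularForm 𝒮ℒ 2) : f = 0 :=
  rank_zero_iff_forall_zero.mp levelOne_weight_two_rank_zero f

/-- `D j = c E₄² E₆ / Δ`. -/
lemma exists_D_jf_eq : ∃ c : ℂ, ∀ τ, D jf τ = c * (E₄ τ ^ 2 * E₆ τ) / ModularForm.discriminant τ := by
  obtain ⟨H, hH⟩ := exists_form_disc_mul_D_jf
  obtain ⟨E, hE⟩ := exists_form 14 (⇑E₄ ^ 2 * ⇑E₆) ((E₄.holo'.pow 2).mul E₆.holo') (by
      intro γ τ
      simp only [Pi.mul_apply, Pi.pow_apply]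
      rw [form_smul E₄ γ τ, form_smul E₆ γ τ, mul_pow, ← zpow_natCast, ← zpow_mul,
        show (14 : ℤ) = 4 * ((2 : ℕ) : ℤ) + 6 by norm_num, zpow_add₀ (denom_ne_zero _ _)]
      ring) ((nice_E₄.pow 2).mul nice_E₆).bdd
  have hEt : Filter.Tendsto E atImInfty (nhds 1) := by
    rw [hE]
    have := (E₄_tendsto.pow 2).mul E₆_tendsto
    rw [one_pow, one_mul] at this
    exact this
  set c : ℂ := (qExpansion 1 H).coeff 0 with hc
  have hHt : Filter.Tendsto H atImInfty (nhds c) :=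
    (Nice.of_modularForm (h := 1) H one_pos one_mem_strictPeriods_SL).tendsto one_pos
  have hz : IsZeroAtImInfty (⇑(H - c • E)) := by
    have := hHt.sub (hEt.const_mul c)
    simp only [mul_one, sub_self] at this
    exact this
  obtain ⟨H₂, hH₂⟩ := exists_div_disc (k' := 2) (by norm_num) (H - c • E) hz
  refine ⟨c, fun τ => ?_⟩
  have h1 := hH₂ τ
  rw [form_weight_two_eq_zero H₂] at h1
  have hEτ := congr_fun hE τ
  simp only [sub_apply, smul_apply, zero_apply, mul_zero, smul_eq_mul, Pi.mul_apply,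
    Pi.pow_apply] at h1 hEτ
  rw [eq_div_iff (discriminant_ne_zero τ), mul_comm, ← hH τ, ← hEτ]
  linear_combination h1


lemma E₄_mdiff : MDiff (⇑E₄) := ModularFormClass.holo E₄

lemma E₆_mdiff : MDiff (⇑E₆) := ModularFormClass.holo E₆

lemma jf_sub_const_mdiff (c : ℂ) : MDiff (fun τ => jf τ - c) :=
  jf_mdiff.sub mdifferentiable_const

lemma two_pi_I_ne : (2 * (π : ℂ) * Complex.I) ≠ 0 := by
  simp [Real.pi_ne_zero]

lemma deriv_eq_of_D {F : ℍ → ℂ} (τ : ℍ) :
    deriv (F ∘ ofComplex) τ = 2 * π * Complex.I * D F τ := by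
  unfold normalizedDerivOfComplex
  rw [mul_inv_cancel_left₀ two_pi_I_ne]

lemma eventually_uhp (τ₀ : ℍ) : ∀ᶠ z in 𝓝 (τ₀ : ℂ), 0 < z.im :=
  isOpen_upperHalfPlaneSet.mem_nhds τ₀.im_pos

lemma order_sub_eq (τ₀ : ℍ) : (tay τ₀ (fun τ => jf τ - jf τ₀)).order =
    analyticOrderAt (deriv (jf ∘ ofComplex)) (τ₀ : ℂ) + 1 := by
  rw [order_tay τ₀ (jf_sub_const_mdiff _),
    (analyticAt_comp_ofComplex jf_mdiff τ₀).analyticOrderAt_deriv_add_one]
  congr 1
  funext z
  simp

lemma exists_D_jf_eq' : ∃ c : ℂ, c ≠ 0 ∧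
    ∀ τ, D jf τ = c * (E₄ τ ^ 2 * E₆ τ) / ModularForm.discriminant τ := by
  obtain ⟨c, hc⟩ := exists_D_jf_eq
  refine ⟨c, ?_, hc⟩
  rintro rfl
  have h1 : analyticOrderAt (deriv (jf ∘ ofComplex)) (UpperHalfPlane.I : ℂ) = ⊤ := by
    rw [analyticOrderAt_eq_top]
    filter_upwards [eventually_uhp UpperHalfPlane.I] with z hz
    have := deriv_eq_of_D (F := jf) ⟨z, hz⟩
    rw [hc] at this
    simpa using this
  have h2 := order_sub_eq UpperHalfPlane.I
  rw [h1, top_add, PowerSeries.order_eq_top,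
    tay_eq_zero_iff _ (jf_sub_const_mdiff _)] at h2
  obtain ⟨a, ha⟩ := jf_surjective 0
  obtain ⟨b, hb⟩ := jf_surjective 1
  have h3 := congr_fun h2 a
  have h4 := congr_fun h2 b
  simp only [Pi.zero_apply, ha, hb] at h3 h4
  have : (0 : ℂ) = 1 := by linear_combination h3 - h4
  exact zero_ne_one this

lemma order_deriv_jf (τ₀ : ℍ) : analyticOrderAt (deriv (jf ∘ ofComplex)) (τ₀ : ℂ) =
    2 * analyticOrderAt (⇑E₄ ∘ ofComplex) (τ₀ : ℂ) + analyticOrderAt (⇑E₆ ∘ ofComplex) (τ₀ : ℂ) := by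
  obtain ⟨c, hc0, hc⟩ := exists_D_jf_eq'
  have h4 := analyticAt_comp_ofComplex E₄_mdiff τ₀
  have h6 := analyticAt_comp_ofComplex E₆_mdiff τ₀
  have hd := analyticAt_comp_ofComplex disc_mdiff τ₀
  have hJ := (analyticAt_comp_ofComplex jf_mdiff τ₀).deriv
  have hcst : AnalyticAt ℂ (fun _ : ℂ => 2 * π * Complex.I * c) (τ₀ : ℂ) := analyticAt_const
  have key : deriv (jf ∘ ofComplex) * (ModularForm.discriminant ∘ ofComplex) =ᶠ[𝓝 (τ₀ : ℂ)]
      (fun _ : ℂ => 2 * π * Complex.I * c) * ((⇑E₄ ∘ ofComplex) ^ 2 * (⇑E₆ ∘ ofComplex)) := by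
    filter_upwards [eventually_uhp τ₀] with z hz
    have := deriv_eq_of_D (F := jf) ⟨z, hz⟩
    rw [hc] at this
    simp only [Pi.mul_apply, Pi.pow_apply, comp_apply, ofComplex_apply_of_im_pos hz]
    change deriv (jf ∘ ofComplex) z = _ at this
    rw [this]
    have hne := discriminant_ne_zero ⟨z, hz⟩
    field_simp
  have h1 := analyticOrderAt_congr key
  rw [analyticOrderAt_mul hJ hd, analyticOrderAt_mul hcst ((h4.pow 2).mul h6),
    analyticOrderAt_mul (h4.pow 2) h6, analyticOrderAt_pow h4,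
    hd.analyticOrderAt_eq_zero.mpr (by simpa using discriminant_ne_zero τ₀),
    hcst.analyticOrderAt_eq_zero.mpr (mul_ne_zero two_pi_I_ne hc0)] at h1
  simpa using h1

theorem order_tay_jf_generic (τ₀ : ℍ) (h0 : jf τ₀ ≠ 0) (h1 : jf τ₀ ≠ 1728) :
    (tay τ₀ (fun τ => jf τ - jf τ₀)).order = 1 := by
  have h4 : E₄ τ₀ ≠ 0 := by
    intro h
    apply h0
    simp [jf, h]
  have h6 : E₆ τ₀ ≠ 0 := by
    intro h
    apply h1
    have := jf_sub τ₀
    rw [h] at this
    simp only [ne_eq, OfNat.ofNat_ne_zero, not_false_eq_true, zero_pow, zero_div] at this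
    linear_combination this
  rw [order_sub_eq, order_deriv_jf,
    (analyticAt_comp_ofComplex E₄_mdiff τ₀).analyticOrderAt_eq_zero.mpr (by simpa using h4),
    (analyticAt_comp_ofComplex E₆_mdiff τ₀).analyticOrderAt_eq_zero.mpr (by simpa using h6)]
  simp


lemma E₆_I : E₆ UpperHalfPlane.I = 0 := by
  have hS : ModularGroup.S • UpperHalfPlane.I = UpperHalfPlane.I :=
    ModularGroup.stabilizer_I.mpr (by simp)
  have h := form_smul E₆ ModularGroup.S UpperHalfPlane.I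
  rw [hS, ModularGroup.denom_S] at h
  have h6 : ((UpperHalfPlane.I : ℍ) : ℂ) ^ (6 : ℤ) = -1 := by
    rw [UpperHalfPlane.coe_I]
    have : (Complex.I) ^ (6 : ℤ) = Complex.I ^ (6 : ℕ) := by norm_cast
    rw [this, show (6 : ℕ) = 2 * 3 by norm_num, pow_mul, Complex.I_sq]
    norm_num
  rw [h6] at h
  have : (2 : ℂ) * E₆ UpperHalfPlane.I = 0 := by linear_combination h
  simpa using this

lemma E₄_rho : E₄ UpperHalfPlane.ρ = 0 := by
  have hS : (ModularGroup.S * ModularGroup.T) • UpperHalfPlane.ρ = UpperHalfPlane.ρ :=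
    ModularGroup.stabilizer_ρ.mpr (by simp)
  have h := form_smul E₄ (ModularGroup.S * ModularGroup.T) UpperHalfPlane.ρ
  rw [hS] at h
  have hden : denom (ModularGroup.S * ModularGroup.T : SL(2, ℤ)) UpperHalfPlane.ρ =
      (UpperHalfPlane.ρ : ℂ) + 1 := by
    rw [ModularGroup.denom_apply]
    have h10 : (ModularGroup.S * ModularGroup.T : SL(2, ℤ)) 1 0 = 1 := by
      rw [Matrix.SpecialLinearGroup.coe_mul, ModularGroup.coe_S, ModularGroup.coe_T]
      simp [Matrix.mul_apply, Fin.sum_univ_two]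
    have h11 : (ModularGroup.S * ModularGroup.T : SL(2, ℤ)) 1 1 = 1 := by
      rw [Matrix.SpecialLinearGroup.coe_mul, ModularGroup.coe_S, ModularGroup.coe_T]
      simp [Matrix.mul_apply, Fin.sum_univ_two]
    rw [h10, h11]
    simp
  rw [hden] at h
  have h4 : ((UpperHalfPlane.ρ : ℂ) + 1) ^ (4 : ℤ) = -(UpperHalfPlane.ρ : ℂ) - 1 := by
    have : ((UpperHalfPlane.ρ : ℂ) + 1) ^ (4 : ℤ) = ((UpperHalfPlane.ρ : ℂ) + 1) ^ (4 : ℕ) := by
      norm_cast
    rw [this]
    have h2 := UpperHalfPlane.ρ_sq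
    have h3 : ((UpperHalfPlane.ρ : ℂ) + 1) ^ 2 = UpperHalfPlane.ρ := by linear_combination h2
    rw [show (4 : ℕ) = 2 * 2 by norm_num, pow_mul, h3, h2]
  rw [h4] at h
  have h5 : ((UpperHalfPlane.ρ : ℂ) + 2) * E₄ UpperHalfPlane.ρ = 0 := by linear_combination h
  rcases mul_eq_zero.mp h5 with h6 | h6
  · exfalso
    have := congr_arg Complex.im h6
    simp only [Complex.add_im, coe_im, Complex.zero_im] at this
    have hp := UpperHalfPlane.ρ.im_pos
    norm_num at this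
    linarith
  · exact h6

theorem jf_I : jf UpperHalfPlane.I = 1728 := by
  have := jf_sub UpperHalfPlane.I
  rw [E₆_I] at this
  simp only [ne_eq, OfNat.ofNat_ne_zero, not_false_eq_true, zero_pow, zero_div] at this
  linear_combination this

theorem jf_rho : jf UpperHalfPlane.ρ = 0 := by
  simp [jf, E₄_rho]

lemma E₄_ne_zero : (⇑E₄ : ℍ → ℂ) ≠ 0 := by
  intro h
  have h1 := E₄_tendsto
  rw [h] at h1
  exact zero_ne_one (tendsto_nhds_unique tendsto_const_nhds h1)

lemma E₆_ne_zero : (⇑E₆ : ℍ → ℂ) ≠ 0 := by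
  intro h
  have h1 := E₆_tendsto
  rw [h] at h1
  exact zero_ne_one (tendsto_nhds_unique tendsto_const_nhds h1)

lemma order_ne_top {f : ℍ → ℂ} (hf : MDiff f) (h0 : f ≠ 0) (τ₀ : ℍ) :
    analyticOrderAt (f ∘ ofComplex) (τ₀ : ℂ) ≠ ⊤ := by
  rw [← order_tay τ₀ hf, Ne, PowerSeries.order_eq_top, tay_eq_zero_iff τ₀ hf]
  exact h0

theorem order_tay_jf_I : (tay UpperHalfPlane.I (fun τ => jf τ - 1728)).order = 2 := by
  have h1 := order_sub_eq UpperHalfPlane.I
  rw [jf_I, order_deriv_jf] at h1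
  have h4 : E₄ UpperHalfPlane.I ≠ 0 := by
    intro h
    have := jf_I
    simp [jf, h] at this
  have h6 := analyticAt_comp_ofComplex E₆_mdiff UpperHalfPlane.I
  have hd := analyticAt_comp_ofComplex disc_mdiff UpperHalfPlane.I
  have hJ := analyticAt_comp_ofComplex (jf_sub_const_mdiff 1728) UpperHalfPlane.I
  rw [(analyticAt_comp_ofComplex E₄_mdiff UpperHalfPlane.I).analyticOrderAt_eq_zero.mpr
    (by rw [comp_apply, ofComplex_apply]; exact h4), mul_zero, zero_add] at h1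
  have key : ((fun τ => jf τ - 1728) ∘ ofComplex) * (ModularForm.discriminant ∘ ofComplex) =
      (⇑E₆ ∘ ofComplex) ^ 2 := by
    funext z
    simp only [Pi.mul_apply, Pi.pow_apply, comp_apply]
    rw [jf_sub, div_mul_cancel₀ _ (discriminant_ne_zero _)]
  have h2 := congr_arg (fun f => analyticOrderAt f (UpperHalfPlane.I : ℂ)) key
  beta_reduce at h2
  rw [analyticOrderAt_mul hJ hd, analyticOrderAt_pow h6,
    hd.analyticOrderAt_eq_zero.mpr (by simpa using discriminant_ne_zero _), add_zero,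
    ← order_tay _ (jf_sub_const_mdiff 1728)] at h2
  obtain ⟨m, hm⟩ := ENat.ne_top_iff_exists.mp (order_ne_top E₆_mdiff E₆_ne_zero UpperHalfPlane.I)
  rw [← hm] at h1 h2
  rw [h1] at h2
  have h3 : m + 1 = 2 * m := by
    have : ((m + 1 : ℕ) : ℕ∞) = ((2 * m : ℕ) : ℕ∞) := by
      push_cast
      simpa using h2
    exact_mod_cast this
  have hm1 : m = 1 := by omega
  rw [h1, hm1]
  norm_num

theorem order_tay_jf_rho : (tay UpperHalfPlane.ρ jf).order = 3 := by
  have h1 := order_sub_eq UpperHalfPlane.ρ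
  rw [jf_rho, order_deriv_jf] at h1
  simp only [sub_zero] at h1
  have h6 : E₆ UpperHalfPlane.ρ ≠ 0 := by
    intro h
    have := jf_sub UpperHalfPlane.ρ
    rw [jf_rho, h] at this
    norm_num at this
  have h4 := analyticAt_comp_ofComplex E₄_mdiff UpperHalfPlane.ρ
  have hd := analyticAt_comp_ofComplex disc_mdiff UpperHalfPlane.ρ
  have hJ := analyticAt_comp_ofComplex jf_mdiff UpperHalfPlane.ρ
  rw [(analyticAt_comp_ofComplex E₆_mdiff UpperHalfPlane.ρ).analyticOrderAt_eq_zero.mpr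
    (by simpa using h6), add_zero] at h1
  have key : (jf ∘ ofComplex) * (ModularForm.discriminant ∘ ofComplex) =
      (⇑E₄ ∘ ofComplex) ^ 3 := by
    funext z
    simp only [Pi.mul_apply, Pi.pow_apply, comp_apply, jf]
    rw [div_mul_cancel₀ _ (discriminant_ne_zero _)]
  have h2 := congr_arg (fun f => analyticOrderAt f (UpperHalfPlane.ρ : ℂ)) key
  beta_reduce at h2
  rw [analyticOrderAt_mul hJ hd, analyticOrderAt_pow h4,
    hd.analyticOrderAt_eq_zero.mpr (by simpa using discriminant_ne_zero _), add_zero,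
    ← order_tay _ jf_mdiff] at h2
  obtain ⟨m, hm⟩ := ENat.ne_top_iff_exists.mp (order_ne_top E₄_mdiff E₄_ne_zero UpperHalfPlane.ρ)
  rw [← hm] at h1 h2
  have h1' : (tay UpperHalfPlane.ρ jf).order = 2 * (m : ℕ∞) + 1 := h1
  rw [h1'] at h2
  have h3 : 2 * m + 1 = 3 * m := by
    have : ((2 * m + 1 : ℕ) : ℕ∞) = ((3 * m : ℕ) : ℕ∞) := by
      push_cast
      simpa using h2
    exact_mod_cast this
  have hm1 : m = 1 := by omega
  rw [h1', hm1]
  norm_num

end FA24
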