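import Fermat.Agent.X0Genus.JFun
import Fermat.Agent.X0Genus.EtaProd

open UpperHalfPlane ModularForm EisensteinSeries Function CongruenceSubgroup FA_IS
open scoped Manifold MatrixGroups Real

set_option linter.unusedSectionVars false
set_option linter.unusedVariables false

namespace FA24

variable {N : ℕ} [NeZero N] {f g : ℍ → ℂ}

local notation "𝕢" => Periodic.qParam

/-! ### AN6 : `JTrans.lean` (uses AN1, AN4, AN5) -/

/-- `j` as a slash invariant form of weight `0`. -/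
noncomputable def jSIF : SlashInvariantForm 𝒮ℒ 0 where
  toFun := jf
  slash_action_eq' := by
    rintro _ ⟨γ, rfl⟩
    funext τ
    have : (jf ∣[(0 : ℤ)] γ) τ = jf τ := by
      rw [SL_slash_apply, jf_smul]
      simp
    exact this

lemma coe_jSIF : ⇑jSIF = jf := rfl

theorem jf_level_comp (d : ℕ) [NeZero d] (γ : SL(2, ℤ)) :
    ∃ (a e : ℕ) (b : ℤ), 0 < a ∧ 0 < e ∧ a * e = d ∧ (e = 1 ↔ γ ∈ Gamma0 d) ∧
      ∀ τ, jf (affPt d 1 0 (γ • τ)) = jf (affPt a e b τ) := by
  obtain ⟨a, e, b, ha, he, hae, h1, h2⟩ := compAff_slash jSIF d γ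
  refine ⟨a, e, b, ha, he, hae, h1, fun τ => ?_⟩
  have h3 := congr_fun h2 τ
  rw [SL_slash_apply] at h3
  simpa [compAff, coe_jSIF] using h3


local notation "Δ" => ModularForm.discriminant

lemma compAff_per {F : ℍ → ℂ} (hF : Function.Periodic (F ∘ ofComplex) (1 : ℂ)) {a e : ℕ}
    (ha : 0 < a) (he : 0 < e) (b : ℤ) {M : ℕ} (hM : a * e ∣ M) :
    Function.Periodic (compAff F a e b ∘ ofComplex) ((M : ℝ) : ℂ) := by
  have heC : (e : ℂ) ≠ 0 := by exact_mod_cast he.ne'
  obtain ⟨k, rfl⟩ := hM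
  intro w
  by_cases hw : 0 < w.im
  · have hw' : 0 < (w + (((a * e * k : ℕ) : ℝ) : ℂ)).im := by simpa using hw
    rw [compAff_comp_ofComplex F a e b hw', compAff_comp_ofComplex F a e b hw]
    have e1 : ((a : ℂ) * (w + (((a * e * k : ℕ) : ℝ) : ℂ)) + b) / e =
        ((a : ℂ) * w + b) / e + ((a ^ 2 * k : ℕ) : ℂ) * (1 : ℂ) := by
      push_cast
      field_simp
      ring
    rw [e1]
    exact (hF.nat_mul (a ^ 2 * k)) _
  · have hw1 : w.im ≤ 0 := not_lt.mp hw
    have hw' : (w + (((a * e * k : ℕ) : ℝ) : ℂ)).im ≤ 0 := by simpa using hw1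
    simp only [comp_apply]
    rw [ofComplex_apply_eq_of_im_nonpos hw' hw1]

lemma bdd_disc_ratio_aff {a e : ℕ} (ha : 0 < a) (he : 0 < e) (b : ℤ) :
    IsBoundedAtImInfty (Δ ^ a / compAff Δ a e b) := by
  have h1 := tendsto_atImInfty_tprod_one_sub_eta_q_pow
  have h2 := h1.comp (tendsto_affPt ha he b)
  have h3 := (h1.pow a).div h2 one_ne_zero
  have h4 : (Δ ^ a / compAff Δ a e b) = (fun τ : ℍ => 𝕢 1 τ ^ a / 𝕢 1 (affPt a e b τ)) *
      ((fun x : ℍ ↦ ∏' (n : ℕ), (1 - eta_q n x) ^ 24) ^ a /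
      ((fun x : ℍ ↦ ∏' (n : ℕ), (1 - eta_q n x) ^ 24) ∘ affPt a e b)) := by
    ext τ
    simp only [Pi.div_apply, Pi.pow_apply, Pi.mul_apply, compAff, comp_apply]
    rw [discriminant_eq_q_prod, discriminant_eq_q_prod, mul_pow, mul_div_mul_comm]
  rw [h4]
  refine Filter.BoundedAtFilter.mul ?_ (h3.isBigO_one ℝ)
  change IsBoundedAtImInfty _
  rw [UpperHalfPlane.isBoundedAtImInfty_iff]
  refine ⟨1, 0, fun τ _ => ?_⟩
  rw [norm_div, norm_pow, Periodic.norm_qParam, Periodic.norm_qParam, ← Real.exp_nat_mul,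
    ← Real.exp_sub]
  apply Real.exp_le_one_iff.mpr
  have him : ((affPt a e b τ : ℍ) : ℂ).im = a * τ.im / e := im_affPt ha he b τ
  rw [him]
  have h5 : (a : ℝ) * τ.im / e ≤ a * τ.im := by
    apply div_le_self
    · have := τ.im_pos; positivity
    · exact_mod_cast he
  have h6 : ((τ : ℍ) : ℂ).im = τ.im := rfl
  rw [h6]
  have := Real.pi_pos
  nlinarith

theorem meroInf_compAff_jf {a e : ℕ} (ha : 0 < a) (he : 0 < e) (b : ℤ) (hN : a * e ∣ N) :
    MeroInf N (compAff jf a e b) := by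
  refine ⟨compAff_per (by simpa using meroInf_jf.per) ha he b hN, compAff_mdiff jf_mdiff ha he b,
    ⟨a, ?_⟩⟩
  have e1 : compAff jf a e b * Δ ^ a = compAff (⇑E₄ ^ 3) a e b * (Δ ^ a / compAff Δ a e b) := by
    ext τ
    simp only [Pi.mul_apply, Pi.pow_apply, Pi.div_apply, compAff, jf]
    have := discriminant_ne_zero (affPt a e b τ)
    field_simp
  rw [e1]
  have hb' : IsBoundedAtImInfty (compAff (⇑E₄ ^ 3) a e b) :=
    (nice_E₄.pow 3).bdd.comp_tendsto (tendsto_affPt ha he b)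
  exact hb'.mul (bdd_disc_ratio_aff ha he b)


local notation "oPS" => HahnSeries.ofPowerSeries ℤ ℂ

lemma order_eq_of_coeff {x : LaurentSeries ℂ} {n : ℤ} (h1 : x.coeff n ≠ 0)
    (h2 : ∀ m < n, x.coeff m = 0) : x.order = n := by
  have hx : x ≠ 0 := by
    rintro rfl
    simp at h1
  apply le_antisymm (HahnSeries.order_le_of_coeff_ne_zero h1)
  rw [HahnSeries.le_order_iff_forall hx]
  exact h2

lemma zetaAff_ne_zero (d : ℕ) (b : ℤ) : zetaAff d b ≠ 0 := Complex.exp_ne_zero _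

/-- order of the `q_N`-expansion of `F((aτ+b)/e)` for `F` holomorphic at `i∞`. -/
lemma order_oPS_compAff {F : ℍ → ℂ} (hF : Nice 1 F) {a e : ℕ} (ha : 0 < a) (he : 0 < e) (b : ℤ)
    (hN : a * e = N) (k : ℕ) (hk : (qExpansion 1 F).order = k) :
    (oPS (qExpansion N (compAff F a e b))).order = (a : ℤ) ^ 2 * k := by
  rw [qExpansion_compAff hF ha he hN b]
  obtain ⟨hk1, hk2⟩ := PowerSeries.order_eq_nat.mp hk
  have ha2 : 0 < a ^ 2 := by positivity
  apply order_eq_of_coeff
  · have : ((a : ℤ) ^ 2 * k) = ((a ^ 2 * k : ℕ) : ℤ) := by push_cast; ring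
    rw [this, HahnSeries.ofPowerSeries_apply_coeff, PowerSeries.coeff_expand,
      if_pos (dvd_mul_right _ _), Nat.mul_div_cancel_left _ ha2, PowerSeries.coeff_rescale]
    exact mul_ne_zero (pow_ne_zero _ (zetaAff_ne_zero e b)) hk1
  · intro m hm
    rcases lt_or_ge m 0 with hm0 | hm0
    · have := PowerSeries.coeff_coe (R := ℂ) (f := (PowerSeries.expand (a ^ 2) (pow_ne_zero 2 ha.ne')
        (PowerSeries.rescale (zetaAff e b) (qExpansion 1 F)))) m
      rw [if_pos hm0] at this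
      exact this
    · lift m to ℕ using hm0
      rw [HahnSeries.ofPowerSeries_apply_coeff, PowerSeries.coeff_expand]
      split_ifs with hd
      · obtain ⟨c, rfl⟩ := hd
        rw [Nat.mul_div_cancel_left _ ha2, PowerSeries.coeff_rescale, hk2 c, mul_zero]
        have h3 : ((a ^ 2 * c : ℕ) : ℤ) < ((a ^ 2 * k : ℕ) : ℤ) := by
          push_cast
          push_cast at hm
          exact hm
        have h4 : a ^ 2 * c < a ^ 2 * k := by exact_mod_cast h3
        exact lt_of_mul_lt_mul_left h4 (Nat.zero_le _)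
      · rfl

theorem order_lau_compAff_jf {a e : ℕ} (ha : 0 < a) (he : 0 < e) (b : ℤ) (hN : a * e = N) :
    (lau N (compAff jf a e b)).order = -((a : ℤ) ^ 2) := by
  have hj := meroInf_compAff_jf (N := N) ha he b (dvd_of_eq hN)
  have hd : Nice (N : ℝ) (compAff Δ a e b) := compAff_nice nice_disc_one ha he hN b
  have h4 : Nice (N : ℝ) (compAff (⇑E₄ ^ 3) a e b) := compAff_nice (nice_E₄.pow 3) ha he hN b
  have e1 : compAff jf a e b * compAff Δ a e b = compAff (⇑E₄ ^ 3) a e b := by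
    ext τ
    simp only [Pi.mul_apply, Pi.pow_apply, compAff, jf]
    rw [div_mul_cancel₀ _ (discriminant_ne_zero _)]
  have h1 := lau_mul hj (MeroInf.of_nice hd)
  rw [e1, lau_of_nice hd, lau_of_nice h4] at h1
  have ho4 : (qExpansion 1 (⇑E₄ ^ 3)).order = (0 : ℕ) := by
    rw [PowerSeries.order_eq_nat]
    refine ⟨?_, fun i hi => absurd hi (Nat.not_lt_zero i)⟩
    rw [nice_E₄.qExpansion_pow one_pos, PowerSeries.coeff_zero_eq_constantCoeff, map_pow,
      ← PowerSeries.coeff_zero_eq_constantCoeff, E_qExpansion_coeff_zero _ ⟨2, rfl⟩, one_pow]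
    exact one_ne_zero
  have hod : (qExpansion 1 Δ).order = (1 : ℕ) := by
    rw [discriminant_qExpansion_order]
    rfl
  have h2 := order_oPS_compAff (N := N) (nice_E₄.pow 3) ha he b hN 0 ho4
  have h3 := order_oPS_compAff (N := N) nice_disc_one ha he b hN 1 hod
  have hne1 : lau N (compAff jf a e b) ≠ 0 := by
    rw [Ne, lau_eq_zero_iff hj]
    intro h0
    have h6 : compAff (⇑E₄ ^ 3) a e b = 0 := by
      rw [← e1, h0, zero_mul]
    have h7 : Filter.Tendsto (compAff (⇑E₄ ^ 3) a e b) atImInfty (nhds 1) := by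
      have := (E₄_tendsto.pow 3).comp (tendsto_affPt ha he b)
      rw [one_pow] at this
      exact this
    rw [h6] at h7
    exact zero_ne_one (tendsto_nhds_unique tendsto_const_nhds h7)
  have hne2 : oPS (qExpansion N (compAff Δ a e b)) ≠ 0 := by
    intro h0
    rw [h0] at h3
    simp only [HahnSeries.order_zero, Nat.cast_one, mul_one] at h3
    have : (0 : ℤ) < (a : ℤ) ^ 2 := by positivity
    omega
  rw [h1, HahnSeries.order_mul hne1 hne2, h3] at h2
  push_cast at h2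
  linarith


theorem mem_Gamma0_of_jf_level_invariant (γ : SL(2, ℤ))
    (h : ∀ τ, jf (affPt N 1 0 (γ • τ)) = jf (affPt N 1 0 τ)) : γ ∈ Gamma0 N := by
  obtain ⟨a, e, b, ha, he, hae, h1, h2⟩ := jf_level_comp N γ
  have hN : 0 < N := Nat.pos_of_ne_zero (NeZero.ne N)
  have h3 : compAff jf a e b = compAff jf N 1 0 := by
    funext τ
    simp only [compAff]
    rw [← h2, h]
  have h4 := order_lau_compAff_jf (N := N) ha he b hae
  have h5 := order_lau_compAff_jf (N := N) hN one_pos 0 (mul_one N)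
  rw [h3, h5] at h4
  have h6 : (N : ℤ) ^ 2 = (a : ℤ) ^ 2 := by linarith
  have h7 : N ^ 2 = a ^ 2 := by exact_mod_cast h6
  have h8 : N = a := Nat.pow_left_injective (n := 2) (by norm_num) h7
  rw [← h1]
  rw [← h8] at hae
  exact Nat.eq_of_mul_eq_mul_left hN (by rw [hae, mul_one])

end FA24
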