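import Fermat.Agent.X0Genus.JTrans
import Fermat.Agent.X0Genus.JOrd

/-! S24 bridge, part 1: the ring of modular functions for `Γ₀(N)` and its expansions. -/

open UpperHalfPlane ModularForm EisensteinSeries Function CongruenceSubgroup FA_IS
open scoped Manifold MatrixGroups Real

namespace FA24

variable (N : ℕ) [NeZero N]

/-- modular functions for `Γ₀(N)`: holomorphic on `ℍ`, meromorphic at all cusps. -/
def RN : Subring (ℍ → ℂ) where
  carrier := {g | (∀ γ ∈ Gamma0 N, ∀ τ, g (γ • τ) = g τ) ∧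
    ∀ γ : SL(2, ℤ), MeroInf N (fun τ => g (γ • τ))}
  mul_mem' := by
    rintro f g ⟨hf1, hf2⟩ ⟨hg1, hg2⟩
    exact ⟨fun γ hγ τ => by simp only [Pi.mul_apply, hf1 γ hγ τ, hg1 γ hγ τ],
      fun γ => (hf2 γ).mul (hg2 γ)⟩
  one_mem' := ⟨fun _ _ _ => rfl, fun _ => MeroInf.const N 1⟩
  add_mem' := by
    rintro f g ⟨hf1, hf2⟩ ⟨hg1, hg2⟩
    exact ⟨fun γ hγ τ => by simp only [Pi.add_apply, hf1 γ hγ τ, hg1 γ hγ τ],
      fun γ => (hf2 γ).add (hg2 γ)⟩
  zero_mem' := ⟨fun _ _ _ => rfl, fun _ => MeroInf.const N 0⟩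
  neg_mem' := by
    rintro f ⟨hf1, hf2⟩
    exact ⟨fun γ hγ τ => by simp only [Pi.neg_apply, hf1 γ hγ τ], fun γ => (hf2 γ).neg⟩

variable {N}

lemma RN.inv {g : ℍ → ℂ} (hg : g ∈ RN N) {γ : SL(2, ℤ)} (hγ : γ ∈ Gamma0 N) (τ : ℍ) :
    g (γ • τ) = g τ := hg.1 γ hγ τ

lemma RN.mero {g : ℍ → ℂ} (hg : g ∈ RN N) (γ : SL(2, ℤ)) : MeroInf N (fun τ => g (γ • τ)) :=
  hg.2 γ

lemma RN.mero_self {g : ℍ → ℂ} (hg : g ∈ RN N) : MeroInf N g := by
  simpa using hg.2 1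

lemma RN.mdiff {g : ℍ → ℂ} (hg : g ∈ RN N) : MDiff g := (RN.mero_self hg).hol

lemma const_mem_RN (c : ℂ) : (fun _ => c : ℍ → ℂ) ∈ RN N :=
  ⟨fun _ _ _ => rfl, fun _ => MeroInf.const N c⟩

instance : IsDomain (RN N) := by
  haveI : NoZeroDivisors (RN N) := ⟨by
    rintro ⟨f, hf⟩ ⟨g, hg⟩ h
    have h' : f * g = 0 := congrArg Subtype.val h
    rcases (UpperHalfPlane.mul_eq_zero_iff (RN.mdiff hf) (RN.mdiff hg)).mp h' with h0 | h0
    · exact Or.inl (Subtype.ext h0)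
    · exact Or.inr (Subtype.ext h0)⟩
  haveI : Nontrivial (RN N) := ⟨⟨0, 1, fun h => by
    have := congrFun (congrArg Subtype.val h) UpperHalfPlane.I
    simp at this⟩⟩
  exact NoZeroDivisors.to_isDomain _

/-- the coset space -/
abbrev XN (N : ℕ) : Type := SL(2, ℤ) ⧸ Gamma0 N

noncomputable instance : Fintype (XN N) := Subgroup.fintypeQuotientOfFiniteIndex

/-- a representative of a coset -/
noncomputable def rep (k : XN N) : SL(2, ℤ) := Quotient.out k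

lemma mk_rep (k : XN N) : ((rep k : SL(2, ℤ)) : XN N) = k := QuotientGroup.out_eq' k

/-- the translate of `g` attached to the coset `k`. -/
noncomputable def trn (g : ℍ → ℂ) (k : XN N) : ℍ → ℂ := fun τ => g ((rep k)⁻¹ • τ)

lemma trn_eq_of_mk {g : ℍ → ℂ} (hg : g ∈ RN N) (γ : SL(2, ℤ)) :
    trn g ((γ : SL(2, ℤ)) : XN N) = fun τ => g (γ⁻¹ • τ) := by
  funext τ
  have h : (γ⁻¹ * rep ((γ : SL(2, ℤ)) : XN N)) ∈ Gamma0 N :=
    QuotientGroup.eq.mp (mk_rep ((γ : SL(2, ℤ)) : XN N)).symm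
  have h2 := RN.inv hg ((Gamma0 N).inv_mem h) (γ⁻¹ • τ)
  rw [← h2, trn, ← mul_smul]
  congr 2
  group

lemma trn_smul {g : ℍ → ℂ} (hg : g ∈ RN N) (s : SL(2, ℤ)) (k : XN N) :
    trn g (s • k) = fun τ => trn g k (s⁻¹ • τ) := by
  conv_lhs => rw [← mk_rep k]
  have : s • ((rep k : SL(2, ℤ)) : XN N) = ((s * rep k : SL(2, ℤ)) : XN N) := rfl
  rw [this, trn_eq_of_mk hg]
  funext τ
  rw [trn, mul_inv_rev, mul_smul]

lemma trn_mero {g : ℍ → ℂ} (hg : g ∈ RN N) (k : XN N) : MeroInf N (trn g k) := RN.mero hg _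

lemma trn_mdiff {g : ℍ → ℂ} (hg : g ∈ RN N) (k : XN N) : MDiff (trn g k) := (trn_mero hg k).hol

lemma trn_eq_zero {g : ℍ → ℂ} {k : XN N} (h : trn g k = 0) : g = 0 := by
  funext τ
  have := congrFun h (rep k • τ)
  simpa [trn] using this

/-- expansion at `i∞` of the translates -/
noncomputable def Einf (k : XN N) : RN N →+* LaurentSeries ℂ where
  toFun g := lau N (trn g.1 k)
  map_one' := by
    have : trn (1 : ℍ → ℂ) k = fun _ => 1 := rfl
    show lau N (trn (1 : ℍ → ℂ) k) = 1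
    rw [this, lau_const]
    simp
  map_mul' f g := lau_mul (trn_mero f.2 k) (trn_mero g.2 k)
  map_zero' := by
    have : trn (0 : ℍ → ℂ) k = fun _ => 0 := rfl
    show lau N (trn (0 : ℍ → ℂ) k) = 0
    rw [this, lau_const]
    simp
  map_add' f g := lau_add (trn_mero f.2 k) (trn_mero g.2 k)

lemma Einf_apply (k : XN N) (g : RN N) : Einf k g = lau N (trn g.1 k) := rfl

lemma Einf_injective (k : XN N) : Function.Injective (Einf k) := by
  rw [injective_iff_map_eq_zero]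
  intro g hg
  exact Subtype.ext (trn_eq_zero ((lau_eq_zero_iff (trn_mero g.2 k)).mp hg))

/-- Taylor expansion at `τ₀` of the translates -/
noncomputable def Etay (τ₀ : ℍ) (k : XN N) : RN N →+* LaurentSeries ℂ where
  toFun g := HahnSeries.ofPowerSeries ℤ ℂ (tay τ₀ (trn g.1 k))
  map_one' := by
    have : trn (1 : ℍ → ℂ) k = fun _ => 1 := rfl
    show HahnSeries.ofPowerSeries ℤ ℂ (tay τ₀ (trn (1 : ℍ → ℂ) k)) = 1
    rw [this, tay_const]
    simp
  map_mul' f g := by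
    show HahnSeries.ofPowerSeries ℤ ℂ (tay τ₀ (trn f.1 k * trn g.1 k)) = _
    rw [tay_mul τ₀ (trn_mdiff f.2 k) (trn_mdiff g.2 k), map_mul]
  map_zero' := by
    have : trn (0 : ℍ → ℂ) k = fun _ => 0 := rfl
    show HahnSeries.ofPowerSeries ℤ ℂ (tay τ₀ (trn (0 : ℍ → ℂ) k)) = 0
    rw [this, tay_const]
    simp
  map_add' f g := by
    show HahnSeries.ofPowerSeries ℤ ℂ (tay τ₀ (trn f.1 k + trn g.1 k)) = _
    rw [tay_add τ₀ (trn_mdiff f.2 k) (trn_mdiff g.2 k), map_add]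

lemma Etay_apply (τ₀ : ℍ) (k : XN N) (g : RN N) :
    Etay τ₀ k g = HahnSeries.ofPowerSeries ℤ ℂ (tay τ₀ (trn g.1 k)) := rfl

lemma Etay_injective (τ₀ : ℍ) (k : XN N) : Function.Injective (Etay τ₀ k) := by
  rw [injective_iff_map_eq_zero]
  intro g hg
  have h1 : tay τ₀ (trn g.1 k) = 0 := by
    apply HahnSeries.ofPowerSeries_injective (Γ := ℤ) (R := ℂ)
    rw [map_zero]
    exact hg
  exact Subtype.ext (trn_eq_zero ((tay_eq_zero_iff τ₀ (trn_mdiff g.2 k)).mp h1))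

end FA24
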