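import Fermat.Agent.X0Genus.ModFun

/-! S24 bridge, part 2: the functions `j(dτ)`, the `q`-expansion homomorphism. -/

open UpperHalfPlane ModularForm EisensteinSeries Function CongruenceSubgroup FA_IS
open scoped Manifold MatrixGroups Real

namespace FA24

variable {N : ℕ} [NeZero N]

lemma T_zpow_smul (n : ℤ) (τ : ℍ) : ModularGroup.T ^ n • τ = (n : ℝ) +ᵥ τ := by
  ext
  rw [ModularGroup.coe_T_zpow_smul_eq]
  simp [add_comm]

omit [NeZero N] in
lemma T_zpow_mem_Gamma0 (n : ℤ) : ModularGroup.T ^ n ∈ Gamma0 N := by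
  rw [Gamma0_mem, ModularGroup.coe_T_zpow]
  simp

lemma jf_vadd (b : ℤ) (τ : ℍ) : jf ((b : ℝ) +ᵥ τ) = jf τ := by
  rw [← T_zpow_smul]
  exact jf_smul _ _

lemma periodic_of_vadd {g : ℍ → ℂ} (h : ∀ τ : ℍ, g ((1 : ℝ) +ᵥ τ) = g τ) :
    Function.Periodic (g ∘ ofComplex) (((1 : ℕ) : ℝ) : ℂ) := by
  intro w
  by_cases hw : 0 < w.im
  · have hw' : 0 < (w + (((1 : ℕ) : ℝ) : ℂ)).im := by simpa using hw
    simp only [comp_apply, ofComplex_apply_of_im_pos hw', ofComplex_apply_of_im_pos hw]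
    rw [← h ⟨w, hw⟩]
    congr 1
    ext
    simp [add_comm]
  · have hw1 : w.im ≤ 0 := not_lt.mp hw
    have hw' : (w + (((1 : ℕ) : ℝ) : ℂ)).im ≤ 0 := by simpa using hw1
    simp only [comp_apply]
    rw [ofComplex_apply_eq_of_im_nonpos hw' hw1]

lemma RN.vadd {g : ℍ → ℂ} (hg : g ∈ RN N) (n : ℤ) (τ : ℍ) : g ((n : ℝ) +ᵥ τ) = g τ := by
  rw [← T_zpow_smul]
  exact RN.inv hg (T_zpow_mem_Gamma0 n) τ

lemma RN.mero_one {g : ℍ → ℂ} (hg : g ∈ RN N) : MeroInf 1 g :=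
  ⟨periodic_of_vadd fun τ => by simpa using RN.vadd hg 1 τ, RN.mdiff hg, (RN.mero_self hg).pole⟩

/-- the `q`-expansion homomorphism -/
noncomputable def Lam : RN N →+* LaurentSeries ℂ where
  toFun g := lau 1 g.1
  map_one' := by
    show lau 1 (fun _ => 1 : ℍ → ℂ) = 1
    rw [lau_const]
    simp
  map_mul' f g := lau_mul (RN.mero_one f.2) (RN.mero_one g.2)
  map_zero' := by
    show lau 1 (fun _ => 0 : ℍ → ℂ) = 0
    rw [lau_const]
    simp
  map_add' f g := lau_add (RN.mero_one f.2) (RN.mero_one g.2)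

lemma Lam_apply (g : RN N) : Lam g = lau 1 g.1 := rfl

lemma Lam_injective : Function.Injective (Lam (N := N)) := by
  rw [injective_iff_map_eq_zero]
  intro g hg
  exact Subtype.ext ((lau_eq_zero_iff (RN.mero_one g.2)).mp hg)

/-- `j(dτ)` -/
noncomputable def jd (d : ℕ) : ℍ → ℂ := compAff jf d 1 0

lemma affPt_one_shift (d : ℕ) (hd : 0 < d) (b : ℤ) (τ : ℍ) :
    affPt d 1 b τ = (b : ℝ) +ᵥ affPt d 1 0 τ := by
  ext
  rw [coe_vadd, coe_affPt hd one_pos, coe_affPt hd one_pos]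
  simp
  ring

omit [NeZero N] in
lemma Gamma0_le_of_dvd {d : ℕ} (hd : d ∣ N) : Gamma0 N ≤ Gamma0 d := by
  intro γ hγ
  rw [Gamma0_mem, ZMod.intCast_zmod_eq_zero_iff_dvd] at hγ ⊢
  exact (Int.natCast_dvd_natCast.mpr hd).trans hγ

lemma jd_mem_RN {d : ℕ} (hd : d ∣ N) : jd d ∈ RN N := by
  have hd0 : 0 < d := Nat.pos_of_dvd_of_pos hd (Nat.pos_of_ne_zero (NeZero.ne N))
  haveI : NeZero d := ⟨hd0.ne'⟩
  refine ⟨fun γ hγ τ => ?_, fun γ => ?_⟩
  · obtain ⟨a, e, b, ha, he, hae, he1, h⟩ := jf_level_comp d γ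
    have he' : e = 1 := he1.mpr (Gamma0_le_of_dvd hd hγ)
    subst he'
    have ha' : a = d := by simpa using hae
    subst ha'
    show jf (affPt a 1 0 (γ • τ)) = jf (affPt a 1 0 τ)
    rw [h τ, affPt_one_shift a hd0, jf_vadd]
  · obtain ⟨a, e, b, ha, he, hae, -, h⟩ := jf_level_comp d γ
    have : (fun τ => jd d (γ • τ)) = compAff jf a e b := funext h
    rw [this]
    exact meroInf_compAff_jf ha he b (hae ▸ hd)

lemma jd_one : jd 1 = jf := by
  funext τ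
  show jf (affPt 1 1 0 τ) = jf τ
  congr 1
  ext
  rw [coe_affPt one_pos one_pos]
  simp

lemma lau_jd (d : ℕ) [NeZero d] :
    lau 1 (jd d) = ModularCurve.qExpand ℂ d
      (ModularCurve.coeffMap (algebraMap ℚ ℂ) ModularCurve.jq) := by
  rw [jd, lau_level meroInf_jf d, lau_jf]

end FA24
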